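import Fermat.Agent.S56.Grp.Residue.Endgame3
import Fermat.Agent.S56.Grp.Main

/-!
# (a5-G) the residue (G4c): `ResidueVanishing p k` for every odd `p`

`G` finite, `π : G →* GL₂(k)` injective with `ImgHyp p π`, `p ∣ |G|`, the only scalars of `π(G)`
have square one: every cocycle with values in `ad⁰(1)` is a coboundary.  For `p ≥ 5` the
hypotheses are contradictory (`false_of_card_sylow`), for `p = 3` see `Endgame3`.
Consequence: the Taylor-Wiles set of a non-trivial class is nonempty (`twSet_nonempty`).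
-/

set_option autoImplicit false

namespace Fermat.Agent.S56.Grp.Residue.Endgame

open Matrix Polynomial Pointwise Fermat.Agent.S56.Grp

variable {k : Type} [Field k] {G : Type} [Group G]

local notation "Mat2" => Matrix (Fin 2) (Fin 2)

section

variable {p : ℕ} [Fact p.Prime] [CharP k p] [Finite G]

/-- a frame adapted to two Sylow `p`-subgroups -/
theorem exists_frame (hp2 : p ≠ 2) (π : G →* GL (Fin 2) k) (hπ : Function.Injective π)
    (h : ImgHyp p π) (hp : p ∣ Nat.card G) (P : Sylow p G) :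
    ∃ (v : Fin 2 → k) (g₀ : GL (Fin 2) k) (Q : Sylow p G) (v' : Fin 2 → k),
      Frame p π P v g₀ ∧ Q ≠ P ∧ (∀ y ∈ Q, (π y : Mat2 k) *ᵥ v' = v') ∧
      (∀ u : Fin 2 → k, (∀ y ∈ Q, (π y : Mat2 k) *ᵥ u = u) → ∃ μ : k, u = μ • v') ∧
      (g₀ : Mat2 k) *ᵥ v' = ![0, 1] := by
  have hPne : (P : Subgroup G) ≠ ⊥ := P.ne_bot_of_dvd_card hp
  obtain ⟨v, hv, hPv, hPline⟩ := exists_fixed_vector π hp2 hπ P.isPGroup' hPne
  -- a second Sylow subgroup
  have h1 := h.irr v hv
  push Not at h1
  obtain ⟨g, hg⟩ := h1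
  have hQ : g • P ≠ P := by
    intro hgP
    obtain ⟨μ, hμ⟩ := hPline _ (fixes_of_smul_eq π hgP hPv)
    exact hg μ hμ
  have hQne : ((g • P : Sylow p G) : Subgroup G) ≠ ⊥ := (g • P).ne_bot_of_dvd_card hp
  obtain ⟨v', hv', hQv', hQline⟩ := exists_fixed_vector π hp2 hπ (g • P).isPGroup' hQne
  -- independence
  have hD : v 0 * v' 1 - v 1 * v' 0 ≠ 0 := by
    intro hD
    obtain ⟨μ, hμ⟩ := exists_smul_of_det_eq_zero hv hD
    have hμ0 : μ ≠ 0 := by
      rintro rfl
      rw [zero_smul] at hμ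
      exact hv' hμ
    apply hQ
    symm
    refine sylow_eq_of_fixes π hπ P (g • P) hv hPv (fun y hy => ?_)
    have := hQv' y hy
    rw [hμ, Matrix.mulVec_smul] at this
    exact smul_right_injective _ hμ0 this
  obtain ⟨g₀, hg1, hg2⟩ := exists_basis_change hD
  exact ⟨v, g₀, g • P, v', ⟨hπ, hv, hPv, hPline, hg1⟩, hQ, hQv', hQline, hg2⟩

end

/-- **`p = 3`** -/
theorem isCoboundary_of_three [CharP k 3] [Finite G] (π : G →* GL (Fin 2) k)
    (hπ : Function.Injective π) (h : ImgHyp 3 π) (hp : 3 ∣ Nat.card G)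
    (c : G → Mat2 k) (hc : IsCocycle π c) : IsCoboundary π c := by
  have : Fact (Nat.Prime 3) := ⟨Nat.prime_three⟩
  have hp2 : (3 : ℕ) ≠ 2 := by norm_num
  obtain ⟨v, g₀, Q, v', F, hQ, hQv', hQline, hg2⟩ :=
    exists_frame hp2 π hπ h hp (default : Sylow 3 G)
  obtain ⟨n, hn⟩ := IsPGroup.iff_card.1 (default : Sylow 3 G).isPGroup'
  have hn' : Nat.card (default : Sylow 3 G) = 3 ^ n := hn
  have hPne : ((default : Sylow 3 G) : Subgroup G) ≠ ⊥ :=
    (default : Sylow 3 G).ne_bot_of_dvd_card hp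
  rcases Nat.lt_or_ge n 2 with hlt | hge
  · have hn1 : n = 1 := by
      rcases Nat.eq_zero_or_pos n with h0 | h0
      · exfalso
        apply hPne
        apply Subgroup.eq_bot_of_card_eq
        rw [hn, h0, pow_zero]
      · omega
    rw [hn1, pow_one] at hn'
    exact F.isCoboundary_of_card_three hn' c hc
  · have hq5 : 5 ≤ Nat.card (default : Sylow 3 G) := by
      rw [hn']
      calc 5 ≤ 3 ^ 2 := by norm_num
        _ ≤ 3 ^ n := Nat.pow_le_pow_right (by norm_num) hge
    exact F.isCoboundary_of_five_le h hq5 Q hQ hQv' hQline hg2 c hc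

/-- **the residue (G4c)** -/
theorem residueVanishing {p : ℕ} [Fact p.Prime] [CharP k p] (hp2 : p ≠ 2) :
    ResidueVanishing p k := by
  intro G _ _ π hπ h hp hsc c hc
  by_cases hp3 : p = 3
  · subst hp3
    exact isCoboundary_of_three π hπ h hp c hc
  · exfalso
    have hp5 : 5 ≤ p := by
      have h2 := (Fact.out : p.Prime).two_le
      have h4 : p ≠ 4 := by
        rintro rfl
        exact absurd (Fact.out : (4 : ℕ).Prime) (by norm_num)
      omega
    obtain ⟨v, g₀, Q, v', F, -, -, -, -⟩ := exists_frame hp2 π hπ h hp (default : Sylow p G)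
    have hq5 : 5 ≤ Nat.card (default : Sylow p G) := by
      obtain ⟨n, hn⟩ := IsPGroup.iff_card.1 (default : Sylow p G).isPGroup'
      have hn' : Nat.card (default : Sylow p G) = p ^ n := hn
      have hPne : ((default : Sylow p G) : Subgroup G) ≠ ⊥ :=
        (default : Sylow p G).ne_bot_of_dvd_card hp
      have hn0 : n ≠ 0 := by
        rintro rfl
        apply hPne
        apply Subgroup.eq_bot_of_card_eq
        rw [hn, pow_zero]
      rw [hn']
      calc 5 ≤ p := hp5
        _ = p ^ 1 := (pow_one p).symm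
        _ ≤ p ^ n := Nat.pow_le_pow_right (by omega) (by omega)
    exact false_of_card_sylow hp5 π hπ h hp hsc (default : Sylow p G)
      (F.card_sylow_eq hp2 h hq5).1

end Fermat.Agent.S56.Grp.Residue.Endgame

namespace Fermat.Agent.S56.Grp

open Matrix Polynomial Fermat.Agent.S56.Grp.Residue.Endgame

/-- **MAIN THEOREM of (a5-G)**: the Taylor-Wiles set of a cocycle which is not a coboundary is
nonempty -/
theorem twSet_nonempty {k : Type} [Field k] {G : Type} [Group G] {p n : ℕ} [Fact p.Prime]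
    [CharP k p] [Finite G] (hp2 : p ≠ 2) (π : G →* GL (Fin 2) k)
    (χ : G →* (ZMod (p ^ (n + 1)))ˣ) (h : TWHyp p n π χ)
    (c : G → Matrix (Fin 2) (Fin 2) k) (hc : IsCocycle π c) (hnc : ¬ IsCoboundary π c) :
    (twSet π χ c).Nonempty :=
  twSet_nonempty_of_residue (residueVanishing hp2) hp2 π χ h c hc hnc

end Fermat.Agent.S56.Grp
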