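import Mathlib

/-!
# (R4) The arithmetic of the class equation for finite irreducible subgroups of `SL₂(k)`
containing a nontrivial unipotent element

Pure `ℕ`-arithmetic.  Notation (from the paper chain of (a5-G)/(G4c)):
`q = #P` (order of a Sylow `p`-subgroup, an odd prime power), `k0 = #(K/Z)`, `n = [G : B] = 1 + m q`,
`g = #(G/Z) = q k0 n`.  The classes of (t)-type maximal abelian subgroups are indexed by `I`;
`e i = #(A_i/Z) ≥ 2`, `f i = [N_G(A_i) : A_i] ∈ {1, 2}`, `c i = [G : N_G(A_i)]`, so that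
`c i * (f i * e i) = g`.  The class equation reads
`g = 1 + (q - 1) n + ∑ i, (e i - 1) c i`.
-/

namespace Fermat.Agent.S56.Grp.Residue.Arithmetic

open Finset

section Terms

variable {I : Type*} {g : ℕ} {e f c : I → ℕ}

theorem term_add_c (i : I) (he : 2 ≤ e i) : (e i - 1) * c i + c i = e i * c i := by
  obtain ⟨d, hd⟩ : ∃ d, e i = d + 1 := ⟨e i - 1, by omega⟩
  rw [hd]; simp; ring

/-- every (t)-term is at least `g / 4`. -/
theorem le_four_mul_term (i : I) (he : 2 ≤ e i) (hf : f i = 1 ∨ f i = 2)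
    (hc : c i * (f i * e i) = g) : g ≤ 4 * ((e i - 1) * c i) := by
  have h1 := term_add_c (c := c) i he
  have h2 : 2 * c i ≤ e i * c i := Nat.mul_le_mul_right _ he
  rcases hf with hf | hf
  · rw [hf] at hc; nlinarith
  · rw [hf] at hc; nlinarith

/-- a (t)-term with `f = 1` is at least `g / 2`. -/
theorem le_two_mul_term_of_f_eq_one (i : I) (he : 2 ≤ e i) (hf : f i = 1)
    (hc : c i * (f i * e i) = g) : g ≤ 2 * ((e i - 1) * c i) := by
  have h1 := term_add_c (c := c) i he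
  have h2 : 2 * c i ≤ e i * c i := Nat.mul_le_mul_right _ he
  rw [hf] at hc; nlinarith

end Terms

/-- The numerical data of the class equation of `G/Z` (see the file header). -/
structure ClassEq {I : Type*} [Fintype I] (q k0 n m g : ℕ) (e f c : I → ℕ) : Prop where
  five_le_q : 5 ≤ q
  odd_q : Odd q
  one_le_m : 1 ≤ m
  n_eq : n = 1 + m * q
  g_eq : g = q * k0 * n
  k0_pos : 0 < k0
  k0_le : k0 ≤ q - 1
  two_le_e : ∀ i, 2 ≤ e i
  f_eq : ∀ i, f i = 1 ∨ f i = 2
  c_mul : ∀ i, c i * (f i * e i) = g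
  class_eq : g = 1 + (q - 1) * n + ∑ i, (e i - 1) * c i
  exists_e_eq_k0 : 1 < k0 → ∃ i0, e i0 = k0

namespace ClassEq

variable {I : Type*} [Fintype I] {q k0 n m g : ℕ} {e f c : I → ℕ}

theorem n_pos (h : ClassEq q k0 n m g e f c) : 0 < n := by rw [h.n_eq]; omega

theorem q_le_n_sub_one (h : ClassEq q k0 n m g e f c) : q + 1 ≤ n := by
  rw [h.n_eq]; have := h.one_le_m; nlinarith [h.five_le_q]

/-- `(L3)(a)`: `k0 = 1` is impossible (for `q ≥ 5`; in fact for `q ≥ 4`). -/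
theorem one_lt_k0 (h : ClassEq q k0 n m g e f c) : 1 < k0 := by
  by_contra hk
  have hk1 : k0 = 1 := by have := h.k0_pos; omega
  have hq := h.five_le_q
  have hn := h.q_le_n_sub_one
  obtain ⟨q', rfl⟩ : ∃ q', q = q' + 1 := ⟨q - 1, by omega⟩
  have hg : g = (q' + 1) * n := by rw [h.g_eq, hk1, mul_one]
  have hsum : ∑ i, (e i - 1) * c i = n - 1 := by
    have := h.class_eq
    rw [hg] at this
    simp only [Nat.add_sub_cancel] at this
    have h2 : (q' + 1) * n = q' * n + n := by ring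
    omega
  have hpos : 0 < ∑ i, (e i - 1) * c i := by rw [hsum]; omega
  obtain ⟨i, -, hi⟩ := Finset.exists_ne_zero_of_sum_ne_zero (Nat.pos_iff_ne_zero.mp hpos)
  have hle : (e i - 1) * c i ≤ n - 1 := by
    rw [← hsum]; exact Finset.single_le_sum (f := fun i => (e i - 1) * c i)
      (fun _ _ => Nat.zero_le _) (Finset.mem_univ i)
  have h4 := le_four_mul_term i (h.two_le_e i) (h.f_eq i) (h.c_mul i)
  rw [hg] at h4
  have h5 : 5 * n ≤ (q' + 1) * n := Nat.mul_le_mul_right _ hq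
  omega

section Rest

open Classical in
/-- splitting off the term of `i0` from the sum. -/
theorem term_add_sum_erase (i0 : I) :
    (e i0 - 1) * c i0 + ∑ i ∈ (Finset.univ : Finset I).erase i0, (e i - 1) * c i
      = ∑ i, (e i - 1) * c i :=
  Finset.add_sum_erase _ (fun i => (e i - 1) * c i) (Finset.mem_univ i0)

open Classical in
/-- `(L3)(b)`: the class of `K` has `f = 2`. -/
theorem f_eq_two_of_e_eq_k0 (h : ClassEq q k0 n m g e f c) (i0 : I) (hi0 : e i0 = k0) :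
    f i0 = 2 := by
  rcases h.f_eq i0 with hf | hf
  swap
  · exact hf
  exfalso
  have hk := h.one_lt_k0
  have hq := h.five_le_q
  have hn := h.q_le_n_sub_one
  obtain ⟨q', rfl⟩ : ∃ q', q = q' + 1 := ⟨q - 1, by omega⟩
  obtain ⟨k', rfl⟩ : ∃ k', k0 = k' + 1 := ⟨k0 - 1, by omega⟩
  have hc0 : c i0 = (q' + 1) * n := by
    have := h.c_mul i0
    rw [hf, hi0, h.g_eq, one_mul] at this
    have h3 : c i0 * (k' + 1) = ((q' + 1) * n) * (k' + 1) := by rw [this]; ring
    exact Nat.eq_of_mul_eq_mul_right (Nat.succ_pos k') h3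
  have hsplit := term_add_sum_erase (e := e) (c := c) i0
  have hce := h.class_eq
  rw [← hsplit, hi0, hc0, h.g_eq] at hce
  simp only [Nat.add_sub_cancel] at hce
  set rest := ∑ i ∈ (Finset.univ : Finset I).erase i0, (e i - 1) * c i with hrest
  have hrest' : rest = n - 1 := by
    have h2 : (q' + 1) * (k' + 1) * n = k' * ((q' + 1) * n) + q' * n + n := by ring
    omega
  have hpos : rest ≠ 0 := by rw [hrest']; omega
  obtain ⟨i, hi, hine⟩ := Finset.exists_ne_zero_of_sum_ne_zero hpos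
  have hle : (e i - 1) * c i ≤ rest :=
    Finset.single_le_sum (f := fun i => (e i - 1) * c i) (fun _ _ => Nat.zero_le _) hi
  have h4 := le_four_mul_term i (h.two_le_e i) (h.f_eq i) (h.c_mul i)
  rw [h.g_eq] at h4
  have h5 : 5 * n ≤ (q' + 1) * n := Nat.mul_le_mul_right _ hq
  have h6 : (q' + 1) * n ≤ (q' + 1) * (k' + 1) * n := by
    have : (q' + 1) * (k' + 1) * n = (q' + 1) * n + k' * ((q' + 1) * n) := by ring
    omega
  omega

end Rest

section Other

open Classical in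
/-- `(L3)(c)`, first half: besides the class `i0` of `K` there is exactly one further class `i1`,
it has `f = 2`, and `k0 (1 + m q) = e₁ (1 + m (q - 2))`. -/
theorem exists_other (h : ClassEq q k0 n m g e f c) (i0 : I) (hi0 : e i0 = k0) :
    2 * c i0 = q * n ∧
    ∃ i1, i1 ≠ i0 ∧ (∀ i, i = i0 ∨ i = i1) ∧ f i1 = 2 ∧
      k0 * (1 + m * q) = e i1 * (1 + m * (q - 2)) := by
  have hf := h.f_eq_two_of_e_eq_k0 i0 hi0
  have hk := h.one_lt_k0
  have hq := h.five_le_q
  have hn := h.q_le_n_sub_one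
  have hneq := h.n_eq
  obtain ⟨q', rfl⟩ : ∃ q', q = q' + 2 := ⟨q - 2, by omega⟩
  obtain ⟨k', rfl⟩ : ∃ k', k0 = k' + 1 := ⟨k0 - 1, by omega⟩
  have hc0 : 2 * c i0 = (q' + 2) * n := by
    have := h.c_mul i0
    rw [hf, hi0, h.g_eq] at this
    have h3 : (2 * c i0) * (k' + 1) = ((q' + 2) * n) * (k' + 1) := by
      calc (2 * c i0) * (k' + 1) = c i0 * (2 * (k' + 1)) := by ring
        _ = (q' + 2) * (k' + 1) * n := this
        _ = ((q' + 2) * n) * (k' + 1) := by ring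
    exact Nat.eq_of_mul_eq_mul_right (Nat.succ_pos k') h3
  refine ⟨hc0, ?_⟩
  have hsplit := term_add_sum_erase (e := e) (c := c) i0
  have hce := h.class_eq
  have hgq := h.g_eq
  rw [← hsplit, hi0] at hce
  simp only [Nat.add_sub_cancel] at hce
  set rest := ∑ i ∈ (Finset.univ : Finset I).erase i0, (e i - 1) * c i with hrest
  have hq1 : q' + 2 - 1 = q' + 1 := by omega
  rw [hq1] at hce
  -- `2 * rest = g - (q - 2) n - 2`
  have h2rest : 2 * rest + q' * n + 2 = g := by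
    have e1 : 2 * (k' * c i0) = k' * ((q' + 2) * n) := by rw [← hc0]; ring
    have e2 : (q' + 2) * (k' + 1) * n = k' * ((q' + 2) * n) + (q' + 1) * n + n := by ring
    have e3 : (q' + 1) * n = q' * n + n := by ring
    omega
  have hpos : rest ≠ 0 := by
    intro h0
    have e2 : (q' + 2) * (k' + 1) * n = k' * ((q' + 2) * n) + q' * n + 2 * n := by ring
    have e4 : 0 < k' * ((q' + 2) * n) := by
      have : 0 < k' := by omega
      have : 0 < n := h.n_pos
      positivity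
    omega
  obtain ⟨i1, hi1, -⟩ := Finset.exists_ne_zero_of_sum_ne_zero hpos
  have hi1ne : i1 ≠ i0 := (Finset.mem_erase.mp hi1).1
  -- uniqueness
  have huniq : ∀ i, i = i0 ∨ i = i1 := by
    intro i
    by_contra hcon
    rw [not_or] at hcon
    have hmem : i ∈ ((Finset.univ : Finset I).erase i0).erase i1 :=
      Finset.mem_erase.mpr ⟨hcon.2, Finset.mem_erase.mpr ⟨hcon.1, Finset.mem_univ _⟩⟩
    have hs1 : (e i1 - 1) * c i1 + ∑ j ∈ ((Finset.univ : Finset I).erase i0).erase i1,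
        (e j - 1) * c j = rest :=
      Finset.add_sum_erase _ (fun j => (e j - 1) * c j) hi1
    have hle : (e i - 1) * c i ≤ ∑ j ∈ ((Finset.univ : Finset I).erase i0).erase i1,
        (e j - 1) * c j :=
      Finset.single_le_sum (f := fun j => (e j - 1) * c j) (fun _ _ => Nat.zero_le _) hmem
    have h4 := le_four_mul_term i (h.two_le_e i) (h.f_eq i) (h.c_mul i)
    have h4' := le_four_mul_term i1 (h.two_le_e i1) (h.f_eq i1) (h.c_mul i1)
    omega
  have hrest1 : rest = (e i1 - 1) * c i1 := by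
    have : (Finset.univ : Finset I).erase i0 = {i1} := by
      ext i
      simp only [Finset.mem_erase, Finset.mem_univ, and_true, Finset.mem_singleton]
      constructor
      · intro hne; rcases huniq i with hh | hh
        · exact absurd hh hne
        · exact hh
      · rintro rfl; exact hi1ne
    rw [hrest, this, Finset.sum_singleton]
  have hf1 : f i1 = 2 := by
    rcases h.f_eq i1 with hf1 | hf1
    · exfalso
      have := le_two_mul_term_of_f_eq_one i1 (h.two_le_e i1) hf1 (h.c_mul i1)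
      omega
    · exact hf1
  refine ⟨i1, hi1ne, huniq, hf1, ?_⟩
  -- `2 c₁ = (q - 2) n + 2`
  have hT := term_add_c (c := c) i1 (h.two_le_e i1)
  have hc1 := h.c_mul i1
  rw [hf1] at hc1
  have h2c1 : 2 * c i1 = q' * n + 2 := by
    have : 2 * (e i1 * c i1) = g := by rw [← hc1]; ring
    omega
  have hg2 : g = e i1 * (q' * n + 2) := by rw [← h2c1, ← hc1]; ring
  have hq2 : q' + 2 - 2 = q' := by omega
  rw [hq2]
  -- cancel `q`
  have hfin : (q' + 2) * ((k' + 1) * (1 + m * (q' + 2))) = (q' + 2) * (e i1 * (1 + m * q')) := by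
    have e5 : q' * n + 2 = (q' + 2) * (1 + m * q') := by rw [hneq]; ring
    calc (q' + 2) * ((k' + 1) * (1 + m * (q' + 2))) = (q' + 2) * (k' + 1) * n := by rw [hneq]; ring
      _ = g := hgq.symm
      _ = e i1 * (q' * n + 2) := hg2
      _ = (q' + 2) * (e i1 * (1 + m * q')) := by rw [e5]; ring
  exact Nat.eq_of_mul_eq_mul_left (by omega) hfin

end Other

section Final

/-- parity: `2 c₀ = q n` with `q` odd forces `m` odd. -/
theorem odd_m (h : ClassEq q k0 n m g e f c) : Odd m := by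
  obtain ⟨i0, hi0⟩ := h.exists_e_eq_k0 h.one_lt_k0
  have h2 := (h.exists_other i0 hi0).1
  have hqn : Even (q * n) := ⟨c i0, by rw [← h2]; ring⟩
  have hn : Even n := by
    rcases Nat.even_mul.mp hqn with hq | hn
    · exact absurd hq (Nat.not_even_iff_odd.mpr h.odd_q)
    · exact hn
  rw [h.n_eq] at hn
  have hmq : Odd (m * q) := by
    by_contra hc
    rw [Nat.not_odd_iff_even] at hc
    have : Odd (1 + m * q) := Odd.add_even odd_one hc
    exact (Nat.not_even_iff_odd.mpr this) hn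
  exact (Nat.odd_mul.mp hmq).1

/-- `1 + m (q - 2)` divides `2 k0`. -/
theorem dvd_two_mul_k0 (h : ClassEq q k0 n m g e f c) : 1 + m * (q - 2) ∣ 2 * k0 := by
  obtain ⟨i0, hi0⟩ := h.exists_e_eq_k0 h.one_lt_k0
  obtain ⟨-, i1, -, -, -, heq⟩ := h.exists_other i0 hi0
  have hq := h.five_le_q
  have hA : 1 + m * (q - 2) ∣ k0 * (1 + m * q) := ⟨e i1, by rw [heq]; ring⟩
  have hB : 1 + m * q = (1 + m * (q - 2)) + 2 * m := by
    obtain ⟨q', rfl⟩ : ∃ q', q = q' + 2 := ⟨q - 2, by omega⟩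
    simp only [Nat.add_sub_cancel]; ring
  rw [hB, mul_add] at hA
  have hA2 : 1 + m * (q - 2) ∣ k0 * (2 * m) :=
    (Nat.dvd_add_right (Dvd.intro_left _ rfl)).mp hA
  have hcop : Nat.Coprime (1 + m * (q - 2)) m := by
    simp [Nat.coprime_add_mul_left_left]
  have hA3 : 1 + m * (q - 2) ∣ (2 * k0) * m := by
    have : k0 * (2 * m) = (2 * k0) * m := by ring
    rwa [this] at hA2
  exact hcop.dvd_of_dvd_mul_right hA3

/-- `(D*)`: `m = 1`, i.e. `n = q + 1`. -/
theorem m_eq_one (h : ClassEq q k0 n m g e f c) : m = 1 := by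
  have hq := h.five_le_q
  have hm := h.one_le_m
  have hodd := h.odd_m
  have hle : 1 + m * (q - 2) ≤ 2 * k0 :=
    Nat.le_of_dvd (by have := h.k0_pos; omega) h.dvd_two_mul_k0
  have hk := h.k0_le
  by_contra hne
  have h3 : 3 ≤ m := by
    rcases hodd with ⟨t, ht⟩
    omega
  have : 3 * (q - 2) ≤ m * (q - 2) := Nat.mul_le_mul_right _ h3
  omega

theorem n_eq_q_add_one (h : ClassEq q k0 n m g e f c) : n = q + 1 := by
  rw [h.n_eq, h.m_eq_one]; ring

/-- `(D**)`: `(q - 1) ∣ 2 k0` (and `k0 ∣ q - 1`). -/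
theorem sub_one_dvd_two_mul_k0 (h : ClassEq q k0 n m g e f c) : q - 1 ∣ 2 * k0 := by
  have := h.dvd_two_mul_k0
  rw [h.m_eq_one, one_mul] at this
  have hq := h.five_le_q
  have h1 : 1 + (q - 2) = q - 1 := by omega
  rwa [h1] at this

/-- `k0 = q - 1` or `2 k0 = q - 1`. -/
theorem k0_eq_or (h : ClassEq q k0 n m g e f c) (hdvd : k0 ∣ q - 1) :
    k0 = q - 1 ∨ 2 * k0 = q - 1 := by
  obtain ⟨a, ha⟩ := hdvd
  obtain ⟨b, hb⟩ := h.sub_one_dvd_two_mul_k0
  have hq := h.five_le_q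
  have hk := h.k0_pos
  -- `2 k0 = (q - 1) b = k0 a b`, so `a b = 2`
  have hab : a * b = 2 := by
    have : k0 * (a * b) = k0 * 2 := by
      calc k0 * (a * b) = (k0 * a) * b := by ring
        _ = (q - 1) * b := by rw [← ha]
        _ = 2 * k0 := hb.symm
        _ = k0 * 2 := by ring
    exact Nat.eq_of_mul_eq_mul_left hk this
  have ha2 : a ∣ 2 := ⟨b, hab.symm⟩
  have : a = 1 ∨ a = 2 := by
    have := (Nat.dvd_prime Nat.prime_two).mp ha2
    exact this
  rcases this with rfl | rfl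
  · left; omega
  · right; omega

/-- The complete conclusion of `(L3)`: the (t)-classes are exactly `i0` (the class of `K`,
`e = k0`, `f = 2`) and one further class `i1` with `f = 2` and `e₁ (q - 1) = k0 (q + 1)`. -/
theorem exists_two_classes (h : ClassEq q k0 n m g e f c) :
    ∃ i0 i1 : I, i0 ≠ i1 ∧ (∀ i, i = i0 ∨ i = i1) ∧ e i0 = k0 ∧ f i0 = 2 ∧ f i1 = 2 ∧
      e i1 * (q - 1) = k0 * (q + 1) ∧ e i1 ≠ k0 := by
  obtain ⟨i0, hi0⟩ := h.exists_e_eq_k0 h.one_lt_k0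
  obtain ⟨-, i1, hne, huniq, hf1, heq⟩ := h.exists_other i0 hi0
  have hq := h.five_le_q
  rw [h.m_eq_one, one_mul, one_mul] at heq
  have h1 : 1 + (q - 2) = q - 1 := by omega
  rw [h1] at heq
  have heq' : e i1 * (q - 1) = k0 * (q + 1) := by rw [← heq]; ring
  refine ⟨i0, i1, hne.symm, huniq, hi0, h.f_eq_two_of_e_eq_k0 i0 hi0, hf1, heq', ?_⟩
  intro hcon
  rw [hcon] at heq'
  have := Nat.eq_of_mul_eq_mul_left h.k0_pos heq'
  omega

end Final

end ClassEq

/-! ### Unbundled forms (explicit hypotheses), as consumed by `(R5)` -/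

section Unbundled

variable {I : Type*} [Fintype I] (q k0 n m g : ℕ) (e f c : I → ℕ)

/-- `(L3)(a)`: `1 < k0`. -/
theorem one_lt_k0 (hq : 5 ≤ q) (hqodd : Odd q) (hm : 1 ≤ m) (hn : n = 1 + m * q)
    (hg : g = q * k0 * n) (hk0pos : 0 < k0) (hk0le : k0 ≤ q - 1) (he : ∀ i, 2 ≤ e i)
    (hf : ∀ i, f i = 1 ∨ f i = 2)
    (hc : ∀ i, c i * (f i * e i) = g)
    (hclass : g = 1 + (q - 1) * n + ∑ i, (e i - 1) * c i)
    (hK : 1 < k0 → ∃ i0, e i0 = k0) : 1 < k0 :=
  (ClassEq.mk hq hqodd hm hn hg hk0pos hk0le he hf hc hclass hK).one_lt_k0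

/-- `(L3)(b)`, i.e. `(W)`: the class of `K` has `f = 2`. -/
theorem f_eq_two_of_e_eq_k0 (hq : 5 ≤ q) (hqodd : Odd q) (hm : 1 ≤ m) (hn : n = 1 + m * q)
    (hg : g = q * k0 * n) (hk0pos : 0 < k0) (hk0le : k0 ≤ q - 1) (he : ∀ i, 2 ≤ e i)
    (hf : ∀ i, f i = 1 ∨ f i = 2)
    (hc : ∀ i, c i * (f i * e i) = g)
    (hclass : g = 1 + (q - 1) * n + ∑ i, (e i - 1) * c i)
    (hK : 1 < k0 → ∃ i0, e i0 = k0) : ∀ i0, e i0 = k0 → f i0 = 2 :=
  (ClassEq.mk hq hqodd hm hn hg hk0pos hk0le he hf hc hclass hK).f_eq_two_of_e_eq_k0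

/-- `(D*)`: `m = 1`. -/
theorem m_eq_one (hq : 5 ≤ q) (hqodd : Odd q) (hm : 1 ≤ m) (hn : n = 1 + m * q)
    (hg : g = q * k0 * n) (hk0pos : 0 < k0) (hk0le : k0 ≤ q - 1) (he : ∀ i, 2 ≤ e i)
    (hf : ∀ i, f i = 1 ∨ f i = 2)
    (hc : ∀ i, c i * (f i * e i) = g)
    (hclass : g = 1 + (q - 1) * n + ∑ i, (e i - 1) * c i)
    (hK : 1 < k0 → ∃ i0, e i0 = k0) : m = 1 :=
  (ClassEq.mk hq hqodd hm hn hg hk0pos hk0le he hf hc hclass hK).m_eq_one

/-- `(D**)`: `q - 1 ∣ 2 k0`. -/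
theorem sub_one_dvd_two_mul_k0 (hq : 5 ≤ q) (hqodd : Odd q) (hm : 1 ≤ m) (hn : n = 1 + m * q)
    (hg : g = q * k0 * n) (hk0pos : 0 < k0) (hk0le : k0 ≤ q - 1) (he : ∀ i, 2 ≤ e i)
    (hf : ∀ i, f i = 1 ∨ f i = 2)
    (hc : ∀ i, c i * (f i * e i) = g)
    (hclass : g = 1 + (q - 1) * n + ∑ i, (e i - 1) * c i)
    (hK : 1 < k0 → ∃ i0, e i0 = k0) : q - 1 ∣ 2 * k0 :=
  (ClassEq.mk hq hqodd hm hn hg hk0pos hk0le he hf hc hclass hK).sub_one_dvd_two_mul_k0

/-- the two classes. -/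
theorem exists_two_classes (hq : 5 ≤ q) (hqodd : Odd q) (hm : 1 ≤ m) (hn : n = 1 + m * q)
    (hg : g = q * k0 * n) (hk0pos : 0 < k0) (hk0le : k0 ≤ q - 1) (he : ∀ i, 2 ≤ e i)
    (hf : ∀ i, f i = 1 ∨ f i = 2)
    (hc : ∀ i, c i * (f i * e i) = g)
    (hclass : g = 1 + (q - 1) * n + ∑ i, (e i - 1) * c i)
    (hK : 1 < k0 → ∃ i0, e i0 = k0) :
    ∃ i0 i1 : I, i0 ≠ i1 ∧ (∀ i, i = i0 ∨ i = i1) ∧ e i0 = k0 ∧ f i0 = 2 ∧ f i1 = 2 ∧
      e i1 * (q - 1) = k0 * (q + 1) ∧ e i1 ≠ k0 :=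
  (ClassEq.mk hq hqodd hm hn hg hk0pos hk0le he hf hc hclass hK).exists_two_classes

end Unbundled

end Fermat.Agent.S56.Grp.Residue.Arithmetic
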