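import Mathlib

/-!
# PROJECT T (S56), block (a5-G), leaf (G4c): counting in a group where commuting is transitive
outside a central subgroup

`G` a finite group, `Z` a central subgroup, and (CT): commuting is a transitive relation on
`G \ Z`.  Then the centralisers `A_x = C_G(x)`, `x ∉ Z`, are abelian, two of them are equal or meet
in `Z`, and for `A = A_x` the set `spread Z A` of the elements outside `Z` which are conjugate into
`A` has `#G * (#A - #Z) = #(spread Z A) * #N_G(A)` elements.  The spreads of two centralisers are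
equal or disjoint.  This is the abstract half of the class equation of a finite subgroup of
`SL₂(k)` over its maximal abelian subgroups.
-/

set_option autoImplicit false

namespace Fermat.Agent.S56.Grp.Residue.CTCount

variable {G : Type*} [Group G] (Z : Subgroup G)

/-- commuting is transitive outside `Z` -/
def CT : Prop :=
  ∀ x y z : G, x ∉ Z → y ∉ Z → z ∉ Z → Commute x y → Commute y z → Commute x z

/-- the centraliser of one element -/
def cent (x : G) : Subgroup G := Subgroup.centralizer {x}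

theorem mem_cent {x y : G} : y ∈ cent x ↔ Commute x y := by
  unfold cent
  rw [Subgroup.mem_centralizer_iff]
  constructor
  · intro h
    exact (h x rfl)
  · intro h z hz
    rw [Set.mem_singleton_iff] at hz
    subst hz
    exact h

theorem self_mem_cent (x : G) : x ∈ cent x := mem_cent.mpr (Commute.refl x)

variable {Z}

theorem commute_of_mem_center (hZ : Z ≤ Subgroup.center G) {z : G} (hz : z ∈ Z) (y : G) :
    Commute z y :=
  ((Subgroup.mem_center_iff.mp (hZ hz)) y).symm

theorem le_cent (hZ : Z ≤ Subgroup.center G) (x : G) : Z ≤ cent x := by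
  intro z hz
  rw [mem_cent]
  exact (commute_of_mem_center hZ hz x).symm

/-- under (CT) the centraliser of a non-central element is commutative -/
theorem commute_of_mem_cent (hZ : Z ≤ Subgroup.center G) (hCT : CT Z) {x : G} (hx : x ∉ Z)
    {y z : G} (hy : y ∈ cent x) (hz : z ∈ cent x) : Commute y z := by
  by_cases hyZ : y ∈ Z
  · exact commute_of_mem_center hZ hyZ z
  by_cases hzZ : z ∈ Z
  · exact (commute_of_mem_center hZ hzZ y).symm
  exact hCT y x z hyZ hx hzZ (mem_cent.mp hy).symm (mem_cent.mp hz)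

/-- under (CT) the centraliser of a non-central element of `cent x` is `cent x` -/
theorem cent_eq_of_mem (hZ : Z ≤ Subgroup.center G) (hCT : CT Z) {x y : G} (hx : x ∉ Z)
    (hy : y ∈ cent x) (hyZ : y ∉ Z) : cent y = cent x := by
  ext z
  rw [mem_cent, mem_cent]
  by_cases hzZ : z ∈ Z
  · exact ⟨fun _ => (commute_of_mem_center hZ hzZ x).symm,
      fun _ => (commute_of_mem_center hZ hzZ y).symm⟩
  constructor
  · intro h
    exact hCT x y z hx hyZ hzZ (mem_cent.mp hy) h
  · intro h
    exact hCT y x z hyZ hx hzZ (mem_cent.mp hy).symm h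

/-- conjugation of centralisers -/
theorem mem_cent_conj {x g y : G} : y ∈ cent (g * x * g⁻¹) ↔ g⁻¹ * y * g ∈ cent x := by
  rw [mem_cent, mem_cent]
  constructor
  · intro h
    have : (g * x * g⁻¹) * y = y * (g * x * g⁻¹) := h
    show x * (g⁻¹ * y * g) = (g⁻¹ * y * g) * x
    have h2 : g⁻¹ * ((g * x * g⁻¹) * y) * g = g⁻¹ * (y * (g * x * g⁻¹)) * g := by rw [this]
    simpa [mul_assoc] using h2
  · intro h
    have : x * (g⁻¹ * y * g) = (g⁻¹ * y * g) * x := h
    show (g * x * g⁻¹) * y = y * (g * x * g⁻¹)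
    have h2 : g * (x * (g⁻¹ * y * g)) * g⁻¹ = g * ((g⁻¹ * y * g) * x) * g⁻¹ := by rw [this]
    simpa [mul_assoc] using h2

theorem conj_mem_of_mem (hZ : Z ≤ Subgroup.center G) {x : G} (g : G) (hx : x ∈ Z) :
    g * x * g⁻¹ ∈ Z := by
  have hc : Commute x g := commute_of_mem_center hZ hx g
  have : g * x * g⁻¹ = x := by
    rw [← hc.eq, mul_assoc, mul_inv_cancel, mul_one]
  rw [this]
  exact hx

theorem conj_mem_iff (hZ : Z ≤ Subgroup.center G) {x g : G} : g * x * g⁻¹ ∈ Z ↔ x ∈ Z := by
  constructor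
  · intro h
    have := conj_mem_of_mem hZ g⁻¹ h
    simpa [mul_assoc] using this
  · exact conj_mem_of_mem hZ g

theorem conj_inv_mem_iff (hZ : Z ≤ Subgroup.center G) {x g : G} : g⁻¹ * x * g ∈ Z ↔ x ∈ Z := by
  have := conj_mem_iff hZ (x := x) (g := g⁻¹)
  simpa using this

/-- the centraliser of `y` when a conjugate of `y` is a non-central element of `cent x` -/
theorem mem_cent_iff_of_conj_mem (hZ : Z ≤ Subgroup.center G) (hCT : CT Z) {x y g : G}
    (hx : x ∉ Z) (hyZ : y ∉ Z) (hy : g⁻¹ * y * g ∈ cent x) (z : G) :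
    z ∈ cent y ↔ g⁻¹ * z * g ∈ cent x := by
  have hy'Z : g⁻¹ * y * g ∉ Z := fun h => hyZ ((conj_inv_mem_iff hZ).mp h)
  have h1 : cent (g⁻¹ * y * g) = cent x := cent_eq_of_mem hZ hCT hx hy hy'Z
  have h2 : g * (g⁻¹ * y * g) * g⁻¹ = y := by
    simp [mul_assoc]
  rw [← h1, ← mem_cent_conj, h2]

section Count

variable [Fintype G]

open Classical in
/-- a subgroup as a finset -/
noncomputable def fs (A : Subgroup G) : Finset G := Finset.univ.filter (fun a => a ∈ A)

theorem mem_fs {A : Subgroup G} {a : G} : a ∈ fs A ↔ a ∈ A := by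
  classical
  simp [fs]

theorem card_fs (A : Subgroup G) : (fs A).card = Nat.card A := by
  symm
  exact Nat.subtype_card (fs A) (fun a => mem_fs)

theorem fs_subset {A B : Subgroup G} (h : A ≤ B) : fs A ⊆ fs B := by
  intro a ha
  exact mem_fs.mpr (h (mem_fs.mp ha))

open Classical in
/-- the elements outside `Z` conjugate into `A` -/
noncomputable def spread (Z A : Subgroup G) : Finset G :=
  Finset.univ.filter (fun y => y ∉ Z ∧ ∃ g : G, g⁻¹ * y * g ∈ A)

theorem mem_spread {A : Subgroup G} {y : G} :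
    y ∈ spread Z A ↔ y ∉ Z ∧ ∃ g : G, g⁻¹ * y * g ∈ A := by
  classical
  simp [spread]

omit [Fintype G] in
/-- the fibre of the conjugation map over an element of the spread is a coset of the normaliser -/
theorem fibre_iff (hZ : Z ≤ Subgroup.center G) (hCT : CT Z) {x y g₀ : G}
    (hx : x ∉ Z) (hyZ : y ∉ Z) (hy : g₀⁻¹ * y * g₀ ∈ cent x) (g : G) :
    g⁻¹ * y * g ∈ cent x ↔ g₀⁻¹ * g ∈ Subgroup.normalizer (cent x : Set G) := by
  constructor
  · intro hg
    have h0 := mem_cent_iff_of_conj_mem hZ hCT hx hyZ hy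
    have h1 := mem_cent_iff_of_conj_mem hZ hCT hx hyZ hg
    have hinv : (g⁻¹ * g₀) ∈ Subgroup.normalizer (cent x : Set G) := by
      rw [Subgroup.mem_set_normalizer_iff]
      intro a
      have e1 := h0 (g₀ * a * g₀⁻¹)
      have e2 := h1 (g₀ * a * g₀⁻¹)
      have e3 : g₀⁻¹ * (g₀ * a * g₀⁻¹) * g₀ = a := by simp [mul_assoc]
      have e4 : g⁻¹ * (g₀ * a * g₀⁻¹) * g = g⁻¹ * g₀ * a * (g⁻¹ * g₀)⁻¹ := by
        simp [mul_assoc]
      rw [e3] at e1
      rw [e4] at e2
      show a ∈ cent x ↔ g⁻¹ * g₀ * a * (g⁻¹ * g₀)⁻¹ ∈ cent x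
      rw [← e1, e2]
    have := (Subgroup.normalizer (cent x : Set G)).inv_mem hinv
    simpa using this
  · intro hn
    have hn' := (Subgroup.normalizer (cent x : Set G)).inv_mem hn
    rw [Subgroup.mem_set_normalizer_iff] at hn'
    have := (hn' (g₀⁻¹ * y * g₀)).mp hy
    have e : (g₀⁻¹ * g)⁻¹ * (g₀⁻¹ * y * g₀) * (g₀⁻¹ * g)⁻¹⁻¹ = g⁻¹ * y * g := by
      simp [mul_assoc]
    rw [e] at this
    exact this

/-- **the count**: `#G * (#A - #Z) = #(spread Z A) * #N_G(A)` for `A = cent x`, `x ∉ Z`. -/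
theorem card_mul_eq (hZ : Z ≤ Subgroup.center G) (hCT : CT Z) {x : G} (hx : x ∉ Z) :
    Fintype.card G * (Nat.card (cent x) - Nat.card Z) =
      (spread Z (cent x)).card * Nat.card (Subgroup.normalizer (cent x : Set G)) := by
  classical
  set A := cent x with hA
  -- the number of non-central elements of `A`
  have hnA : (Finset.univ.filter (fun a : G => a ∉ Z ∧ a ∈ A)).card = Nat.card A - Nat.card Z := by
    have h1 : Finset.univ.filter (fun a : G => a ∉ Z ∧ a ∈ A) = fs A \ fs Z := by
      ext a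
      simp [mem_fs, and_comm]
    rw [h1, Finset.card_sdiff_of_subset (fs_subset (le_cent hZ x)), card_fs, card_fs]
  -- first count
  have hL : ∀ g : G, (Finset.univ.filter (fun y : G => y ∉ Z ∧ g⁻¹ * y * g ∈ A)).card =
      Nat.card A - Nat.card Z := by
    intro g
    rw [← hnA]
    refine Finset.card_equiv (MulAut.conj g⁻¹).toEquiv ?_
    intro y
    simp only [Finset.mem_filter, Finset.mem_univ, true_and, MulEquiv.toEquiv_eq_coe,
      EquivLike.coe_coe, MulAut.conj_apply, inv_inv]
    rw [conj_inv_mem_iff hZ]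
  -- second count
  have hR : ∀ y : G, (Finset.univ.filter (fun g : G => y ∉ Z ∧ g⁻¹ * y * g ∈ A)).card =
      if y ∈ spread Z A then Nat.card (Subgroup.normalizer (A : Set G)) else 0 := by
    intro y
    split_ifs with hy
    · obtain ⟨hyZ, g₀, hg₀⟩ := mem_spread.mp hy
      rw [← card_fs]
      refine Finset.card_equiv (Equiv.mulLeft g₀⁻¹) ?_
      intro g
      simp only [Finset.mem_filter, Finset.mem_univ, true_and, Equiv.coe_mulLeft, mem_fs]
      rw [fibre_iff hZ hCT hx hyZ hg₀ g]
      exact ⟨fun h => h.2, fun h => ⟨hyZ, h⟩⟩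
    · rw [Finset.card_eq_zero, Finset.filter_eq_empty_iff]
      intro g _ hg
      exact hy (mem_spread.mpr ⟨hg.1, g, hg.2⟩)
  calc Fintype.card G * (Nat.card A - Nat.card Z)
      = ∑ _g : G, (Nat.card A - Nat.card Z) := by
        rw [Finset.sum_const, Finset.card_univ, smul_eq_mul]
    _ = ∑ g : G, ∑ y : G, if (y ∉ Z ∧ g⁻¹ * y * g ∈ A) then 1 else 0 := by
        refine Finset.sum_congr rfl (fun g _ => ?_)
        rw [← hL g, Finset.card_filter]
    _ = ∑ y : G, ∑ g : G, if (y ∉ Z ∧ g⁻¹ * y * g ∈ A) then 1 else 0 := Finset.sum_comm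
    _ = ∑ y : G, if y ∈ spread Z A then Nat.card (Subgroup.normalizer (A : Set G)) else 0 := by
        refine Finset.sum_congr rfl (fun y _ => ?_)
        rw [← hR y, Finset.card_filter]
    _ = (spread Z A).card * Nat.card (Subgroup.normalizer (A : Set G)) := by
        rw [Finset.sum_ite_mem, Finset.univ_inter, Finset.sum_const, smul_eq_mul]

/-- the spread as a multiple of the index of the normaliser -/
theorem card_spread (hZ : Z ≤ Subgroup.center G) (hCT : CT Z) {x : G} (hx : x ∉ Z) :
    (spread Z (cent x)).card =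
      (Subgroup.normalizer (cent x : Set G)).index * (Nat.card (cent x) - Nat.card Z) := by
  have h := card_mul_eq hZ hCT hx
  have hidx := Subgroup.index_mul_card (Subgroup.normalizer (cent x : Set G))
  rw [← Nat.card_eq_fintype_card, ← hidx] at h
  have hpos : 0 < Nat.card (Subgroup.normalizer (cent x : Set G)) := Nat.card_pos
  have h' : Nat.card (Subgroup.normalizer (cent x : Set G)) *
      ((Subgroup.normalizer (cent x : Set G)).index * (Nat.card (cent x) - Nat.card Z)) =
      Nat.card (Subgroup.normalizer (cent x : Set G)) * (spread Z (cent x)).card := by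
    rw [mul_comm _ (spread Z (cent x)).card, ← h]; ring
  exact (Nat.eq_of_mul_eq_mul_left hpos h').symm

theorem self_mem_spread {x : G} (hx : x ∉ Z) : x ∈ spread Z (cent x) := by
  rw [mem_spread]
  refine ⟨hx, 1, ?_⟩
  simpa using self_mem_cent x

/-- an element of the spread of `cent x` has the same spread -/
theorem spread_eq_of_mem (hZ : Z ≤ Subgroup.center G) (hCT : CT Z) {x y : G} (hx : x ∉ Z)
    (hy : y ∈ spread Z (cent x)) : spread Z (cent y) = spread Z (cent x) := by
  obtain ⟨hyZ, g, hg⟩ := mem_spread.mp hy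
  have key := mem_cent_iff_of_conj_mem hZ hCT hx hyZ hg
  ext w
  rw [mem_spread, mem_spread]
  constructor
  · rintro ⟨hw, h, hh⟩
    refine ⟨hw, h * g, ?_⟩
    have := (key _).mp hh
    simpa [mul_assoc] using this
  · rintro ⟨hw, h, hh⟩
    refine ⟨hw, h * g⁻¹, ?_⟩
    rw [key]
    simpa [mul_assoc] using hh

/-- **abstract class equation**: a set `S` of non-central elements which contains the spread of
each of its elements is the disjoint union of the spreads of a set `R` of representatives. -/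
theorem exists_representatives (hZ : Z ≤ Subgroup.center G) (hCT : CT Z) (S : Finset G)
    (hS : ∀ x ∈ S, x ∉ Z) (hcl : ∀ x ∈ S, spread Z (cent x) ⊆ S) :
    ∃ R : Finset G, R ⊆ S ∧
      (∀ x ∈ R, ∀ y ∈ R, y ∈ spread Z (cent x) → x = y) ∧
      (∀ y ∈ S, ∃ x ∈ R, y ∈ spread Z (cent x)) ∧
      S.card = ∑ x ∈ R, (spread Z (cent x)).card := by
  classical
  set F : G → Finset G := fun x => spread Z (cent x) with hF
  set I : Finset (Finset G) := S.image F with hI
  have hex : ∀ T ∈ I, ∃ x ∈ S, F x = T := fun T hT => by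
    obtain ⟨x, hx, rfl⟩ := Finset.mem_image.mp hT
    exact ⟨x, hx, rfl⟩
  set r : Finset G → G := fun T => if h : ∃ x ∈ S, F x = T then Classical.choose h else 1 with hr
  have hrS : ∀ T ∈ I, r T ∈ S ∧ F (r T) = T := by
    intro T hT
    have h := hex T hT
    have : r T = Classical.choose h := by simp only [hr, dif_pos h]
    rw [this]
    exact Classical.choose_spec h
  have hrinj : Set.InjOn r (I : Set (Finset G)) := by
    intro T₁ h₁ T₂ h₂ h
    rw [← (hrS T₁ h₁).2, ← (hrS T₂ h₂).2, h]
  have hfib : ∀ T ∈ I, S.filter (fun x => F x = T) = T := by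
    intro T hT
    obtain ⟨x₀, hx₀, rfl⟩ := hex T hT
    ext y
    simp only [Finset.mem_filter]
    constructor
    · rintro ⟨hyS, hy⟩
      rw [← hy]
      exact self_mem_spread (hS y hyS)
    · intro hy
      exact ⟨hcl x₀ hx₀ hy, spread_eq_of_mem hZ hCT (hS x₀ hx₀) hy⟩
  refine ⟨I.image r, ?_, ?_, ?_, ?_⟩
  · intro x hx
    obtain ⟨T, hT, rfl⟩ := Finset.mem_image.mp hx
    exact (hrS T hT).1
  · intro x hx y hy hyx
    obtain ⟨T₁, hT₁, rfl⟩ := Finset.mem_image.mp hx
    obtain ⟨T₂, hT₂, rfl⟩ := Finset.mem_image.mp hy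
    have h1 := spread_eq_of_mem hZ hCT (hS _ (hrS T₁ hT₁).1) hyx
    have h2 : T₂ = T₁ := by
      rw [← (hrS T₁ hT₁).2, ← (hrS T₂ hT₂).2]
      exact h1
    rw [h2]
  · intro y hy
    have hT : F y ∈ I := Finset.mem_image_of_mem F hy
    refine ⟨r (F y), Finset.mem_image_of_mem r hT, ?_⟩
    have := (hrS (F y) hT).2
    show y ∈ F (r (F y))
    rw [this]
    exact self_mem_spread (hS y hy)
  · rw [Finset.sum_image hrinj, Finset.card_eq_sum_card_image F S]
    refine Finset.sum_congr rfl (fun T hT => ?_)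
    rw [hfib T hT]
    show T.card = (F (r T)).card
    rw [(hrS T hT).2]

/-- the same with a prescribed representative -/
theorem exists_representatives_mem (hZ : Z ≤ Subgroup.center G) (hCT : CT Z) (S : Finset G)
    (hS : ∀ x ∈ S, x ∉ Z) (hcl : ∀ x ∈ S, spread Z (cent x) ⊆ S) {s₀ : G} (hs₀ : s₀ ∈ S) :
    ∃ R : Finset G, R ⊆ S ∧ s₀ ∈ R ∧
      (∀ x ∈ R, ∀ y ∈ R, y ∈ spread Z (cent x) → x = y) ∧
      (∀ y ∈ S, ∃ x ∈ R, y ∈ spread Z (cent x)) ∧
      S.card = ∑ x ∈ R, (spread Z (cent x)).card := by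
  classical
  set F : G → Finset G := fun x => spread Z (cent x) with hF
  set I : Finset (Finset G) := S.image F with hI
  have hex : ∀ T ∈ I, ∃ x ∈ S, F x = T := fun T hT => by
    obtain ⟨x, hx, rfl⟩ := Finset.mem_image.mp hT
    exact ⟨x, hx, rfl⟩
  set r : Finset G → G := fun T =>
    if T = F s₀ then s₀ else if h : ∃ x ∈ S, F x = T then Classical.choose h else 1 with hr
  have hrS : ∀ T ∈ I, r T ∈ S ∧ F (r T) = T := by
    intro T hT
    by_cases h0 : T = F s₀
    · have : r T = s₀ := by simp only [hr, if_pos h0]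
      rw [this]
      exact ⟨hs₀, h0.symm⟩
    · have h := hex T hT
      have : r T = Classical.choose h := by simp only [hr, if_neg h0, dif_pos h]
      rw [this]
      exact Classical.choose_spec h
  have hrinj : Set.InjOn r (I : Set (Finset G)) := by
    intro T₁ h₁ T₂ h₂ h
    rw [← (hrS T₁ h₁).2, ← (hrS T₂ h₂).2, h]
  have hfib : ∀ T ∈ I, S.filter (fun x => F x = T) = T := by
    intro T hT
    obtain ⟨x₀, hx₀, rfl⟩ := hex T hT
    ext y
    simp only [Finset.mem_filter]
    constructor
    · rintro ⟨hyS, hy⟩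
      rw [← hy]
      exact self_mem_spread (hS y hyS)
    · intro hy
      exact ⟨hcl x₀ hx₀ hy, spread_eq_of_mem hZ hCT (hS x₀ hx₀) hy⟩
  refine ⟨I.image r, ?_, ?_, ?_, ?_, ?_⟩
  · intro x hx
    obtain ⟨T, hT, rfl⟩ := Finset.mem_image.mp hx
    exact (hrS T hT).1
  · have hT : F s₀ ∈ I := Finset.mem_image_of_mem F hs₀
    have : r (F s₀) = s₀ := by simp only [hr, if_pos rfl]
    rw [← this]
    exact Finset.mem_image_of_mem r hT
  · intro x hx y hy hyx
    obtain ⟨T₁, hT₁, rfl⟩ := Finset.mem_image.mp hx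
    obtain ⟨T₂, hT₂, rfl⟩ := Finset.mem_image.mp hy
    have h1 := spread_eq_of_mem hZ hCT (hS _ (hrS T₁ hT₁).1) hyx
    have h2 : T₂ = T₁ := by
      rw [← (hrS T₁ hT₁).2, ← (hrS T₂ hT₂).2]
      exact h1
    rw [h2]
  · intro y hy
    have hT : F y ∈ I := Finset.mem_image_of_mem F hy
    refine ⟨r (F y), Finset.mem_image_of_mem r hT, ?_⟩
    have := (hrS (F y) hT).2
    show y ∈ F (r (F y))
    rw [this]
    exact self_mem_spread (hS y hy)
  · rw [Finset.sum_image hrinj, Finset.card_eq_sum_card_image F S]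
    refine Finset.sum_congr rfl (fun T hT => ?_)
    rw [hfib T hT]
    show T.card = (F (r T)).card
    rw [(hrS T hT).2]

end Count

end Fermat.Agent.S56.Grp.Residue.CTCount
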