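import Fermat.Agent.S56.Grp.Residue.SL2Borel
import Fermat.Agent.S56.Grp.Residue.Arithmetic

/-!
# PROJECT T (S56), block (a5-G), leaf (G4c), file (R3): the class equation of a finite group of
two by two matrices of determinant one over its maximal abelian subgroups, in normalised
coordinates, and its arithmetic consequences (through `Arithmetic`).
-/

set_option autoImplicit false

namespace Fermat.Agent.S56.Grp.Residue.ClassEq

open Matrix
open Fermat.Agent.S56.Grp.Residue.Mat2
open Fermat.Agent.S56.Grp.Residue.Mat2Extra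
open Fermat.Agent.S56.Grp.Residue.CTCount
open Fermat.Agent.S56.Grp.Residue.SL2Class
open Fermat.Agent.S56.Grp.Residue.SL2Borel

variable {k : Type*} [Field k] {H : Type*} [Group H] {φ : H →* GL (Fin 2) k}
  {hdet : ∀ x : H, (mt φ x).det = 1}

/-- there are at most two scalars -/
theorem card_scal_le_two [Fintype H] (hφ : Function.Injective φ) :
    Nat.card (scal φ hdet) ≤ 2 := by
  classical
  rw [← card_fs]
  have h1 : (fs (scal φ hdet)).card ≤ ({1, -1} : Finset k).card := by
    apply Finset.card_le_card_of_injOn (fun z => mt φ z 0 0)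
    · intro z hz
      have hz' : z ∈ scal φ hdet := mem_fs.mp hz
      rcases mt_eq_of_mem_scal hz' with h | h
      · simp [h]
      · simp [h]
    · intro z hz z' hz' h
      have hz1 : z ∈ scal φ hdet := mem_fs.mp hz
      have hz2 : z' ∈ scal φ hdet := mem_fs.mp hz'
      obtain ⟨a, ha⟩ := mem_scal.mp hz1
      obtain ⟨b, hb⟩ := mem_scal.mp hz2
      apply mt_injective hφ
      have h' : mt φ z 0 0 = mt φ z' 0 0 := h
      rw [ha, hb] at h'
      rw [ha, hb]
      have : a = b := by simpa using h'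
      rw [this]
  exact h1.trans (Finset.card_le_two)

/-- `unip` is a `p`-group: its order is a power of `p` -/
theorem exists_card_unip_eq_pow [Finite H] (hφ : Function.Injective φ) (p : ℕ) [Fact p.Prime]
    [CharP k p] (hp2 : p ≠ 2) : ∃ j : ℕ, Nat.card (unip φ hdet) = p ^ j := by
  have hP : IsPGroup p (unip φ hdet) := by
    intro u
    refine ⟨1, ?_⟩
    apply Subtype.ext
    rw [pow_one, Subgroup.coe_pow, Subgroup.coe_one, ← mt_eq_one_iff hφ, mt_pow]
    obtain ⟨h1, h2⟩ := mem_unip.mp u.2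
    have h3 := diag_mul_of_mem_borel (unip_le_borel u.2)
    rw [h2, one_mul] at h3
    rw [pow_char_of_upper p hp2 h1 (by rw [h2, h3]) (hdet _), h2, one_smul]
  exact IsPGroup.iff_card.mp hP

/-- an upper triangular element with diagonal entry `-1` produces the scalar `-1` -/
theorem two_le_card_scal_of_neg_one [Fintype H] (p : ℕ)
    [Fact p.Prime] [CharP k p] (hp2 : p ≠ 2) {b : H} (hb : b ∈ borel φ hdet)
    (hb00 : mt φ b 0 0 = -1) : 2 ≤ Nat.card (scal φ hdet) := by
  classical
  have h2 : (2 : k) ≠ 0 := by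
    intro h
    have h' : ((2 : ℕ) : k) = 0 := by exact_mod_cast h
    rw [CharP.cast_eq_zero_iff k p] at h'
    have := (Nat.prime_dvd_prime_iff_eq (Fact.out : p.Prime) Nat.prime_two).mp h'
    exact hp2 this
  have hb11 : mt φ b 1 1 = -1 := by
    have := diag_mul_of_mem_borel hb
    rw [hb00] at this
    linear_combination -this
  have hpow : mt φ (b ^ p) = (-1 : k) • (1 : Matrix (Fin 2) (Fin 2) k) := by
    rw [mt_pow, pow_char_of_upper p hp2 (mem_borel.mp hb) (by rw [hb00, hb11]) (hdet b), hb00]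
  have hz : b ^ p ∈ scal φ hdet := mem_scal.mpr ⟨_, hpow⟩
  have hne : b ^ p ≠ 1 := by
    intro h
    rw [h, mt_one] at hpow
    have := congrFun (congrFun hpow 0) 0
    simp at this
    apply h2
    linear_combination this
  rw [← card_fs]
  have hsub : ({1, b ^ p} : Finset H) ⊆ fs (scal φ hdet) := by
    intro y hy
    rw [Finset.mem_insert, Finset.mem_singleton] at hy
    rcases hy with rfl | rfl
    · exact mem_fs.mpr (scal φ hdet).one_mem
    · exact mem_fs.mpr hz
  have := Finset.card_le_card hsub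
  rwa [Finset.card_pair (Ne.symm hne)] at this

section Data

variable [Fintype H] (hφ : Function.Injective φ)

open Classical in
/-- the non-central elements of semisimple type -/
noncomputable def ssSet (φ : H →* GL (Fin 2) k) (hdet : ∀ x : H, (mt φ x).det = 1) : Finset H :=
  Finset.univ.filter (fun x => x ∉ scal φ hdet ∧ disc (mt φ x) ≠ 0)

theorem mem_ssSet {x : H} : x ∈ ssSet φ hdet ↔ x ∉ scal φ hdet ∧ disc (mt φ x) ≠ 0 := by
  classical
  simp [ssSet]

include hφ in
theorem ssSet_closed {x : H} (hx : x ∈ ssSet φ hdet) :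
    spread (scal φ hdet) (cent x) ⊆ ssSet φ hdet := by
  intro y hy
  obtain ⟨hxZ, hxd⟩ := mem_ssSet.mp hx
  rw [mem_ssSet]
  refine ⟨(mem_spread.mp hy).1, ?_⟩
  intro h
  exact hxd ((disc_eq_zero_iff_of_mem_spread hφ hxZ hy).mp h)

/-- the three numbers attached to a non-central element of semisimple type -/
noncomputable def eOf (φ : H →* GL (Fin 2) k) (hdet : ∀ x : H, (mt φ x).det = 1) (x : H) : ℕ :=
  Nat.card (cent x) / Nat.card (scal φ hdet)

/-- the index of the centraliser in its normaliser -/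
noncomputable def fOf (x : H) : ℕ :=
  Nat.card (Subgroup.normalizer (cent x : Set H)) / Nat.card (cent x)

/-- the number of conjugates of the centraliser -/
noncomputable def cOf (x : H) : ℕ := (Subgroup.normalizer (cent x : Set H)).index

omit [Fintype H] in
include hφ in
theorem card_cent_eq (x : H) :
    Nat.card (cent x) = eOf φ hdet x * Nat.card (scal φ hdet) := by
  have hle : scal φ hdet ≤ cent x := le_cent (scal_le_center hφ) x
  have hdvd : Nat.card (scal φ hdet) ∣ Nat.card (cent x) := Subgroup.card_dvd_of_le hle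
  rw [eOf, Nat.div_mul_cancel hdvd]

include hφ in
theorem two_le_eOf {x : H} (hx : x ∉ scal φ hdet) : 2 ≤ eOf φ hdet x := by
  classical
  have hle : scal φ hdet ≤ cent x := le_cent (scal_le_center hφ) x
  have hlt : Nat.card (scal φ hdet) < Nat.card (cent x) := by
    rw [← card_fs, ← card_fs]
    apply Finset.card_lt_card
    refine ⟨fs_subset hle, ?_⟩
    intro h
    exact hx (mem_fs.mp (h (mem_fs.mpr (self_mem_cent x))))
  have h1 := card_cent_eq (hdet := hdet) hφ x
  have hz : 0 < Nat.card (scal φ hdet) := Nat.card_pos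
  by_contra hcon
  have : eOf φ hdet x ≤ 1 := by omega
  have : eOf φ hdet x * Nat.card (scal φ hdet) ≤ 1 * Nat.card (scal φ hdet) :=
    Nat.mul_le_mul_right _ this
  omega

include hφ in
theorem fOf_eq (h2 : (2 : k) ≠ 0) {x : H} (hx : x ∈ ssSet φ hdet) :
    (fOf x = 1 ∨ fOf x = 2) ∧
      Nat.card (Subgroup.normalizer (cent x : Set H)) = fOf x * Nat.card (cent x) := by
  obtain ⟨hxZ, hxd⟩ := mem_ssSet.mp hx
  have hpos : 0 < Nat.card (cent x) := Nat.card_pos
  rcases card_normalizer_cent hφ h2 hxZ hxd with h | h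
  · have : fOf x = 1 := by rw [fOf, h, Nat.div_self hpos]
    exact ⟨Or.inl this, by rw [this, one_mul, h]⟩
  · have : fOf x = 2 := by rw [fOf, h, Nat.mul_div_cancel _ hpos]
    exact ⟨Or.inr this, by rw [this, h]⟩

omit [Fintype H] in
theorem cOf_mul (x : H) :
    cOf x * Nat.card (Subgroup.normalizer (cent x : Set H)) = Nat.card H :=
  Subgroup.index_mul_card _

end Data

section Equation

variable [Fintype H] (hφ : Function.Injective φ) {u₀ : H} {x₀ : k} (hu₀ : mt φ u₀ = uE x₀)
  (hx₀ : x₀ ≠ 0)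
  (hSyl : ∀ x : H, x ∉ scal φ hdet → disc (mt φ x) = 0 → ∃ g : H, mt φ (g⁻¹ * x * g) 1 0 = 0)

include hφ hu₀ hx₀ hSyl in
/-- the group is the disjoint union of the scalars, the unipotent type and the semisimple type -/
theorem card_eq_parts :
    Nat.card H = Nat.card (scal φ hdet) + (spread (scal φ hdet) (cent u₀)).card +
      (ssSet φ hdet).card := by
  classical
  have h1 := Finset.card_filter_add_card_filter_not (s := (Finset.univ : Finset H))
    (fun x => x ∈ scal φ hdet)
  have h2 := Finset.card_filter_add_card_filter_not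
    (s := (Finset.univ : Finset H).filter (fun x => ¬ x ∈ scal φ hdet))
    (fun x => disc (mt φ x) = 0)
  rw [Finset.filter_filter, Finset.filter_filter] at h2
  have e1 : (Finset.univ : Finset H).filter (fun x => x ∈ scal φ hdet) = fs (scal φ hdet) := rfl
  have e2 : (Finset.univ : Finset H).filter (fun x => ¬ x ∈ scal φ hdet ∧ disc (mt φ x) = 0) =
      spread (scal φ hdet) (cent u₀) := by
    ext x
    rw [mem_spread_cent_u₀_iff hφ hu₀ hx₀ hSyl]
    simp
  have e3 : (Finset.univ : Finset H).filter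
      (fun x => ¬ x ∈ scal φ hdet ∧ ¬ disc (mt φ x) = 0) = ssSet φ hdet := by
    ext x
    rw [mem_ssSet]
    simp
  rw [e1, card_fs] at h1
  rw [e2, e3] at h2
  rw [Nat.card_eq_fintype_card, ← Finset.card_univ, ← h1, ← h2]
  ring

variable (p : ℕ) [Fact p.Prime] [CharP k p] (hp2 : p ≠ 2)

include hφ hu₀ hx₀ hp2 in
/-- the number of elements of unipotent type -/
theorem card_spread_cent_u₀ :
    (spread (scal φ hdet) (cent u₀)).card =
      (borel φ hdet).index * (Nat.card (unip φ hdet) - 1) * Nat.card (scal φ hdet) := by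
  rw [card_spread (scal_le_center hφ) (ct_scal hφ) (u₀_notMem_scal (hdet := hdet) hu₀ hx₀),
    normalizer_cent_u₀ (hdet := hdet) hφ hu₀ hx₀, card_cent_u₀ (hdet := hdet) hφ hu₀ hx₀ p hp2]
  have : Nat.card (scal φ hdet) * Nat.card (unip φ hdet) - Nat.card (scal φ hdet) =
      (Nat.card (unip φ hdet) - 1) * Nat.card (scal φ hdet) := by
    rw [Nat.sub_mul, one_mul, mul_comm]
  rw [this, mul_assoc]

include hφ in
/-- the semisimple part of the class equation, over a set of representatives -/
theorem card_ssSet_eq {R : Finset H} (hRS : R ⊆ ssSet φ hdet)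
    (hcard : (ssSet φ hdet).card = ∑ x ∈ R, (spread (scal φ hdet) (cent x)).card) :
    (ssSet φ hdet).card =
      (∑ x ∈ R, (eOf φ hdet x - 1) * cOf x) * Nat.card (scal φ hdet) := by
  rw [hcard, Finset.sum_mul]
  refine Finset.sum_congr rfl (fun x hx => ?_)
  have hxZ := (mem_ssSet.mp (hRS hx)).1
  rw [card_spread (scal_le_center hφ) (ct_scal hφ) hxZ]
  have h1 := card_cent_eq (hdet := hdet) hφ x
  have : Nat.card (cent x) - Nat.card (scal φ hdet) =
      (eOf φ hdet x - 1) * Nat.card (scal φ hdet) := by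
    rw [h1, Nat.sub_mul, one_mul]
  rw [this, cOf]
  ring

end Equation

section Main

variable [Fintype H] (hφ : Function.Injective φ) {u₀ : H} {x₀ : k} (hu₀ : mt φ u₀ = uE x₀)
  (hx₀ : x₀ ≠ 0)
  (hSyl : ∀ x : H, x ∉ scal φ hdet → disc (mt φ x) = 0 → ∃ g : H, mt φ (g⁻¹ * x * g) 1 0 = 0)
  (p : ℕ) [Fact p.Prime] [CharP k p] (hp2 : p ≠ 2)

include hp2 in
theorem two_ne_zero_of_char : (2 : k) ≠ 0 := by
  intro h
  have h' : ((2 : ℕ) : k) = 0 := by exact_mod_cast h
  rw [CharP.cast_eq_zero_iff k p] at h'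
  have := (Nat.prime_dvd_prime_iff_eq (Fact.out : p.Prime) Nat.prime_two).mp h'
  exact hp2 this

include hφ hu₀ hx₀ hSyl hp2 in
/-- the hypotheses of the arithmetic, for a set of representatives -/
theorem arith_hyps {g : ℕ} (hHg : Nat.card H = g * Nat.card (scal φ hdet)) {R : Finset H}
    (hRS : R ⊆ ssSet φ hdet)
    (hcard : (ssSet φ hdet).card = ∑ x ∈ R, (spread (scal φ hdet) (cent x)).card) :
    (∀ i : ↥R, 2 ≤ eOf φ hdet (i : H)) ∧ (∀ i : ↥R, fOf (i : H) = 1 ∨ fOf (i : H) = 2) ∧
    (∀ i : ↥R, cOf (i : H) * (fOf (i : H) * eOf φ hdet (i : H)) = g) ∧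
    g = 1 + (Nat.card (unip φ hdet) - 1) * (borel φ hdet).index +
      ∑ i : ↥R, (eOf φ hdet (i : H) - 1) * cOf (i : H) := by
  have h2k : (2 : k) ≠ 0 := two_ne_zero_of_char p hp2
  have hz : 0 < Nat.card (scal φ hdet) := Nat.card_pos
  refine ⟨?_, ?_, ?_, ?_⟩
  · intro i
    exact two_le_eOf hφ (mem_ssSet.mp (hRS i.2)).1
  · intro i
    exact (fOf_eq hφ h2k (hRS i.2)).1
  · intro i
    have h1 := (fOf_eq hφ h2k (hRS i.2)).2
    have h2 := cOf_mul (i : H)
    have h3 := card_cent_eq (hdet := hdet) hφ (i : H)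
    rw [h1, h3, hHg] at h2
    have : cOf (i : H) * (fOf (i : H) * eOf φ hdet (i : H)) * Nat.card (scal φ hdet) =
        g * Nat.card (scal φ hdet) := by
      rw [← h2]; ring
    exact Nat.eq_of_mul_eq_mul_right hz this
  · have h1 := card_eq_parts (hdet := hdet) hφ hu₀ hx₀ hSyl
    rw [card_spread_cent_u₀ hφ hu₀ hx₀ p hp2, card_ssSet_eq hφ hRS hcard, hHg] at h1
    rw [Finset.sum_coe_sort R (fun x => (eOf φ hdet x - 1) * cOf x)]
    have : g * Nat.card (scal φ hdet) =
        (1 + (Nat.card (unip φ hdet) - 1) * (borel φ hdet).index +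
          ∑ x ∈ R, (eOf φ hdet x - 1) * cOf x) * Nat.card (scal φ hdet) := by
      rw [h1]; ring
    exact Nat.eq_of_mul_eq_mul_right hz this

include hp2 in
/-- if the image of the diagonal character has two elements, the scalar `-1` is in the group -/
theorem two_le_card_scal_of_card_range_eq_two (h : Nat.card (chi φ hdet).range = 2) :
    2 ≤ Nat.card (scal φ hdet) := by
  have h2k : (2 : k) ≠ 0 := two_ne_zero_of_char p hp2
  have hfin : Finite (chi φ hdet).range :=
    Finite.of_surjective (chi φ hdet).rangeRestrict (chi φ hdet).rangeRestrict_surjective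
  have hnt : Nontrivial (chi φ hdet).range := by
    rw [← Finite.one_lt_card_iff_nontrivial, h]
    norm_num
  obtain ⟨a, ha⟩ := exists_ne (1 : (chi φ hdet).range)
  have ha2 : a ^ 2 = 1 := by
    rw [← h]
    exact pow_card_eq_one'
  obtain ⟨b, hb⟩ : ∃ b : ↥(borel φ hdet), chi φ hdet b = (a : kˣ) := a.2
  have hval : ((a : kˣ) : k) ^ 2 = 1 := by
    have := congrArg (fun r : ↥(chi φ hdet).range => ((r : kˣ) : k)) ha2
    simpa using this
  have hne1 : ((a : kˣ) : k) ≠ 1 := by
    intro h1
    apply ha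
    apply Subtype.ext
    apply Units.ext
    simpa using h1
  have hneg : ((a : kˣ) : k) = -1 := by
    have : (((a : kˣ) : k) - 1) * (((a : kˣ) : k) + 1) = 0 := by linear_combination hval
    rcases mul_eq_zero.mp this with h3 | h3
    · exact absurd (sub_eq_zero.mp h3) hne1
    · exact eq_neg_of_add_eq_zero_left h3
  have hb00 : mt φ (b : H) 0 0 = -1 := by
    rw [← chi_val, hb, hneg]
  exact two_le_card_scal_of_neg_one p hp2 b.2 hb00

include hφ hu₀ hx₀ hSyl hp2 in
/-- **the structure theorem**: for `#unip ≥ 5` the upper triangular subgroup has index `#unip + 1`,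
the orbit of `u₀` is large, and there is a diagonalisable `s` with a Weyl element -/
theorem structure_theorem (hirr : ∃ g : H, g ∉ borel φ hdet)
    (hq5 : 5 ≤ Nat.card (unip φ hdet)) :
    (borel φ hdet).index = Nat.card (unip φ hdet) + 1 ∧
    (Nat.card (unip φ hdet) - 1) ∣ 2 * (conjOrb φ hdet u₀).card ∧
    ∃ s : H, s ∈ borel φ hdet ∧ mt φ s 0 0 ≠ mt φ s 1 1 ∧ cent s ≤ borel φ hdet ∧
      ∃ w ∈ Subgroup.normalizer (cent s : Set H), w ∉ cent s := by
  classical
  have h2k : (2 : k) ≠ 0 := two_ne_zero_of_char p hp2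
  set z := Nat.card (scal φ hdet) with hz_def
  set q := Nat.card (unip φ hdet) with hq_def
  set κ := Nat.card (chi φ hdet).range with hκ_def
  set k0 := (conjOrb φ hdet u₀).card with hk0_def
  set n := (borel φ hdet).index with hn_def
  have hz : 0 < z := Nat.card_pos
  have hz2 : z ≤ 2 := card_scal_le_two hφ
  have hq_pos : 0 < q := Nat.card_pos
  have hA0 : Nat.card (cent u₀) = z * q := card_cent_u₀ hφ hu₀ hx₀ p hp2
  have hB1 : Nat.card (borel φ hdet) = q * κ := card_borel
  have hB2 : Nat.card (borel φ hdet) = k0 * (z * q) := by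
    rw [card_borel_eq_orb hφ hu₀ hx₀, hA0]
  have hκ : κ = k0 * z := by
    have : q * κ = q * (k0 * z) := by rw [← hB1, hB2]; ring
    exact Nat.eq_of_mul_eq_mul_left hq_pos this
  have hH : n * Nat.card (borel φ hdet) = Nat.card H := Subgroup.index_mul_card _
  have hn_ne_zero : n ≠ 0 := Subgroup.index_ne_zero_of_finite
  have hn_ne_one : n ≠ 1 := by
    intro h
    rw [hn_def, Subgroup.index_eq_one] at h
    obtain ⟨g, hg⟩ := hirr
    exact hg (h ▸ Subgroup.mem_top g)
  obtain ⟨m, hm⟩ : q ∣ n - 1 := card_unip_dvd_index_sub_one hφ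
  have hn : n = 1 + m * q := by
    have : 1 ≤ n := Nat.one_le_iff_ne_zero.mpr hn_ne_zero
    rw [mul_comm]; omega
  have hm1 : 1 ≤ m := by
    rcases Nat.eq_zero_or_pos m with h0 | h0
    · rw [h0, zero_mul] at hn; exact absurd hn hn_ne_one
    · exact h0
  have hk0pos : 0 < k0 := by
    apply Finset.card_pos.mpr
    refine ⟨u₀, ?_⟩
    rw [conjOrb, Finset.mem_image]
    exact ⟨1, mem_fs.mpr (borel φ hdet).one_mem, by simp⟩
  have hk0le : k0 ≤ q - 1 := card_conjOrb_le hu₀ hx₀
  have hqodd : Odd q := by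
    obtain ⟨j, hj⟩ := exists_card_unip_eq_pow (hdet := hdet) hφ p hp2
    rw [hq_def, hj]
    exact Odd.pow ((Fact.out : p.Prime).odd_of_ne_two hp2)
  set g := q * k0 * n with hg_def
  have hHg : Nat.card H = g * z := by
    rw [← hH, hB2, hg_def]; ring
  by_cases hk : 1 < k0
  · -- the image of the diagonal character has more than two elements
    have hκ2 : 2 < κ := by
      by_contra hcon
      have h1 : κ ≤ 2 := by omega
      have h2 : 2 * z ≤ k0 * z := Nat.mul_le_mul_right _ hk
      have h3 : κ = 2 := by omega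
      have h4 := two_le_card_scal_of_card_range_eq_two (hdet := hdet) p hp2 h3
      have h5 : 2 * 2 ≤ 2 * z := Nat.mul_le_mul_left 2 h4
      omega
    obtain ⟨s, hsB, hsne, hsZ, hsd, hcB, hcard⟩ := exists_semisimple hφ hκ2
    have hsS : s ∈ ssSet φ hdet := mem_ssSet.mpr ⟨hsZ, hsd⟩
    obtain ⟨R, hRS, hsR, -, -, hcardS⟩ :=
      exists_representatives_mem (scal_le_center hφ) (ct_scal hφ) (ssSet φ hdet)
        (fun x hx => (mem_ssSet.mp hx).1) (fun x hx => ssSet_closed hφ hx) hsS
    obtain ⟨he, hf, hc, hclass⟩ := arith_hyps hφ hu₀ hx₀ hSyl p hp2 hHg hRS hcardS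
    have hes : eOf φ hdet s = k0 := by
      rw [eOf, hcard, ← hκ_def, hκ, Nat.mul_div_cancel _ hz]
    have hK : 1 < k0 → ∃ i0 : ↥R, eOf φ hdet (i0 : H) = k0 := fun _ => ⟨⟨s, hsR⟩, hes⟩
    have hfs := Arithmetic.f_eq_two_of_e_eq_k0 q k0 n m g (fun i : ↥R => eOf φ hdet (i : H))
      (fun i : ↥R => fOf (i : H)) (fun i : ↥R => cOf (i : H)) hq5 hqodd hm1 hn hg_def
      hk0pos hk0le he hf hc hclass hK ⟨s, hsR⟩ hes
    have hm_one := Arithmetic.m_eq_one q k0 n m g (fun i : ↥R => eOf φ hdet (i : H))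
      (fun i : ↥R => fOf (i : H)) (fun i : ↥R => cOf (i : H)) hq5 hqodd hm1 hn hg_def
      hk0pos hk0le he hf hc hclass hK
    have hdvd := Arithmetic.sub_one_dvd_two_mul_k0 q k0 n m g
      (fun i : ↥R => eOf φ hdet (i : H))
      (fun i : ↥R => fOf (i : H)) (fun i : ↥R => cOf (i : H)) hq5 hqodd hm1 hn hg_def
      hk0pos hk0le he hf hc hclass hK
    refine ⟨?_, hdvd, s, hsB, hsne, hcB, ?_⟩
    · rw [hn, hm_one]; ring
    · -- a Weyl element
      have hN := (fOf_eq hφ h2k hsS).2
      have hfs' : fOf s = 2 := hfs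
      rw [hfs'] at hN
      by_contra hcon
      push Not at hcon
      have hle : Subgroup.normalizer (cent s : Set H) ≤ cent s := fun w hw => hcon w hw
      have h1 : Nat.card (Subgroup.normalizer (cent s : Set H)) ≤ Nat.card (cent s) :=
        Nat.card_le_card_of_injective (Subgroup.inclusion hle) (Subgroup.inclusion_injective hle)
      have h2 : 0 < Nat.card (cent s) := Nat.card_pos
      omega
  · exfalso
    obtain ⟨R, hRS, -, -, hcardS⟩ :=
      exists_representatives (scal_le_center hφ) (ct_scal hφ) (ssSet φ hdet)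
        (fun x hx => (mem_ssSet.mp hx).1) (fun x hx => ssSet_closed hφ hx)
    obtain ⟨he, hf, hc, hclass⟩ := arith_hyps hφ hu₀ hx₀ hSyl p hp2 hHg hRS hcardS
    have := Arithmetic.one_lt_k0 q k0 n m g (fun i : ↥R => eOf φ hdet (i : H))
      (fun i : ↥R => fOf (i : H)) (fun i : ↥R => cOf (i : H)) hq5 hqodd hm1 hn hg_def
      hk0pos hk0le he hf hc hclass (fun h => absurd h hk)
    exact hk this

end Main

end Fermat.Agent.S56.Grp.Residue.ClassEq
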