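import Mathlib

/-!
# PROJECT T (S56), block (a5-G), leaf (R6): cocycles on the Sylow subgroup `P = 1 + X E`

`k` a field, `X ⊆ k` an additive subgroup, `P = {1 + x E : x ∈ X}` the group of upper unipotent
matrices with parameter in `X`, `M = sl₂(k)` with the adjoint action (the determinant twist is
trivial on `P` and on the diagonal matrices of determinant one).  A 1-cocycle `φ` on `P` is written
`φ(1 + x E) = A x • e + B x • h + C x • f` (`e = E₁₂`, `h = diag(1, -1)`, `f = E₂₁`).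

* `IsCocycleABC`, `IsCoboundaryABC` : the cocycle identities / coboundaries in coordinates;
* `exists_C_eq_mul` : `C x = c x` (any characteristic); `C_eq_zero_of_char_three`;
* `exists_B_eq_mul` : `B x = b x` once `C = 0`; `A0_add` : `A x + b x²` is additive;
* `InvABC` : invariance of the CLASS under `t = diag(a, a⁻¹)`, `s = a²` (no averaging needed);
  `exists_mu_of_inv`, `mu_eq_zero` : then `A₀ (s x) = s A₀ x`;
* `mulSet`, `linSubfield` : the multipliers of `(X, A₀)` form a subfield;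
  `subset_line_of_card_le` : the counting input `(D**)` makes `X` a line over it;
* `exists_coboundary_ABC` (coordinates) and `exists_coboundary_of_invariant` (matrices) : in
  characteristic three an invariant class is a coboundary;
* `h1_eq_zero_of_card_three`, `h1_eq_zero_of_nine_le` : the two cases of the residue.
-/

set_option autoImplicit false

namespace Fermat.Agent.S56.Grp.Residue.CocyclesP

variable {k : Type*} [Field k]

/-! ### the cocycle identities in coordinates -/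

/-- `(A, B, C)` are the coordinates of a 1-cocycle on `1 + X E` with values in `sl₂(k)` -/
def IsCocycleABC (X : AddSubgroup k) (A B C : k → k) : Prop :=
  (∀ x ∈ X, ∀ y ∈ X, C (x + y) = C x + C y) ∧
  (∀ x ∈ X, ∀ y ∈ X, B (x + y) = B x + B y + x * C y) ∧
  (∀ x ∈ X, ∀ y ∈ X, A (x + y) = A x + A y - 2 * x * B y - x ^ 2 * C y)

/-- `(A, B, C)` is the coboundary of `m_e e + m_h h + m_f f` -/
def IsCoboundaryABC (X : AddSubgroup k) (A B C : k → k) : Prop :=
  ∃ mh mf : k, ∀ x ∈ X, A x = -2 * mh * x - mf * x ^ 2 ∧ B x = mf * x ∧ C x = 0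

section Basic

variable {X : AddSubgroup k} {A B C : k → k}

theorem IsCocycleABC.C_zero (h : IsCocycleABC X A B C) : C 0 = 0 := by
  have := h.1 0 X.zero_mem 0 X.zero_mem
  rw [add_zero] at this
  linear_combination -this

theorem IsCocycleABC.B_zero (h : IsCocycleABC X A B C) : B 0 = 0 := by
  have := h.2.1 0 X.zero_mem 0 X.zero_mem
  rw [add_zero, zero_mul, add_zero] at this
  linear_combination -this

theorem IsCocycleABC.A_zero (h : IsCocycleABC X A B C) : A 0 = 0 := by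
  have := h.2.2 0 X.zero_mem 0 X.zero_mem
  rw [add_zero] at this
  linear_combination -this

/-- `P` is abelian: `x C(y) = y C(x)` -/
theorem IsCocycleABC.C_symm (h : IsCocycleABC X A B C) {x y : k} (hx : x ∈ X) (hy : y ∈ X) :
    x * C y = y * C x := by
  have h1 := h.2.1 x hx y hy
  have h2 := h.2.1 y hy x hx
  rw [add_comm y x] at h2
  linear_combination h2 - h1

/-- `C(x) = c x` -/
theorem IsCocycleABC.exists_C_eq_mul (h : IsCocycleABC X A B C) :
    ∃ c : k, ∀ x ∈ X, C x = c * x := by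
  by_cases hX : ∀ x ∈ X, x = 0
  · refine ⟨0, fun x hx => ?_⟩
    rw [hX x hx, h.C_zero, zero_mul]
  · push Not at hX
    obtain ⟨x0, hx0, hne⟩ := hX
    refine ⟨C x0 / x0, fun x hx => ?_⟩
    have := h.C_symm hx0 hx
    field_simp
    linear_combination this

/-- in characteristic three `C = 0`: `A(3x) = x² C(x)` -/
theorem IsCocycleABC.C_eq_zero_of_char_three [CharP k 3] (h : IsCocycleABC X A B C) :
    ∀ x ∈ X, C x = 0 := by
  intro x hx
  have h3 : (3 : k) = 0 := by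
    have := CharP.cast_eq_zero k 3
    exact_mod_cast this
  have h2x : x + x ∈ X := X.add_mem hx hx
  have hA2 := h.2.2 x hx x hx
  have hA3 := h.2.2 (x + x) h2x x hx
  have hxxx : x + x + x = 0 := by linear_combination x * h3
  rw [hxxx, h.A_zero] at hA3
  have key : x ^ 2 * C x = 0 := by
    linear_combination -hA3 - hA2 + (-A x + 2 * x * B x + 2 * x ^ 2 * C x) * h3
  rcases mul_eq_zero.mp key with h0 | h0
  · have : x = 0 := pow_eq_zero_iff (two_ne_zero) |>.mp h0
    rw [this, h.C_zero]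
  · exact h0

end Basic

/-! ### the case `C = 0` -/

section CZero

variable {X : AddSubgroup k} {A B C : k → k}

theorem IsCocycleABC.B_add (h : IsCocycleABC X A B C) (hC : ∀ x ∈ X, C x = 0) {x y : k}
    (hx : x ∈ X) (hy : y ∈ X) : B (x + y) = B x + B y := by
  have := h.2.1 x hx y hy
  rw [hC y hy, mul_zero, add_zero] at this
  exact this

/-- `P` is abelian: `x B(y) = y B(x)` when `C = 0` and `2 ≠ 0` -/
theorem IsCocycleABC.B_symm (h : IsCocycleABC X A B C) (hC : ∀ x ∈ X, C x = 0)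
    (h2 : (2 : k) ≠ 0) {x y : k} (hx : x ∈ X) (hy : y ∈ X) : x * B y = y * B x := by
  have h1 := h.2.2 x hx y hy
  have h1' := h.2.2 y hy x hx
  rw [add_comm y x] at h1'
  rw [hC y hy] at h1
  rw [hC x hx] at h1'
  have : 2 * (x * B y - y * B x) = 0 := by linear_combination h1 - h1'
  rcases mul_eq_zero.mp this with h0 | h0
  · exact absurd h0 h2
  · linear_combination h0

/-- `B(x) = b x` when `C = 0` -/
theorem IsCocycleABC.exists_B_eq_mul (h : IsCocycleABC X A B C) (hC : ∀ x ∈ X, C x = 0)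
    (h2 : (2 : k) ≠ 0) : ∃ b : k, ∀ x ∈ X, B x = b * x := by
  by_cases hX : ∀ x ∈ X, x = 0
  · refine ⟨0, fun x hx => ?_⟩
    rw [hX x hx, h.B_zero, zero_mul]
  · push Not at hX
    obtain ⟨x0, hx0, hne⟩ := hX
    refine ⟨B x0 / x0, fun x hx => ?_⟩
    have := h.B_symm hC h2 hx0 hx
    field_simp
    linear_combination this

/-- `A₀(x) = A(x) + b x²` is additive when `C = 0`, `B(x) = b x` -/
theorem IsCocycleABC.A0_add (h : IsCocycleABC X A B C) (hC : ∀ x ∈ X, C x = 0) {b : k}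
    (hB : ∀ x ∈ X, B x = b * x) {x y : k} (hx : x ∈ X) (hy : y ∈ X) :
    A (x + y) + b * (x + y) ^ 2 = (A x + b * x ^ 2) + (A y + b * y ^ 2) := by
  have := h.2.2 x hx y hy
  rw [hC y hy, hB y hy] at this
  linear_combination this

end CZero

/-! ### invariance of the class under the diagonal matrices of determinant one -/

/-- invariance of the CLASS of `(A, B, C)` under `t = diag(a, a⁻¹)` with `s = a²`:
`t·φ - φ` is the coboundary of some `m_e e + m_h h + m_f f` -/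
def InvABC (X : AddSubgroup k) (A B C : k → k) (s : k) : Prop :=
  ∃ mh mf : k, ∀ x ∈ X, s * A (s⁻¹ * x) - A x = -2 * mh * x - mf * x ^ 2 ∧
    B (s⁻¹ * x) - B x = mf * x ∧ s⁻¹ * C (s⁻¹ * x) - C x = 0

section Inv

variable {X : AddSubgroup k} {A B C : k → k}

/-- invariance up to a coboundary makes `A₀` equivariant up to a linear term -/
theorem exists_mu_of_inv {b : k} (hB : ∀ x ∈ X, B x = b * x) {x0 : k} (hx0 : x0 ∈ X)
    (hne : x0 ≠ 0) {s : k} (hs : s ≠ 0) (hsX : ∀ x ∈ X, s⁻¹ * x ∈ X) (hinv : InvABC X A B C s) :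
    ∃ μ : k, ∀ x ∈ X, A (s⁻¹ * x) + b * (s⁻¹ * x) ^ 2 = s⁻¹ * (A x + b * x ^ 2) + μ * x := by
  obtain ⟨mh, mf, hm⟩ := hinv
  have hsr : s * s⁻¹ = 1 := mul_inv_cancel₀ hs
  obtain ⟨r, hr⟩ : ∃ r : k, r = s⁻¹ := ⟨_, rfl⟩
  rw [← hr] at hsr hsX hm ⊢
  have hmf : mf = b * (r - 1) := by
    have h1 := (hm x0 hx0).2.1
    rw [hB x0 hx0, hB (r * x0) (hsX x0 hx0)] at h1
    have : (mf - b * (r - 1)) * x0 = 0 := by linear_combination -h1
    rcases mul_eq_zero.mp this with h0 | h0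
    · linear_combination h0
    · exact absurd h0 hne
  refine ⟨-2 * mh * r, fun x hx => ?_⟩
  have E1 := (hm x hx).1
  have hA : A (r * x) = r * (A x - 2 * mh * x - mf * x ^ 2) := by
    linear_combination r * E1 - A (r * x) * hsr
  rw [hA, hmf]
  ring

/-- an equivariance defect `μ` vanishes when the multiplier has finite order prime to the
characteristic -/
theorem mu_eq_zero {F : k → k} {r μ : k} {n : ℕ} (hrn : r ^ n = 1) (hn : (n : k) ≠ 0)
    (hr0 : r ≠ 0) (hrX : ∀ x ∈ X, r * x ∈ X) (hF : ∀ x ∈ X, F (r * x) = r * F x + μ * x)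
    {x0 : k} (hx0 : x0 ∈ X) (hne : x0 ≠ 0) : μ = 0 := by
  have hrr : r * r⁻¹ = 1 := mul_inv_cancel₀ hr0
  have hmem : ∀ j : ℕ, ∀ x ∈ X, r ^ j * x ∈ X := by
    intro j
    induction j with
    | zero => intro x hx; rwa [pow_zero, one_mul]
    | succ j ih =>
      intro x hx
      rw [pow_succ', mul_assoc]
      exact hrX _ (ih x hx)
  have key : ∀ j : ℕ, ∀ x ∈ X, F (r ^ j * x) = r ^ j * F x + (j : k) * r ^ j * r⁻¹ * μ * x := by
    intro j
    induction j with
    | zero => intro x hx; simp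
    | succ j ih =>
      intro x hx
      have h1 := hF (r ^ j * x) (hmem j x hx)
      rw [ih x hx] at h1
      rw [pow_succ', mul_assoc, h1]
      push_cast
      linear_combination (-(r ^ j * μ * x)) * hrr
  have h := key n x0 hx0
  rw [hrn, one_mul, one_mul] at h
  have h' : (n : k) * r⁻¹ * μ * x0 = 0 := by linear_combination -h
  have hri : r⁻¹ ≠ 0 := inv_ne_zero hr0
  rcases mul_eq_zero.mp h' with h0 | h0
  · rcases mul_eq_zero.mp h0 with h1 | h1
    · rcases mul_eq_zero.mp h1 with h2 | h2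
      · exact absurd h2 hn
      · exact absurd h2 hri
    · exact h1
  · exact absurd h0 hne

/-- in characteristic `p` a root of unity has an exponent prime to `p` -/
theorem exists_pow_eq_one_cast_ne_zero (p : ℕ) [Fact p.Prime] [CharP k p] {r : k} {n : ℕ}
    (hn : 0 < n) (hr : r ^ n = 1) : ∃ m : ℕ, r ^ m = 1 ∧ (m : k) ≠ 0 := by
  obtain ⟨e, m, hpm, hnm⟩ := Nat.exists_eq_pow_mul_and_not_dvd hn.ne' p
    (Fact.out : p.Prime).ne_one
  refine ⟨m, ?_, ?_⟩
  · rw [hnm, mul_comm, pow_mul] at hr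
    have h0 : (r ^ m - 1) ^ p ^ e = 0 := by
      rw [sub_pow_char_pow, hr, one_pow, sub_self]
    have := pow_eq_zero_iff (pow_ne_zero e (Fact.out : p.Prime).ne_zero) |>.mp h0
    linear_combination this
  · rw [Ne, CharP.cast_eq_zero_iff k p m]
    exact hpm

end Inv

/-! ### the field of multipliers -/

/-- `F` is additive on `X` -/
def IsAddOn (X : AddSubgroup k) (F : k → k) : Prop :=
  ∀ x ∈ X, ∀ y ∈ X, F (x + y) = F x + F y

/-- the multipliers of `(X, F)`: the `ξ` with `ξ X ⊆ X` and `F (ξ x) = ξ F x` on `X` -/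
def mulSet (X : AddSubgroup k) (F : k → k) : Set k :=
  {ξ | (∀ x ∈ X, ξ * x ∈ X) ∧ ∀ x ∈ X, F (ξ * x) = ξ * F x}

section Mult

variable {X : AddSubgroup k} {F : k → k}

theorem IsAddOn.map_zero (hF : IsAddOn X F) : F 0 = 0 := by
  have := hF 0 X.zero_mem 0 X.zero_mem
  rw [add_zero] at this
  linear_combination -this

theorem IsAddOn.map_neg (hF : IsAddOn X F) {x : k} (hx : x ∈ X) : F (-x) = -F x := by
  have := hF x hx (-x) (X.neg_mem hx)
  rw [add_neg_cancel, hF.map_zero] at this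
  linear_combination -this

theorem zero_mem_mulSet (hF : IsAddOn X F) : (0 : k) ∈ mulSet X F :=
  ⟨fun x _ => by rw [zero_mul]; exact X.zero_mem,
    fun x _ => by rw [zero_mul, zero_mul, hF.map_zero]⟩

theorem one_mem_mulSet : (1 : k) ∈ mulSet X F :=
  ⟨fun x hx => by rwa [one_mul], fun x _ => by rw [one_mul, one_mul]⟩

theorem add_mem_mulSet (hF : IsAddOn X F) {ξ η : k} (hξ : ξ ∈ mulSet X F)
    (hη : η ∈ mulSet X F) : ξ + η ∈ mulSet X F := by
  refine ⟨fun x hx => ?_, fun x hx => ?_⟩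
  · rw [add_mul]
    exact X.add_mem (hξ.1 x hx) (hη.1 x hx)
  · rw [add_mul, hF _ (hξ.1 x hx) _ (hη.1 x hx), hξ.2 x hx, hη.2 x hx, add_mul]

theorem neg_mem_mulSet (hF : IsAddOn X F) {ξ : k} (hξ : ξ ∈ mulSet X F) :
    -ξ ∈ mulSet X F := by
  refine ⟨fun x hx => ?_, fun x hx => ?_⟩
  · rw [neg_mul]
    exact X.neg_mem (hξ.1 x hx)
  · rw [neg_mul, hF.map_neg (hξ.1 x hx), hξ.2 x hx, neg_mul]

theorem mul_mem_mulSet {ξ η : k} (hξ : ξ ∈ mulSet X F) (hη : η ∈ mulSet X F) :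
    ξ * η ∈ mulSet X F := by
  refine ⟨fun x hx => ?_, fun x hx => ?_⟩
  · rw [mul_assoc]
    exact hξ.1 _ (hη.1 x hx)
  · rw [mul_assoc, hξ.2 _ (hη.1 x hx), hη.2 x hx, mul_assoc]

/-- multiplication by a nonzero `ξ` with `ξ X ⊆ X` is onto the finite group `X` -/
theorem exists_mul_eq_of_mul_mem [Finite X] {ξ : k} (h0 : ξ ≠ 0) (hξ : ∀ x ∈ X, ξ * x ∈ X) :
    ∀ x ∈ X, ∃ y ∈ X, ξ * y = x := by
  have hinj : Function.Injective (fun x : X => (⟨ξ * x, hξ x x.2⟩ : X)) := by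
    intro x y hxy
    have : ξ * (x : k) = ξ * (y : k) := congrArg Subtype.val hxy
    exact Subtype.ext (mul_left_cancel₀ h0 this)
  have hsurj := Finite.injective_iff_surjective.mp hinj
  intro x hx
  obtain ⟨y, hy⟩ := hsurj ⟨x, hx⟩
  exact ⟨y, y.2, congrArg Subtype.val hy⟩

/-- `ξ X ⊆ X` implies `ξ⁻¹ X ⊆ X` for a finite `X` -/
theorem inv_mul_mem_of_mul_mem [Finite X] {ξ : k} (h0 : ξ ≠ 0) (hξ : ∀ x ∈ X, ξ * x ∈ X) :
    ∀ x ∈ X, ξ⁻¹ * x ∈ X := by
  intro x hx
  obtain ⟨y, hy, hxy⟩ := exists_mul_eq_of_mul_mem h0 hξ x hx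
  rw [← hxy, inv_mul_cancel_left₀ h0]
  exact hy

theorem inv_mem_mulSet [Finite X] (hF : IsAddOn X F) {ξ : k} (hξ : ξ ∈ mulSet X F) :
    ξ⁻¹ ∈ mulSet X F := by
  by_cases h0 : ξ = 0
  · rw [h0, inv_zero]
    exact zero_mem_mulSet hF
  · refine ⟨inv_mul_mem_of_mul_mem h0 hξ.1, fun x hx => ?_⟩
    obtain ⟨y, hy, hxy⟩ := exists_mul_eq_of_mul_mem h0 hξ.1 x hx
    rw [← hxy, inv_mul_cancel_left₀ h0, hξ.2 y hy, inv_mul_cancel_left₀ h0]

/-- the multipliers form a subfield when `X` is finite and `F` is additive on `X` -/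
def linSubfield (X : AddSubgroup k) [Finite X] (F : k → k) (hF : IsAddOn X F) : Subfield k where
  carrier := mulSet X F
  mul_mem' := mul_mem_mulSet
  one_mem' := one_mem_mulSet
  add_mem' := add_mem_mulSet hF
  zero_mem' := zero_mem_mulSet hF
  neg_mem' := neg_mem_mulSet hF
  inv_mem' := fun _ h => inv_mem_mulSet hF h

theorem mem_linSubfield [Finite X] (hF : IsAddOn X F) {ξ : k} :
    ξ ∈ linSubfield X F hF ↔ ξ ∈ mulSet X F := Iff.rfl

/-- a map which is linear for enough multipliers is a homothety on a line -/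
theorem exists_eq_mul_of_line {x0 : k} (hx0 : x0 ∈ X) (hne : x0 ≠ 0)
    (hline : ∀ x ∈ X, ∃ ξ ∈ mulSet X F, x = ξ * x0) : ∃ lam : k, ∀ x ∈ X, F x = lam * x := by
  refine ⟨F x0 / x0, fun x hx => ?_⟩
  obtain ⟨ξ, hξ, rfl⟩ := hline x hx
  rw [hξ.2 x0 hx0]
  field_simp

/-- the same with the subfield generated by a set of multipliers -/
theorem exists_eq_mul_of_closure [Finite X] (hF : IsAddOn X F) {S : Set k}
    (hS : S ⊆ mulSet X F) {x0 : k} (hx0 : x0 ∈ X) (hne : x0 ≠ 0)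
    (hline : ∀ x ∈ X, ∃ ξ ∈ Subfield.closure S, x = ξ * x0) :
    ∃ lam : k, ∀ x ∈ X, F x = lam * x := by
  have hle : Subfield.closure S ≤ linSubfield X F hF := Subfield.closure_le.mpr hS
  refine exists_eq_mul_of_line hx0 hne fun x hx => ?_
  obtain ⟨ξ, hξ, hxξ⟩ := hline x hx
  exact ⟨ξ, hle hξ, hxξ⟩

/-- the counting input: with `#X ≤ 2 #S + 1` for a set `S` of nonzero multipliers, `X` is a line
over the field of multipliers -/
theorem subset_line_of_card_le [Finite X] (hF : IsAddOn X F) {S : Set k}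
    (hS : S ⊆ mulSet X F) (hS0 : (0 : k) ∉ S) (hcard : Nat.card X ≤ 2 * S.ncard + 1)
    {x0 : k} (hx0 : x0 ∈ X) (hne : x0 ≠ 0) : ∀ x ∈ X, ∃ ξ ∈ mulSet X F, x = ξ * x0 := by
  have hSfin : S.Finite := by
    have hinj : Function.Injective
        (fun s : S => (⟨(s : k) * x0, (hS s.2).1 x0 hx0⟩ : X)) := by
      intro s t hst
      have : (s : k) * x0 = (t : k) * x0 := congrArg Subtype.val hst
      exact Subtype.ext (mul_right_cancel₀ hne this)
    exact Set.finite_coe_iff.mp (Finite.of_injective _ hinj)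
  have hn : 1 ≤ S.ncard := by
    by_contra hlt
    have h0 : S.ncard = 0 := by omega
    rw [h0] at hcard
    have hsub : Subsingleton X := (Finite.card_le_one_iff_subsingleton).mp (by omega)
    have : (⟨x0, hx0⟩ : X) = ⟨0, X.zero_mem⟩ := Subsingleton.elim _ _
    exact hne (congrArg Subtype.val this)
  by_contra hcon
  push Not at hcon
  obtain ⟨x1, hx1, hx1ne⟩ := hcon
  have hTsub : insert (0 : k) S ⊆ mulSet X F := Set.insert_subset (zero_mem_mulSet hF) hS
  have hTcard : (insert (0 : k) S).ncard = S.ncard + 1 := Set.ncard_insert_of_notMem hS0 hSfin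
  have hg : Function.Injective (fun p : (insert (0 : k) S : Set k) × (insert (0 : k) S : Set k) =>
      (⟨(p.1 : k) * x0 + (p.2 : k) * x1,
        X.add_mem ((hTsub p.1.2).1 x0 hx0) ((hTsub p.2.2).1 x1 hx1)⟩ : X)) := by
    rintro ⟨ξ, η⟩ ⟨ξ', η'⟩ h
    have h' : (ξ : k) * x0 + (η : k) * x1 = (ξ' : k) * x0 + (η' : k) * x1 :=
      congrArg Subtype.val h
    have hη : (η : k) = η' := by
      by_contra hne'
      have hd : (η : k) - η' ≠ 0 := sub_ne_zero.mpr hne'
      refine hx1ne (((η : k) - η')⁻¹ * ((ξ' : k) - ξ)) ?_ ?_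
      · refine mul_mem_mulSet (inv_mem_mulSet hF ?_) ?_
        · rw [sub_eq_add_neg]
          exact add_mem_mulSet hF (hTsub η.2) (neg_mem_mulSet hF (hTsub η'.2))
        · rw [sub_eq_add_neg]
          exact add_mem_mulSet hF (hTsub ξ'.2) (neg_mem_mulSet hF (hTsub ξ.2))
      · field_simp
        linear_combination h'
    have hξ : (ξ : k) = ξ' := by
      rw [hη] at h'
      have : ((ξ : k) - ξ') * x0 = 0 := by linear_combination h'
      rcases mul_eq_zero.mp this with h0 | h0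
      · exact sub_eq_zero.mp h0
      · exact absurd h0 hne
    exact Prod.ext (Subtype.ext hξ) (Subtype.ext hη)
  have h1 := Nat.card_le_card_of_injective _ hg
  rw [Nat.card_prod, Nat.card_coe_set_eq, hTcard] at h1
  nlinarith

/-- homothety from the counting input -/
theorem exists_eq_mul_of_card_le [Finite X] (hF : IsAddOn X F) {S : Set k}
    (hS : S ⊆ mulSet X F) (hS0 : (0 : k) ∉ S) (hcard : Nat.card X ≤ 2 * S.ncard + 1) :
    ∃ lam : k, ∀ x ∈ X, F x = lam * x := by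
  by_cases hX : ∀ x ∈ X, x = 0
  · refine ⟨0, fun x hx => ?_⟩
    rw [hX x hx, hF.map_zero, zero_mul]
  · push Not at hX
    obtain ⟨x0, hx0, hne⟩ := hX
    exact exists_eq_mul_of_line hx0 hne (subset_line_of_card_le hF hS hS0 hcard hx0 hne)

/-- a multiplier of a finite nonzero `X` is a root of unity -/
theorem exists_pow_eq_one_of_mul_mem [Finite X] {s : k} (hs : s ≠ 0)
    (hsX : ∀ x ∈ X, s * x ∈ X) {x0 : k} (hx0 : x0 ∈ X) (hne : x0 ≠ 0) :
    ∃ n : ℕ, 0 < n ∧ s ^ n = 1 := by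
  have hmem : ∀ j : ℕ, s ^ j * x0 ∈ X := by
    intro j
    induction j with
    | zero => rwa [pow_zero, one_mul]
    | succ j ih =>
      rw [pow_succ', mul_assoc]
      exact hsX _ ih
  have key : ∀ i j : ℕ, i < j → s ^ i * x0 = s ^ j * x0 → ∃ n : ℕ, 0 < n ∧ s ^ n = 1 := by
    intro i j hlt h'
    have h'' : s ^ i = s ^ j := mul_right_cancel₀ hne h'
    refine ⟨j - i, Nat.sub_pos_of_lt hlt, ?_⟩
    have : s ^ i * s ^ (j - i) = s ^ i * 1 := by
      rw [← pow_add, Nat.add_sub_cancel' hlt.le, mul_one, h'']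
    exact mul_left_cancel₀ (pow_ne_zero i hs) this
  obtain ⟨i, j, hij, h⟩ :=
    Finite.exists_ne_map_eq_of_infinite (fun j : ℕ => (⟨s ^ j * x0, hmem j⟩ : X))
  have h' : s ^ i * x0 = s ^ j * x0 := congrArg Subtype.val h
  rcases lt_or_gt_of_ne hij with hlt | hlt
  · exact key i j hlt h'
  · exact key j i hlt h'.symm

end Mult

/-! ### the main theorem in coordinates -/

section Main

variable {X : AddSubgroup k} {A B C : k → k}

/-- **(R6), coordinate form.**  Characteristic three, `X` finite, `S` a set of nonzero multipliers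
of `X` with `#X ≤ 2 #S + 1`, and the class of the cocycle `(A, B, C)` invariant under every
`diag(a, a⁻¹)`, `a² = s ∈ S`: then `(A, B, C)` is a coboundary. -/
theorem exists_coboundary_ABC [CharP k 3] [Finite X] (h : IsCocycleABC X A B C) {S : Set k}
    (hS0 : ∀ s ∈ S, s ≠ 0) (hSX : ∀ s ∈ S, ∀ x ∈ X, s * x ∈ X)
    (hinv : ∀ s ∈ S, InvABC X A B C s) (hcard : Nat.card X ≤ 2 * S.ncard + 1) :
    IsCoboundaryABC X A B C := by
  have : Fact (Nat.Prime 3) := ⟨Nat.prime_three⟩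
  have h3 : (3 : k) = 0 := by
    have := CharP.cast_eq_zero k 3
    exact_mod_cast this
  have h2 : (2 : k) ≠ 0 := by
    intro h2
    have : (1 : k) = 0 := by linear_combination h3 - h2
    exact one_ne_zero this
  have hC := h.C_eq_zero_of_char_three
  obtain ⟨b, hB⟩ := h.exists_B_eq_mul hC h2
  by_cases hX : ∀ x ∈ X, x = 0
  · refine ⟨0, 0, fun x hx => ?_⟩
    rw [hX x hx, h.A_zero, h.B_zero, h.C_zero]
    simp
  push Not at hX
  obtain ⟨x0, hx0, hne⟩ := hX
  have hA0 : IsAddOn X (fun x => A x + b * x ^ 2) := fun x hx y hy => h.A0_add hC hB hx hy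
  have hSm : S ⊆ mulSet X (fun x => A x + b * x ^ 2) := by
    intro s hs
    have hs0 := hS0 s hs
    have hsX := hSX s hs
    have hsiX := inv_mul_mem_of_mul_mem hs0 hsX
    obtain ⟨μ, hμ⟩ := exists_mu_of_inv hB hx0 hne hs0 hsiX (hinv s hs)
    obtain ⟨n, hn, hsn⟩ := exists_pow_eq_one_of_mul_mem hs0 hsX hx0 hne
    have hrn : (s⁻¹) ^ n = 1 := by rw [inv_pow, hsn, inv_one]
    obtain ⟨m, hm1, hm0⟩ := exists_pow_eq_one_cast_ne_zero 3 hn hrn
    have hμ0 : μ = 0 :=
      mu_eq_zero (F := fun x => A x + b * x ^ 2) hm1 hm0 (inv_ne_zero hs0) hsiX hμ hx0 hne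
    refine ⟨hsX, fun x hx => ?_⟩
    have := hμ (s * x) (hsX x hx)
    rw [hμ0, zero_mul, add_zero, inv_mul_cancel_left₀ hs0] at this
    show A (s * x) + b * (s * x) ^ 2 = s * (A x + b * x ^ 2)
    rw [this, mul_inv_cancel_left₀ hs0]
  have hS0' : (0 : k) ∉ S := fun h0 => hS0 0 h0 rfl
  obtain ⟨lam, hlam⟩ := exists_eq_mul_of_card_le hA0 hSm hS0' hcard
  refine ⟨-lam / 2, b, fun x hx => ⟨?_, hB x hx, hC x hx⟩⟩
  have := hlam x hx
  have e : -2 * (-lam / 2) = lam := by field_simp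
  rw [e]
  linear_combination this

end Main

/-! ### the matrix form -/

/-- `1 + x E` -/
def uE (x : k) : Matrix (Fin 2) (Fin 2) k := !![1, x; 0, 1]

/-- `diag(a, a⁻¹)` -/
def dE (a : k) : Matrix (Fin 2) (Fin 2) k := !![a, 0; 0, a⁻¹]

section Mat

theorem uE_zero : uE (0 : k) = 1 := by
  ext i j
  fin_cases i <;> fin_cases j <;> simp [uE]

theorem uE_add (x y : k) : uE (x + y) = uE x * uE y := by
  ext i j
  fin_cases i <;> fin_cases j <;> simp [uE, Matrix.mul_apply, Fin.sum_univ_two, add_comm]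

theorem uE_mul_uE_neg (x : k) : uE x * uE (-x) = 1 := by
  rw [← uE_add, add_neg_cancel, uE_zero]

theorem uE_inv (x : k) : (uE x)⁻¹ = uE (-x) :=
  Matrix.inv_eq_right_inv (uE_mul_uE_neg x)

theorem det_uE (x : k) : (uE x).det = 1 := by
  simp [uE, Matrix.det_fin_two]

theorem dE_one : dE (1 : k) = 1 := by
  ext i j
  fin_cases i <;> fin_cases j <;> simp [dE]

theorem dE_mul_dE_inv {a : k} (ha : a ≠ 0) : dE a * dE a⁻¹ = 1 := by
  ext i j
  fin_cases i <;> fin_cases j <;> simp [dE, Matrix.mul_apply, Fin.sum_univ_two, ha]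

theorem dE_inv {a : k} (ha : a ≠ 0) : (dE a)⁻¹ = dE a⁻¹ :=
  Matrix.inv_eq_right_inv (dE_mul_dE_inv ha)

theorem det_dE {a : k} (ha : a ≠ 0) : (dE a).det = 1 := by
  simp [dE, Matrix.det_fin_two, ha]

/-- `diag(a, a⁻¹)` normalises `1 + X E`, with multiplier `a²` -/
theorem dE_mul_uE_mul_dE_inv {a : k} (ha : a ≠ 0) (x : k) :
    dE a * uE x * dE a⁻¹ = uE (a ^ 2 * x) := by
  ext i j
  fin_cases i <;> fin_cases j <;>
    (simp [dE, uE, Matrix.mul_apply, Fin.sum_univ_two, ha]; try ring)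

/-- the entries of `(1 + x E) M (1 + x E)⁻¹` -/
theorem uE_conj_apply (x : k) (M : Matrix (Fin 2) (Fin 2) k) :
    (uE x * M * uE (-x)) 0 0 = M 0 0 + x * M 1 0 ∧
    (uE x * M * uE (-x)) 0 1 = M 0 1 - x * M 0 0 + x * M 1 1 - x ^ 2 * M 1 0 ∧
    (uE x * M * uE (-x)) 1 0 = M 1 0 ∧
    (uE x * M * uE (-x)) 1 1 = M 1 1 - x * M 1 0 := by
  refine ⟨?_, ?_, ?_, ?_⟩ <;>
    simp [uE, Matrix.mul_apply, Fin.sum_univ_two, Matrix.vecMul, dotProduct] <;> ring

/-- the entries of `diag(a, a⁻¹) M diag(a, a⁻¹)⁻¹` -/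
theorem dE_conj_apply {a : k} (ha : a ≠ 0) (M : Matrix (Fin 2) (Fin 2) k) :
    (dE a * M * dE a⁻¹) 0 0 = M 0 0 ∧
    (dE a * M * dE a⁻¹) 0 1 = a ^ 2 * M 0 1 ∧
    (dE a * M * dE a⁻¹) 1 0 = (a ^ 2)⁻¹ * M 1 0 ∧
    (dE a * M * dE a⁻¹) 1 1 = M 1 1 := by
  refine ⟨?_, ?_, ?_, ?_⟩ <;>
    simp [dE, Matrix.mul_apply, Fin.sum_univ_two, Matrix.vecMul, dotProduct] <;> field_simp

/-- **(R6), matrix form.**  `k` of characteristic three, `X ⊆ k` a finite additive subgroup,
`φ x` the value at `1 + x E` of a 1-cocycle on `P = 1 + X E` with values in `sl₂(k)` (adjoint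
action), `Sa` a set of `a ≠ 0` with `a² X ⊆ X` such that the class of `φ` is invariant under
`diag(a, a⁻¹)` (i.e. `t • φ - φ` is the coboundary of some trace-zero `m_t`), and
`#X ≤ 2 #{a² : a ∈ Sa} + 1`.  Then `φ` is a coboundary. -/
theorem exists_coboundary_of_invariant [CharP k 3] {X : AddSubgroup k} [Finite X]
    (φ : k → Matrix (Fin 2) (Fin 2) k) (htr : ∀ x ∈ X, (φ x).trace = 0)
    (hcoc : ∀ x ∈ X, ∀ y ∈ X, φ (x + y) = φ x + uE x * φ y * uE (-x))
    (Sa : Set k) (hSa0 : ∀ a ∈ Sa, a ≠ 0) (hSaX : ∀ a ∈ Sa, ∀ x ∈ X, a ^ 2 * x ∈ X)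
    (hinv : ∀ a ∈ Sa, ∃ m : Matrix (Fin 2) (Fin 2) k, m.trace = 0 ∧ ∀ x ∈ X,
      dE a * φ ((a ^ 2)⁻¹ * x) * dE a⁻¹ - φ x = uE x * m * uE (-x) - m)
    (hcard : Nat.card X ≤ 2 * ((fun a : k => a ^ 2) '' Sa).ncard + 1) :
    ∃ m : Matrix (Fin 2) (Fin 2) k, m.trace = 0 ∧ ∀ x ∈ X, φ x = uE x * m * uE (-x) - m := by
  have hD : ∀ x ∈ X, φ x 1 1 = -φ x 0 0 := by
    intro x hx
    have := htr x hx
    rw [Matrix.trace_fin_two] at this
    linear_combination this
  have hcocABC : IsCocycleABC X (fun x => φ x 0 1) (fun x => φ x 0 0) (fun x => φ x 1 0) := by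
    refine ⟨fun x hx y hy => ?_, fun x hx y hy => ?_, fun x hx y hy => ?_⟩
    · have := congrFun (congrFun (hcoc x hx y hy) 1) 0
      rw [Matrix.add_apply, (uE_conj_apply x (φ y)).2.2.1] at this
      exact this
    · have := congrFun (congrFun (hcoc x hx y hy) 0) 0
      rw [Matrix.add_apply, (uE_conj_apply x (φ y)).1] at this
      show φ (x + y) 0 0 = φ x 0 0 + φ y 0 0 + x * φ y 1 0
      rw [this]
      ring
    · have := congrFun (congrFun (hcoc x hx y hy) 0) 1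
      rw [Matrix.add_apply, (uE_conj_apply x (φ y)).2.1, hD y hy] at this
      show φ (x + y) 0 1 = φ x 0 1 + φ y 0 1 - 2 * x * φ y 0 0 - x ^ 2 * φ y 1 0
      rw [this]
      ring
  have hS0 : ∀ s ∈ (fun a : k => a ^ 2) '' Sa, s ≠ 0 := by
    rintro s ⟨a, ha, rfl⟩
    exact pow_ne_zero 2 (hSa0 a ha)
  have hSX : ∀ s ∈ (fun a : k => a ^ 2) '' Sa, ∀ x ∈ X, s * x ∈ X := by
    rintro s ⟨a, ha, rfl⟩
    exact hSaX a ha
  have hinvABC : ∀ s ∈ (fun a : k => a ^ 2) '' Sa,
      InvABC X (fun x => φ x 0 1) (fun x => φ x 0 0) (fun x => φ x 1 0) s := by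
    rintro s ⟨a, ha, rfl⟩
    obtain ⟨m, hm, hmx⟩ := hinv a ha
    have ha0 := hSa0 a ha
    have hm11 : m 1 1 = -m 0 0 := by
      rw [Matrix.trace_fin_two] at hm
      linear_combination hm
    refine ⟨m 0 0, m 1 0, fun x hx => ?_⟩
    have E := hmx x hx
    have e00 := congrFun (congrFun E 0) 0
    have e01 := congrFun (congrFun E 0) 1
    have e10 := congrFun (congrFun E 1) 0
    rw [Matrix.sub_apply, Matrix.sub_apply] at e00 e01 e10
    rw [(dE_conj_apply ha0 _).1, (uE_conj_apply x m).1] at e00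
    rw [(dE_conj_apply ha0 _).2.1, (uE_conj_apply x m).2.1, hm11] at e01
    rw [(dE_conj_apply ha0 _).2.2.1, (uE_conj_apply x m).2.2.1] at e10
    refine ⟨?_, ?_, ?_⟩
    · show a ^ 2 * φ ((a ^ 2)⁻¹ * x) 0 1 - φ x 0 1 = -2 * m 0 0 * x - m 1 0 * x ^ 2
      rw [e01]
      ring
    · show φ ((a ^ 2)⁻¹ * x) 0 0 - φ x 0 0 = m 1 0 * x
      rw [e00]
      ring
    · show (a ^ 2)⁻¹ * φ ((a ^ 2)⁻¹ * x) 1 0 - φ x 1 0 = 0
      rw [e10]
      ring
  obtain ⟨mh, mf, hmm⟩ := exists_coboundary_ABC hcocABC hS0 hSX hinvABC hcard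
  refine ⟨!![mh, 0; mf, -mh], ?_, fun x hx => ?_⟩
  · rw [Matrix.trace_fin_two]
    simp
  · obtain ⟨hA, hB, hC⟩ := hmm x hx
    have hc := uE_conj_apply x !![mh, 0; mf, -mh]
    ext i j
    fin_cases i <;> fin_cases j
    · show φ x 0 0 = (uE x * !![mh, 0; mf, -mh] * uE (-x) - !![mh, 0; mf, -mh]) 0 0
      rw [Matrix.sub_apply, hc.1]
      simp only [Matrix.of_apply, Matrix.cons_val', Matrix.cons_val_zero, Matrix.cons_val_one,
        Matrix.cons_val_fin_one]
      rw [show φ x 0 0 = mf * x from hB]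
      ring
    · show φ x 0 1 = (uE x * !![mh, 0; mf, -mh] * uE (-x) - !![mh, 0; mf, -mh]) 0 1
      rw [Matrix.sub_apply, hc.2.1]
      simp only [Matrix.of_apply, Matrix.cons_val', Matrix.cons_val_zero, Matrix.cons_val_one,
        Matrix.cons_val_fin_one]
      rw [show φ x 0 1 = -2 * mh * x - mf * x ^ 2 from hA]
      ring
    · show φ x 1 0 = (uE x * !![mh, 0; mf, -mh] * uE (-x) - !![mh, 0; mf, -mh]) 1 0
      rw [Matrix.sub_apply, hc.2.2.1]
      simp only [Matrix.of_apply, Matrix.cons_val', Matrix.cons_val_zero, Matrix.cons_val_one,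
        Matrix.cons_val_fin_one]
      rw [show φ x 1 0 = 0 from hC]
      ring
    · show φ x 1 1 = (uE x * !![mh, 0; mf, -mh] * uE (-x) - !![mh, 0; mf, -mh]) 1 1
      rw [Matrix.sub_apply, hc.2.2.2, hD x hx]
      simp only [Matrix.of_apply, Matrix.cons_val', Matrix.cons_val_zero, Matrix.cons_val_one,
        Matrix.cons_val_fin_one]
      rw [show φ x 0 0 = mf * x from hB]
      ring

/-- **case [D]** of the residue: `#P = 3`, every cocycle on `P` is a coboundary -/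
theorem h1_eq_zero_of_card_three [CharP k 3] {X : AddSubgroup k} (hX : Nat.card X = 3)
    (φ : k → Matrix (Fin 2) (Fin 2) k) (htr : ∀ x ∈ X, (φ x).trace = 0)
    (hcoc : ∀ x ∈ X, ∀ y ∈ X, φ (x + y) = φ x + uE x * φ y * uE (-x)) :
    ∃ m : Matrix (Fin 2) (Fin 2) k, m.trace = 0 ∧ ∀ x ∈ X, φ x = uE x * m * uE (-x) - m := by
  have : Finite X := Nat.finite_of_card_ne_zero (by omega)
  refine exists_coboundary_of_invariant φ htr hcoc {1} ?_ ?_ ?_ ?_
  · rintro a rfl
    exact one_ne_zero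
  · rintro a rfl x hx
    rwa [one_pow, one_mul]
  · rintro a rfl
    refine ⟨0, by simp, fun x hx => ?_⟩
    rw [inv_one, dE_one]
    simp
  · rw [Set.image_singleton, Set.ncard_singleton]
    omega

/-- **case [E]** of the residue: the count in the divisibility form `(D**)`,
`#X - 1 ∣ 2 #{a² : a ∈ Sa}` -/
theorem h1_eq_zero_of_nine_le [CharP k 3] {X : AddSubgroup k} [Finite X]
    (φ : k → Matrix (Fin 2) (Fin 2) k) (htr : ∀ x ∈ X, (φ x).trace = 0)
    (hcoc : ∀ x ∈ X, ∀ y ∈ X, φ (x + y) = φ x + uE x * φ y * uE (-x))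
    (Sa : Set k) (hSa0 : ∀ a ∈ Sa, a ≠ 0) (hSaX : ∀ a ∈ Sa, ∀ x ∈ X, a ^ 2 * x ∈ X)
    (hinv : ∀ a ∈ Sa, ∃ m : Matrix (Fin 2) (Fin 2) k, m.trace = 0 ∧ ∀ x ∈ X,
      dE a * φ ((a ^ 2)⁻¹ * x) * dE a⁻¹ - φ x = uE x * m * uE (-x) - m)
    (hSane : Sa.Nonempty)
    (hdvd : Nat.card X - 1 ∣ 2 * ((fun a : k => a ^ 2) '' Sa).ncard) :
    ∃ m : Matrix (Fin 2) (Fin 2) k, m.trace = 0 ∧ ∀ x ∈ X, φ x = uE x * m * uE (-x) - m := by
  refine exists_coboundary_of_invariant φ htr hcoc Sa hSa0 hSaX hinv ?_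
  by_cases hX : ∀ x ∈ X, x = 0
  · have hsub : Subsingleton X := ⟨fun x y => Subtype.ext (by rw [hX x x.2, hX y y.2])⟩
    have := Finite.card_le_one_iff_subsingleton.mpr hsub
    omega
  · push Not at hX
    obtain ⟨x0, hx0, hne⟩ := hX
    have hmem : ∀ s ∈ (fun a : k => a ^ 2) '' Sa, s * x0 ∈ X := by
      rintro s ⟨a, ha, rfl⟩
      exact hSaX a ha x0 hx0
    have hfin : ((fun a : k => a ^ 2) '' Sa).Finite := by
      have hinj : Function.Injective
          (fun s : ((fun a : k => a ^ 2) '' Sa) => (⟨(s : k) * x0, hmem s s.2⟩ : X)) := by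
        intro s t hst
        have : (s : k) * x0 = (t : k) * x0 := congrArg Subtype.val hst
        exact Subtype.ext (mul_right_cancel₀ hne this)
      exact Set.finite_coe_iff.mp (Finite.of_injective _ hinj)
    have hpos : 0 < ((fun a : k => a ^ 2) '' Sa).ncard :=
      (Set.ncard_pos hfin).mpr (hSane.image _)
    have := Nat.le_of_dvd (by omega) hdvd
    omega

end Mat

end Fermat.Agent.S56.Grp.Residue.CocyclesP
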