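import Fermat.Agent.S56.Grp.Vanish
import Fermat.Agent.S56.Grp.Residue.CocyclesP

/-!
# (a5-G), residue, `p = 3`: from the cocycle calculus on `1 + X E` to a Sylow subgroup

`π : G →* GL₂(k)` injective, `P ≤ G` a subgroup which in the basis `g₀` is `{1 + ξ E : ξ ∈ X}`,
`Sa` a set of `a` such that some `t ∈ G` normalising `P` has matrix `diag(a, a⁻¹)` in that basis.
With the count `#X ≤ 2 #{a²} + 1` every cocycle of `G` restricts to a coboundary on `P`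
(`isCoboundary_restrict`): this is the hypothesis of `isCoboundary_of_sylow`.
-/

set_option autoImplicit false

namespace Fermat.Agent.S56.Grp.Residue.SylowDict

open Matrix Fermat.Agent.S56.Grp Fermat.Agent.S56.Grp.Residue.CocyclesP

variable {k : Type} [Field k] {G : Type} [Group G]

local notation "Mat2" => Matrix (Fin 2) (Fin 2)

/-- the matrix of `x` in the basis `g₀` -/
def nm (g₀ : GL (Fin 2) k) (π : G →* GL (Fin 2) k) (x : G) : Mat2 k :=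
  ((g₀ * π x * g₀⁻¹ : GL (Fin 2) k) : Mat2 k)

/-- conjugation of a matrix into the basis `g₀` -/
def cj (g₀ : GL (Fin 2) k) (M : Mat2 k) : Mat2 k :=
  (g₀ : Mat2 k) * M * ((g₀⁻¹ : GL (Fin 2) k) : Mat2 k)

section Basic

variable (g₀ : GL (Fin 2) k) (π : G →* GL (Fin 2) k)

theorem nm_mul (x y : G) : nm g₀ π (x * y) = nm g₀ π x * nm g₀ π y := by
  unfold nm
  rw [← Matrix.GeneralLinearGroup.coe_mul]
  congr 1
  rw [map_mul]
  group

theorem nm_injective (hπ : Function.Injective π) : Function.Injective (nm g₀ π) := by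
  intro x y h
  apply hπ
  have h' : g₀ * π x * g₀⁻¹ = g₀ * π y * g₀⁻¹ := Units.ext h
  have := congrArg (fun A => g₀⁻¹ * A * g₀) h'
  simpa [mul_assoc] using this

theorem det_nm (x : G) : (nm g₀ π x).det = ((π x : GL (Fin 2) k).det : k) := by
  unfold nm
  rw [Matrix.GeneralLinearGroup.val_det_apply]
  simp only [Matrix.GeneralLinearGroup.coe_mul]
  exact Matrix.det_units_conj g₀ _

theorem cj_add (M N : Mat2 k) : cj g₀ (M + N) = cj g₀ M + cj g₀ N := by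
  unfold cj
  rw [Matrix.mul_add, Matrix.add_mul]

theorem cj_sub (M N : Mat2 k) : cj g₀ (M - N) = cj g₀ M - cj g₀ N := by
  unfold cj
  rw [Matrix.mul_sub, Matrix.sub_mul]

theorem cj_smul (a : k) (M : Mat2 k) : cj g₀ (a • M) = a • cj g₀ M := by
  unfold cj
  rw [Matrix.mul_smul, Matrix.smul_mul]

theorem trace_cj (M : Mat2 k) : (cj g₀ M).trace = M.trace := trace_conj g₀ M

theorem cj_injective : Function.Injective (cj g₀) := by
  intro M N h
  have := congrArg (fun A => ((g₀⁻¹ : GL (Fin 2) k) : Mat2 k) * A * (g₀ : Mat2 k)) h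
  simp only [cj] at this
  simpa [Matrix.mul_assoc, coe_inv_mul_coe, ← Matrix.mul_assoc ((g₀⁻¹ : GL (Fin 2) k) : Mat2 k)]
    using this

/-- conjugation by `π x` becomes conjugation by `nm x` -/
theorem cj_conj (x : G) (M : Mat2 k) :
    cj g₀ ((π x : Mat2 k) * M * ((π x)⁻¹ : GL (Fin 2) k)) =
      nm g₀ π x * cj g₀ M * nm g₀ π x⁻¹ := by
  unfold cj nm
  rw [map_inv]
  simp only [Matrix.GeneralLinearGroup.coe_mul, Matrix.mul_assoc]
  congr 2
  rw [← Matrix.mul_assoc ((g₀⁻¹ : GL (Fin 2) k) : Mat2 k), ← Matrix.mul_assoc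
    ((g₀⁻¹ : GL (Fin 2) k) : Mat2 k), coe_inv_mul_coe, Matrix.one_mul, Matrix.one_mul]

/-- the action of an element of determinant one, in the basis `g₀` -/
theorem cj_act (x : G) (hdet : ((π x : GL (Fin 2) k).det : k) = 1) (M : Mat2 k) :
    cj g₀ (act π x M) = nm g₀ π x * cj g₀ M * nm g₀ π x⁻¹ := by
  rw [act_apply, hdet, one_smul, cj_conj]

theorem nm_one : nm g₀ π 1 = 1 := by
  unfold nm
  rw [map_one, mul_one, mul_inv_cancel]
  rfl

theorem cj_cj_inv (M : Mat2 k) : cj g₀ (cj g₀⁻¹ M) = M := by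
  unfold cj
  rw [inv_inv]
  simp only [← Matrix.mul_assoc, coe_mul_coe_inv, Matrix.one_mul]
  rw [Matrix.mul_assoc, coe_mul_coe_inv, Matrix.mul_one]

end Basic

theorem uE_injective {x y : k} (h : uE x = uE y) : x = y := by
  have := congrFun (congrFun h 0) 1
  simpa [uE] using this

/-- a left inverse of `uE ξ` is `uE (-ξ)` -/
theorem eq_uE_neg_of_mul_eq_one {ξ : k} {N : Mat2 k} (h : uE ξ * N = 1) : N = uE (-ξ) := by
  calc N = (uE (-ξ) * uE ξ) * N := by rw [← uE_add, neg_add_cancel, uE_zero, Matrix.one_mul]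
    _ = uE (-ξ) := by rw [Matrix.mul_assoc, h, Matrix.mul_one]

/-- a right inverse of `dE a` is `dE a⁻¹` -/
theorem eq_dE_inv_of_mul_eq_one {a : k} (ha : a ≠ 0) {N : Mat2 k} (h : dE a * N = 1) :
    N = dE a⁻¹ := by
  have h1 : dE a⁻¹ * dE a = 1 := by
    have := dE_mul_dE_inv (inv_ne_zero ha)
    rwa [inv_inv] at this
  calc N = (dE a⁻¹ * dE a) * N := by rw [h1, Matrix.one_mul]
    _ = dE a⁻¹ := by rw [Matrix.mul_assoc, h, Matrix.mul_one]

section Main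

variable [CharP k 3]

/-- **the Sylow dictionary.**  If in the basis `g₀` the subgroup `P` is `{1 + ξ E : ξ ∈ X}` and
elements `t` normalising `P` have matrices `diag(a, a⁻¹)`, `a ∈ Sa`, with `#X ≤ 2 #{a²} + 1`,
then every cocycle of `G` restricts to a coboundary on `P`. -/
theorem isCoboundary_restrict (g₀ : GL (Fin 2) k) (π : G →* GL (Fin 2) k)
    (hπ : Function.Injective π) (c : G → Mat2 k) (hc : IsCocycle π c) (P : Subgroup G)
    (X : AddSubgroup k) [Finite X]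
    (hPX : ∀ x ∈ P, ∃ ξ ∈ X, nm g₀ π x = uE ξ)
    (hXP : ∀ ξ ∈ X, ∃ x ∈ P, nm g₀ π x = uE ξ)
    (Sa : Set k)
    (hSa : ∀ a ∈ Sa, a ≠ 0 ∧ ∃ t : G, (∀ x ∈ P, t * x * t⁻¹ ∈ P) ∧ nm g₀ π t = dE a)
    (hcard : Nat.card X ≤ 2 * ((fun a : k => a ^ 2) '' Sa).ncard + 1) :
    IsCoboundary (π.comp P.subtype) (fun x : P => c x) := by
  classical
  choose! px hpxP hpx using hXP
  have hinj := nm_injective g₀ π hπ
  have huniq : ∀ ξ ∈ X, ∀ x : G, nm g₀ π x = uE ξ → x = px ξ :=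
    fun ξ hξ x hx => hinj (hx.trans (hpx ξ hξ).symm)
  have hdetP : ∀ ξ ∈ X, ((π (px ξ) : GL (Fin 2) k).det : k) = 1 := by
    intro ξ hξ
    rw [← det_nm g₀, hpx ξ hξ, det_uE]
  have hnminv : ∀ ξ ∈ X, nm g₀ π (px ξ)⁻¹ = uE (-ξ) := by
    intro ξ hξ
    apply eq_uE_neg_of_mul_eq_one
    rw [← hpx ξ hξ, ← nm_mul, mul_inv_cancel, nm_one]
  have hφtr : ∀ ξ ∈ X, (cj g₀ (c (px ξ))).trace = 0 := by
    intro ξ _
    rw [trace_cj]
    exact (mem_ad0_iff _).mp (hc.mem _)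
  have hφcoc : ∀ ξ ∈ X, ∀ η ∈ X, cj g₀ (c (px (ξ + η))) =
      cj g₀ (c (px ξ)) + uE ξ * cj g₀ (c (px η)) * uE (-ξ) := by
    intro ξ hξ η hη
    have hmul : px ξ * px η = px (ξ + η) :=
      huniq _ (X.add_mem hξ hη) _ (by rw [nm_mul, hpx ξ hξ, hpx η hη, uE_add])
    rw [← hmul, hc.map_mul, cj_add, cj_act g₀ π _ (hdetP ξ hξ), hpx ξ hξ, hnminv ξ hξ]
  have hSa0 : ∀ a ∈ Sa, a ≠ 0 := fun a ha => (hSa a ha).1
  -- the matrix of `t x t⁻¹`
  have hconj : ∀ a ∈ Sa, ∀ t : G, nm g₀ π t = dE a → ∀ ξ ∈ X,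
      nm g₀ π (t * px ξ * t⁻¹) = uE (a ^ 2 * ξ) := by
    intro a ha t hnt ξ hξ
    have hti : nm g₀ π t⁻¹ = dE a⁻¹ := by
      apply eq_dE_inv_of_mul_eq_one (hSa0 a ha)
      rw [← hnt, ← nm_mul, mul_inv_cancel, nm_one]
    rw [nm_mul, nm_mul, hnt, hpx ξ hξ, hti, dE_mul_uE_mul_dE_inv (hSa0 a ha)]
  have hSaX : ∀ a ∈ Sa, ∀ ξ ∈ X, a ^ 2 * ξ ∈ X := by
    intro a ha ξ hξ
    obtain ⟨-, t, htP, hnt⟩ := hSa a ha
    obtain ⟨ξ', hξ', h'⟩ := hPX _ (htP _ (hpxP ξ hξ))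
    rw [hconj a ha t hnt ξ hξ] at h'
    rw [uE_injective h']
    exact hξ'
  have hinv : ∀ a ∈ Sa, ∃ m : Mat2 k, m.trace = 0 ∧ ∀ ξ ∈ X,
      dE a * cj g₀ (c (px ((a ^ 2)⁻¹ * ξ))) * dE a⁻¹ - cj g₀ (c (px ξ)) =
        uE ξ * m * uE (-ξ) - m := by
    intro a ha
    obtain ⟨ha0, t, htP, hnt⟩ := hSa a ha
    have hdett : ((π t : GL (Fin 2) k).det : k) = 1 := by
      rw [← det_nm g₀, hnt, det_dE ha0]
    have hti : nm g₀ π t⁻¹ = dE a⁻¹ := by
      apply eq_dE_inv_of_mul_eq_one ha0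
      rw [← hnt, ← nm_mul, mul_inv_cancel, nm_one]
    refine ⟨cj g₀ (c t), ?_, fun ξ hξ => ?_⟩
    · rw [trace_cj]
      exact (mem_ad0_iff _).mp (hc.mem _)
    · have ha2 : (a ^ 2 : k) ≠ 0 := pow_ne_zero 2 ha0
      have hη : (a ^ 2)⁻¹ * ξ ∈ X := inv_mul_mem_of_mul_mem ha2 (hSaX a ha) ξ hξ
      have hpt : t * px ((a ^ 2)⁻¹ * ξ) * t⁻¹ = px ξ := by
        apply huniq ξ hξ
        rw [hconj a ha t hnt _ hη, mul_inv_cancel_left₀ ha2]
      have h1 := hc.map_conj t (px ((a ^ 2)⁻¹ * ξ))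
      rw [hpt] at h1
      have h2 := congrArg (cj g₀) h1
      rw [cj_sub, cj_sub, cj_act g₀ π t hdett, cj_act g₀ π _ (hdetP ξ hξ), hnt, hti, hpx ξ hξ,
        hnminv ξ hξ] at h2
      rw [h2]
      abel
  obtain ⟨m, hm0, hm⟩ := exists_coboundary_of_invariant (fun ξ => cj g₀ (c (px ξ))) hφtr hφcoc Sa
    hSa0 hSaX hinv hcard
  refine ⟨cj g₀⁻¹ m, ?_, fun x => ?_⟩
  · rw [mem_ad0_iff, trace_cj]
    exact hm0
  · obtain ⟨ξ, hξ, hx⟩ := hPX x x.2
    have hxp : (x : G) = px ξ := huniq ξ hξ _ hx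
    have hdetx : ((π (x : G) : GL (Fin 2) k).det : k) = 1 := by
      rw [hxp]
      exact hdetP ξ hξ
    apply cj_injective g₀
    show cj g₀ (c (x : G)) = cj g₀ (act π (x : G) (cj g₀⁻¹ m) - cj g₀⁻¹ m)
    rw [cj_sub, cj_act g₀ π _ hdetx, cj_cj_inv, hxp, hpx ξ hξ, hnminv ξ hξ]
    exact hm ξ hξ

/-- the case `#P = 3`: no normalising elements are needed -/
theorem isCoboundary_restrict_of_card_three (g₀ : GL (Fin 2) k) (π : G →* GL (Fin 2) k)
    (hπ : Function.Injective π) (c : G → Mat2 k) (hc : IsCocycle π c) (P : Subgroup G)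
    (X : AddSubgroup k) (hX : Nat.card X = 3)
    (hPX : ∀ x ∈ P, ∃ ξ ∈ X, nm g₀ π x = uE ξ)
    (hXP : ∀ ξ ∈ X, ∃ x ∈ P, nm g₀ π x = uE ξ) :
    IsCoboundary (π.comp P.subtype) (fun x : P => c x) := by
  have : Finite X := Nat.finite_of_card_ne_zero (by omega)
  refine isCoboundary_restrict g₀ π hπ c hc P X hPX hXP {1} ?_ ?_
  · rintro a rfl
    refine ⟨one_ne_zero, 1, fun x hx => by simpa using hx, ?_⟩
    rw [nm_one, dE_one]
  · rw [Set.image_singleton, Set.ncard_singleton]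
    omega

/-- **`p = 3`, assembled with `isCoboundary_of_sylow`**: if a Sylow `3`-subgroup of the finite
group `G` is `{1 + ξ E : ξ ∈ X}` in the basis `g₀`, normalised by elements `diag(a, a⁻¹)`,
`a ∈ Sa`, with `#X ≤ 2 #{a²} + 1`, then every cocycle of `G` is a coboundary. -/
theorem isCoboundary_of_normalised_sylow [Finite G] (g₀ : GL (Fin 2) k)
    (π : G →* GL (Fin 2) k) (hπ : Function.Injective π) (c : G → Mat2 k) (hc : IsCocycle π c)
    (P : Sylow 3 G) (X : AddSubgroup k) [Finite X]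
    (hPX : ∀ x ∈ (P : Subgroup G), ∃ ξ ∈ X, nm g₀ π x = uE ξ)
    (hXP : ∀ ξ ∈ X, ∃ x ∈ (P : Subgroup G), nm g₀ π x = uE ξ)
    (Sa : Set k)
    (hSa : ∀ a ∈ Sa, a ≠ 0 ∧
      ∃ t : G, (∀ x ∈ (P : Subgroup G), t * x * t⁻¹ ∈ (P : Subgroup G)) ∧ nm g₀ π t = dE a)
    (hcard : Nat.card X ≤ 2 * ((fun a : k => a ^ 2) '' Sa).ncard + 1) :
    IsCoboundary π c := by
  have : Fact (Nat.Prime 3) := ⟨Nat.prime_three⟩
  exact isCoboundary_of_sylow π c hc P
    (isCoboundary_restrict g₀ π hπ c hc (P : Subgroup G) X hPX hXP Sa hSa hcard)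

end Main

end Fermat.Agent.S56.Grp.Residue.SylowDict
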