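import Fermat.Agent.S56.Grp.Residue.Transport
import Fermat.Agent.S56.Grp.Residue.SylowDict

/-!
# (a5-G) residue, endgame for `p = 3`

`G` finite, `π : G →* GL₂(k)` injective with `ImgHyp 3 π`, `3 ∣ |G|`, `char k = 3`: every cocycle
is a coboundary.  For `#P = 3` the restriction to `P` is a coboundary without any normalising
element; for `#P ≥ 9` the class equation gives `#Syl = #P + 1` and enough diagonal elements
`diag(a, a⁻¹)` normalising `P` for the Sylow dictionary `isCoboundary_of_normalised_sylow`.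
-/

set_option autoImplicit false

namespace Fermat.Agent.S56.Grp.Residue.Endgame

open Matrix Polynomial Pointwise Fermat.Agent.S56.Grp
open Fermat.Agent.S56.Grp.Residue.SylowDict Fermat.Agent.S56.Grp.Residue.CocyclesP
open Fermat.Agent.S56.Grp.Residue.SL2Class Fermat.Agent.S56.Grp.Residue.SL2Borel

variable {k : Type} [Field k] {G : Type} [Group G]

local notation "Mat2" => Matrix (Fin 2) (Fin 2)

/-- the additive group of the upper right entries of `P` in the basis `g₀` -/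
def xGrp {p : ℕ} (g₀ : GL (Fin 2) k) (π : G →* GL (Fin 2) k) (P : Sylow p G) : AddSubgroup k where
  carrier := {ξ | ∃ x ∈ P, nm g₀ π x = uE ξ}
  zero_mem' := ⟨1, P.one_mem, by rw [nm_one, uE_zero]⟩
  add_mem' := by
    rintro ξ η ⟨x, hx, hx'⟩ ⟨y, hy, hy'⟩
    exact ⟨x * y, P.mul_mem hx hy, by rw [nm_mul, hx', hy', uE_add]⟩
  neg_mem' := by
    rintro ξ ⟨x, hx, hx'⟩
    refine ⟨x⁻¹, P.inv_mem hx, ?_⟩
    apply eq_uE_neg_of_mul_eq_one
    rw [← hx', ← nm_mul, mul_inv_cancel, nm_one]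

theorem mem_xGrp {p : ℕ} {g₀ : GL (Fin 2) k} {π : G →* GL (Fin 2) k} {P : Sylow p G} {ξ : k} :
    ξ ∈ xGrp g₀ π P ↔ ∃ x ∈ P, nm g₀ π x = uE ξ := Iff.rfl

section frame

variable {p : ℕ} [Fact p.Prime] [CharP k p] {π : G →* GL (Fin 2) k} {P : Sylow p G}
  {v : Fin 2 → k} {g₀ : GL (Fin 2) k}

/-- the elements of `P` are upper unitriangular in the basis `g₀` -/
theorem Frame.nm_eq_uE (F : Frame p π P v g₀) {x : G} (hx : x ∈ P) :
    nm g₀ π x = uE (nm g₀ π x 0 1) := by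
  have hu : (⟨x, F.le_dk hx⟩ : ↥(dk π)) ∈ unip (cphi g₀ π) (det_mt_cphi g₀ π) :=
    (F.mem_unip_iff _).2 hx
  exact mt_of_mem_unip hu

theorem Frame.hPX (F : Frame p π P v g₀) :
    ∀ x ∈ (P : Subgroup G), ∃ ξ ∈ xGrp g₀ π P, nm g₀ π x = uE ξ :=
  fun x hx => ⟨_, ⟨x, hx, F.nm_eq_uE hx⟩, F.nm_eq_uE hx⟩

omit [Fact p.Prime] [CharP k p] in
theorem hXP_xGrp (g₀ : GL (Fin 2) k) (π : G →* GL (Fin 2) k) (P : Sylow p G) :
    ∀ ξ ∈ xGrp g₀ π P, ∃ x ∈ (P : Subgroup G), nm g₀ π x = uE ξ :=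
  fun _ hξ => hξ

theorem Frame.card_xGrp (F : Frame p π P v g₀) : Nat.card (xGrp g₀ π P) = Nat.card P := by
  symm
  refine Nat.card_eq_of_bijective
    (fun x : P => (⟨nm g₀ π (x : G) 0 1, ⟨(x : G), x.2, F.nm_eq_uE x.2⟩⟩ : xGrp g₀ π P)) ⟨?_, ?_⟩
  · intro x y h
    have h' : nm g₀ π (x : G) 0 1 = nm g₀ π (y : G) 0 1 := congrArg Subtype.val h
    apply Subtype.ext
    apply nm_injective g₀ π F.inj
    rw [F.nm_eq_uE x.2, F.nm_eq_uE y.2, h']
  · rintro ⟨ξ, x, hx, hξ⟩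
    refine ⟨⟨x, hx⟩, Subtype.ext ?_⟩
    show nm g₀ π x 0 1 = ξ
    rw [hξ]
    simp [uE]

end frame

section three

variable [Fact (Nat.Prime 3)] [CharP k 3] [Finite G] {π : G →* GL (Fin 2) k} {P : Sylow 3 G}
  {v : Fin 2 → k} {g₀ : GL (Fin 2) k}

/-- `#P = 3` -/
theorem Frame.isCoboundary_of_card_three (F : Frame 3 π P v g₀) (hP3 : Nat.card P = 3)
    (c : G → Mat2 k) (hc : IsCocycle π c) : IsCoboundary π c :=
  isCoboundary_of_sylow π c hc P
    (isCoboundary_restrict_of_card_three g₀ π F.inj c hc (P : Subgroup G) (xGrp g₀ π P)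
      (by rw [F.card_xGrp, hP3]) F.hPX (hXP_xGrp g₀ π P))

/-- the diagonal elements normalising `P`: every eigenvalue on `v` of an element of determinant
one preserving the line of `v` is the upper left entry of a diagonal element -/
theorem Frame.exists_diag (F : Frame 3 π P v g₀)
    (hcard : Nat.card (Sylow 3 G) = Nat.card P + 1) (Q : Sylow 3 G) (hQ : Q ≠ P)
    {v' : Fin 2 → k} (hQv' : ∀ y ∈ Q, (π y : Mat2 k) *ᵥ v' = v')
    (hQline : ∀ u : Fin 2 → k, (∀ y ∈ Q, (π y : Mat2 k) *ᵥ u = u) → ∃ μ : k, u = μ • v')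
    (hg2 : (g₀ : Mat2 k) *ᵥ v' = ![0, 1]) {a : k} (ha : a ∈ eigSet π v) :
    ∃ t : G, (∀ x ∈ (P : Subgroup G), t * x * t⁻¹ ∈ (P : Subgroup G)) ∧ nm g₀ π t = dE a := by
  have hp2 : (3 : ℕ) ≠ 2 := by norm_num
  have hTI : SylowTI 3 G := sylowTI hp2 π F.inj
  obtain ⟨b, hbdet, hb⟩ := ha
  have hb' : b ∈ nz P := smul_eq_iff_mem_nz.1 ((F.smul_eq_iff b).2 ⟨a, hb⟩)
  obtain ⟨u, hu, htP, htQ⟩ := exists_mul_of_mem_normalizer hTI P hcard Q hQ hb'
  have hui : u⁻¹ ∈ P := P.inv_mem hu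
  refine ⟨u⁻¹ * b, fun x hx => ?_, ?_⟩
  · exact (Subgroup.mem_normalizer_iff.1 htP x).1 hx
  · -- the two eigenvectors
    have h1 : (π (u⁻¹ * b) : Mat2 k) *ᵥ v = a • v := by
      rw [map_mul, Units.val_mul, ← Matrix.mulVec_mulVec, hb, Matrix.mulVec_smul, F.fix _ hui]
    obtain ⟨d, h2⟩ := hQline _ (fixes_of_smul_eq π (smul_eq_iff_mem_nz.2 htQ) hQv')
    have hdet : (π (u⁻¹ * b) : Mat2 k).det = 1 := by
      rw [map_mul, Units.val_mul, Matrix.det_mul, hbdet, (F.mem_iff.1 hui).2, one_mul]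
    obtain ⟨e10, e00⟩ := conj_apply_zero_zero_of_eigen F.basis h1
    obtain ⟨e01, e11⟩ := conj_apply_zero_one_of_eigen hg2 h2
    have hnm : nm g₀ π (u⁻¹ * b) = (g₀ : Mat2 k) * (π (u⁻¹ * b) : Mat2 k) *
        ((g₀⁻¹ : GL (Fin 2) k) : Mat2 k) := rfl
    have hdet' : (nm g₀ π (u⁻¹ * b)).det = 1 := by
      rw [hnm, Matrix.det_units_conj, hdet]
    rw [Matrix.det_fin_two, hnm, e10, e00, e01, e11] at hdet'
    have had : a * d = 1 := by linear_combination hdet'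
    have hd : d = a⁻¹ := eq_inv_of_mul_eq_one_right had
    rw [hnm]
    ext i j
    fin_cases i <;> fin_cases j
    · simpa [dE] using e00
    · simpa [dE] using e01
    · simpa [dE] using e10
    · simpa [dE, hd] using e11

/-- `#P ≥ 5` -/
theorem Frame.isCoboundary_of_five_le (F : Frame 3 π P v g₀) (h : ImgHyp 3 π)
    (hq5 : 5 ≤ Nat.card P) (Q : Sylow 3 G) (hQ : Q ≠ P)
    {v' : Fin 2 → k} (hQv' : ∀ y ∈ Q, (π y : Mat2 k) *ᵥ v' = v')
    (hQline : ∀ u : Fin 2 → k, (∀ y ∈ Q, (π y : Mat2 k) *ᵥ u = u) → ∃ μ : k, u = μ • v')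
    (hg2 : (g₀ : Mat2 k) *ᵥ v' = ![0, 1])
    (c : G → Mat2 k) (hc : IsCocycle π c) : IsCoboundary π c := by
  have hp2 : (3 : ℕ) ≠ 2 := by norm_num
  obtain ⟨hcard, hcount⟩ := F.card_sylow_eq hp2 h hq5
  have : Finite (xGrp g₀ π P) := Nat.finite_of_card_ne_zero (by rw [F.card_xGrp]; omega)
  refine isCoboundary_of_normalised_sylow g₀ π F.inj c hc P (xGrp g₀ π P) F.hPX
    (hXP_xGrp g₀ π P)
    {a | ∃ t : G, (∀ x ∈ (P : Subgroup G), t * x * t⁻¹ ∈ (P : Subgroup G)) ∧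
      nm g₀ π t = dE a} ?_ ?_
  · rintro a ⟨t, ht, hnt⟩
    refine ⟨?_, t, ht, hnt⟩
    rintro rfl
    have h1 := det_nm g₀ π t
    rw [hnt] at h1
    have h0 : (dE (0 : k)).det = 0 := by simp [dE, Matrix.det_fin_two]
    rw [h0] at h1
    exact coe_det_ne_zero π t h1.symm
  · rw [F.card_xGrp]
    have hfin : ((fun a : k => a ^ 2) '' {a | ∃ t : G,
        (∀ x ∈ (P : Subgroup G), t * x * t⁻¹ ∈ (P : Subgroup G)) ∧ nm g₀ π t = dE a}).Finite := by
      refine Set.Finite.image _ ((Set.finite_range (fun t : G => nm g₀ π t 0 0)).subset ?_)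
      rintro a ⟨t, -, hnt⟩
      refine ⟨t, ?_⟩
      show nm g₀ π t 0 0 = a
      rw [hnt]
      simp [dE]
    have hsub : (fun a : k => a ^ 2) '' eigSet π v ⊆ (fun a : k => a ^ 2) '' {a | ∃ t : G,
        (∀ x ∈ (P : Subgroup G), t * x * t⁻¹ ∈ (P : Subgroup G)) ∧ nm g₀ π t = dE a} :=
      Set.image_mono (fun a ha => F.exists_diag hcard Q hQ hQv' hQline hg2 ha)
    have := Set.ncard_le_ncard hsub hfin
    omega

end three

end Fermat.Agent.S56.Grp.Residue.Endgame
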