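import Mathlib

/-!
# (a5-G) residue, endgame: a group with `q + 1` Sylow `p`-subgroups of order `q`, any two of
which meet trivially, acts `2`-transitively on them

Abstract finite group theory: from `card (Sylow p G) = card P + 1` and the trivial-intersection
property, `P` is (simply) transitive on the other Sylow subgroups, the normaliser of `P` is
`P · (N(P) ⊓ N(Q))`, and some element swaps `P` and `Q`.
-/

set_option autoImplicit false

namespace Fermat.Agent.S56.Grp.Residue.Endgame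

open MulAction

variable {G : Type} [Group G] {p : ℕ}

/-- distinct Sylow `p`-subgroups meet trivially -/
def SylowTI (p : ℕ) (G : Type) [Group G] : Prop :=
  ∀ P Q : Sylow p G, P ≠ Q → ∀ x : G, x ∈ P → x ∈ Q → x = 1

/-- the normaliser of a Sylow subgroup -/
def nz (P : Sylow p G) : Subgroup G := Subgroup.normalizer (P : Set G)

theorem smul_eq_iff_mem_nz {g : G} {P : Sylow p G} : g • P = P ↔ g ∈ nz P :=
  Sylow.smul_eq_iff_mem_normalizer

theorem le_nz (P : Sylow p G) : (P : Subgroup G) ≤ nz P := fun _ hx =>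
  Subgroup.le_normalizer (H := (P : Subgroup G)) hx

theorem smul_eq_self_of_mem (P : Sylow p G) {u : G} (hu : u ∈ P) : u • P = P :=
  smul_eq_iff_mem_nz.2 (le_nz P hu)

theorem smul_ne_of_ne (P Q : Sylow p G) (hQ : Q ≠ P) {u : G} (hu : u ∈ P) : u • Q ≠ P := by
  intro h
  apply hQ
  have h1 : u⁻¹ • (u • Q) = u⁻¹ • P := by rw [h]
  rw [inv_smul_smul, smul_eq_self_of_mem P (P.inv_mem hu)] at h1
  exact h1

theorem eq_one_of_smul_eq [Fact p.Prime] (hTI : SylowTI p G) (P Q : Sylow p G) (hQ : Q ≠ P) {u : G}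
    (hu : u ∈ P) (h : u • Q = Q) : u = 1 := by
  have h1 : u ∈ nz Q := smul_eq_iff_mem_nz.1 h
  have h2 : u ∈ (P : Subgroup G) ⊓ Subgroup.normalizer (Q : Set G) := ⟨hu, h1⟩
  rw [P.isPGroup'.inf_normalizer_sylow Q] at h2
  exact hTI P Q (Ne.symm hQ) u hu h2.2

section count

variable [Finite G] [Fact p.Prime]

/-- `P` is transitive on the other Sylow subgroups -/
theorem exists_smul_eq_of_card (hTI : SylowTI p G) (P : Sylow p G)
    (hcard : Nat.card (Sylow p G) = Nat.card P + 1) (Q Q' : Sylow p G) (hQ : Q ≠ P)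
    (hQ' : Q' ≠ P) : ∃ u : G, u ∈ P ∧ u • Q = Q' := by
  classical
  have : Fintype (Sylow p G) := Fintype.ofFinite _
  have : Fintype (P : Subgroup G) := Fintype.ofFinite _
  let f : ↥(P : Subgroup G) → {R : Sylow p G // R ≠ P} :=
    fun u => ⟨(u : G) • Q, smul_ne_of_ne P Q hQ u.2⟩
  have hinj : Function.Injective f := by
    intro u u' h
    have h1 : (u : G) • Q = (u' : G) • Q := congrArg Subtype.val h
    have h2 : ((u' : G)⁻¹ * (u : G)) • Q = Q := by
      rw [mul_smul, h1, inv_smul_smul]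
    have h3 := eq_one_of_smul_eq hTI P Q hQ (P.mul_mem (P.inv_mem u'.2) u.2) h2
    apply Subtype.ext
    exact (inv_mul_eq_one.1 h3).symm
  have hc : Fintype.card (P : Subgroup G) = Fintype.card {R : Sylow p G // R ≠ P} := by
    rw [Fintype.card_subtype_compl, Fintype.card_subtype_eq, ← Nat.card_eq_fintype_card,
      ← Nat.card_eq_fintype_card, hcard, Nat.add_sub_cancel]
  have hbij : Function.Bijective f := (Fintype.bijective_iff_injective_and_card f).2 ⟨hinj, hc⟩
  obtain ⟨u, hu⟩ := hbij.2 ⟨Q', hQ'⟩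
  exact ⟨u, u.2, congrArg Subtype.val hu⟩

/-- some element of `G` swaps `P` and `Q` -/
theorem exists_swap (hTI : SylowTI p G) (P : Sylow p G)
    (hcard : Nat.card (Sylow p G) = Nat.card P + 1) (Q : Sylow p G) (hQ : Q ≠ P) :
    ∃ w : G, w • P = Q ∧ w • Q = P := by
  obtain ⟨g, hg⟩ := MulAction.exists_smul_eq G Q P
  have hR : g • P ≠ P := by
    intro h
    apply hQ
    have : g • Q = g • P := by rw [hg, h]
    exact smul_left_cancel g this
  obtain ⟨u, hu, huR⟩ := exists_smul_eq_of_card hTI P hcard (g • P) Q hR hQ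
  refine ⟨u * g, ?_, ?_⟩
  · rw [mul_smul, huR]
  · rw [mul_smul, hg, smul_eq_self_of_mem P hu]

/-- `N(P) = P · (N(P) ⊓ N(Q))` -/
theorem exists_mul_of_mem_normalizer (hTI : SylowTI p G) (P : Sylow p G)
    (hcard : Nat.card (Sylow p G) = Nat.card P + 1) (Q : Sylow p G) (hQ : Q ≠ P) {b : G}
    (hb : b ∈ nz P) :
    ∃ u : G, u ∈ P ∧ u⁻¹ * b ∈ nz P ∧ u⁻¹ * b ∈ nz Q := by
  have hbP : b • P = P := smul_eq_iff_mem_nz.2 hb
  have hR : b • Q ≠ P := by
    intro h
    apply hQ
    have : b • Q = b • P := by rw [h, hbP]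
    exact smul_left_cancel b this
  obtain ⟨u, hu, huR⟩ := exists_smul_eq_of_card hTI P hcard Q (b • Q) hQ hR
  refine ⟨u, hu, ?_, ?_⟩
  · exact Subgroup.mul_mem _ (Subgroup.inv_mem _ (le_nz P hu)) hb
  · apply smul_eq_iff_mem_nz.1
    rw [mul_smul, ← huR, inv_smul_smul]

end count

end Fermat.Agent.S56.Grp.Residue.Endgame
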