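import Fermat.Agent.S56.Grp.Residue.PLine
import Fermat.Agent.S56.Grp.Residue.TwoTrans

/-!
# (a5-G) residue, endgame for `p ≥ 5`

`G` finite, `π : G →* GL₂(k)` injective, `p ∣ |G|`, the only scalars in `π(G)` are `± 1`,
`det π(G) ⊇ F_p^×`, and `(D*)`: the number of Sylow `p`-subgroups is `|P| + 1`.  Then `p ≤ 3`.
-/

set_option autoImplicit false

namespace Fermat.Agent.S56.Grp.Residue.Endgame

open Matrix Polynomial Pointwise Fermat.Agent.S56.Grp

variable {k : Type} [Field k] {G : Type} [Group G]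

local notation "Mat2" => Matrix (Fin 2) (Fin 2)

/-- a matrix acting by the same scalar on two independent vectors is that scalar -/
theorem eq_smul_one_of_two_eigen {M : Mat2 k} {v v' : Fin 2 → k} {c : k} (hv : v ≠ 0)
    (hind : ∀ μ : k, v' ≠ μ • v) (h1 : M *ᵥ v = c • v) (h2 : M *ᵥ v' = c • v') :
    M = c • (1 : Mat2 k) := by
  by_contra hne
  have hM : M - c • (1 : Mat2 k) ≠ 0 := fun h => hne (sub_eq_zero.1 h)
  have e1 : (M - c • (1 : Mat2 k)) *ᵥ v = 0 := by
    rw [Matrix.sub_mulVec, Matrix.smul_mulVec, Matrix.one_mulVec, h1, sub_self]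
  have e2 : (M - c • (1 : Mat2 k)) *ᵥ v' = 0 := by
    rw [Matrix.sub_mulVec, Matrix.smul_mulVec, Matrix.one_mulVec, h2, sub_self]
  obtain ⟨μ, hμ⟩ := exists_smul_of_mulVec_eq_zero hM hv e1 e2
  exact hind μ hμ

/-- the determinant of a matrix with two independent eigenvectors -/
theorem det_eq_mul_of_two_eigen {M : Mat2 k} {v v' : Fin 2 → k} {a d : k} (hv : v ≠ 0)
    (hind : ∀ μ : k, v' ≠ μ • v) (h1 : M *ᵥ v = a • v) (h2 : M *ᵥ v' = d • v') :
    M.det = a * d := by
  have hD : v 0 * v' 1 - v 1 * v' 0 ≠ 0 := by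
    intro hD
    obtain ⟨μ, hμ⟩ := exists_smul_of_det_eq_zero hv hD
    exact hind μ hμ
  have a0 := congrFun h1 0
  have a1 := congrFun h1 1
  have b0 := congrFun h2 0
  have b1 := congrFun h2 1
  simp only [Matrix.mulVec, dotProduct, Fin.sum_univ_two, Pi.smul_apply, smul_eq_mul]
    at a0 a1 b0 b1
  have key : M.det * (v 0 * v' 1 - v 1 * v' 0) = a * d * (v 0 * v' 1 - v 1 * v' 0) := by
    rw [Matrix.det_fin_two]
    linear_combination (M 1 0 * v' 0 + M 1 1 * v' 1) * a0 - (M 0 0 * v' 0 + M 0 1 * v' 1) * a1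
      + (a * v 0) * b1 - (a * v 1) * b0
  exact mul_right_cancel₀ hD key

theorem mem_smul_sylow_iff {p : ℕ} (g : G) (P : Sylow p G) (x : G) :
    x ∈ (g • P : Sylow p G) ↔ g⁻¹ * x * g ∈ P := by
  have h : x ∈ (g • P : Sylow p G) ↔ x ∈ MulAut.conj g • (P : Subgroup G) := Iff.rfl
  rw [h, Subgroup.mem_pointwise_smul_iff_inv_smul_mem]
  simp only [MulAut.smul_def, MulAut.conj_inv_apply]
  rfl

section main

variable {p : ℕ}

/-- transport of fixed vectors: if `g • P = Q` and `P` fixes `v` then `Q` fixes `π g v` -/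
theorem fixes_of_smul_eq (π : G →* GL (Fin 2) k) {P Q : Sylow p G} {g : G} (h : g • P = Q)
    {v : Fin 2 → k} (hv : ∀ y ∈ P, (π y : Mat2 k) *ᵥ v = v) :
    ∀ y ∈ Q, (π y : Mat2 k) *ᵥ ((π g : Mat2 k) *ᵥ v) = (π g : Mat2 k) *ᵥ v := by
  intro y hy
  rw [← h, mem_smul_sylow_iff] at hy
  have e : y * g = g * (g⁻¹ * y * g) := by group
  rw [Matrix.mulVec_mulVec, ← Units.val_mul, ← map_mul, e, map_mul, Units.val_mul,
    ← Matrix.mulVec_mulVec, hv _ hy]

theorem mulVec_ne_zero (π : G →* GL (Fin 2) k) (g : G) {v : Fin 2 → k} (hv : v ≠ 0) :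
    (π g : Mat2 k) *ᵥ v ≠ 0 := by
  intro h
  apply hv
  have := congrArg (fun u => (π g⁻¹ : Mat2 k) *ᵥ u) h
  simp only [Matrix.mulVec_mulVec, Matrix.mulVec_zero] at this
  rwa [← Units.val_mul, ← map_mul, inv_mul_cancel, map_one, Units.val_one,
    Matrix.one_mulVec] at this

variable [Fact p.Prime] [CharP k p]

/-- distinct Sylow `p`-subgroups meet trivially -/
theorem sylowTI (hp2 : p ≠ 2) (π : G →* GL (Fin 2) k) (hπ : Function.Injective π) :
    SylowTI p G := by
  intro P Q hPQ x hxP hxQ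
  by_contra hx1
  have hPne : (P : Subgroup G) ≠ ⊥ := fun h => hx1 (by
    have : x ∈ (⊥ : Subgroup G) := h ▸ hxP
    simpa using this)
  have hQne : (Q : Subgroup G) ≠ ⊥ := fun h => hx1 (by
    have : x ∈ (⊥ : Subgroup G) := h ▸ hxQ
    simpa using this)
  obtain ⟨v, hv, hPv, -⟩ := exists_fixed_vector π hp2 hπ P.isPGroup' hPne
  obtain ⟨v', hv', hQv', -⟩ := exists_fixed_vector π hp2 hπ Q.isPGroup' hQne
  have hN : (π x : Mat2 k) - (1 : k) • (1 : Mat2 k) ≠ 0 := by
    intro h0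
    apply hx1
    apply hπ
    apply Units.ext
    rw [map_one, Units.val_one]
    rw [one_smul, sub_eq_zero] at h0
    exact h0
  have e1 : ((π x : Mat2 k) - (1 : k) • (1 : Mat2 k)) *ᵥ v = 0 := by
    rw [Matrix.sub_mulVec, one_smul, Matrix.one_mulVec, hPv x hxP, sub_self]
  have e2 : ((π x : Mat2 k) - (1 : k) • (1 : Mat2 k)) *ᵥ v' = 0 := by
    rw [Matrix.sub_mulVec, one_smul, Matrix.one_mulVec, hQv' x hxQ, sub_self]
  obtain ⟨μ, hμ⟩ := exists_smul_of_mulVec_eq_zero hN hv e1 e2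
  have hμ0 : μ ≠ 0 := by
    rintro rfl
    rw [zero_smul] at hμ
    exact hv' hμ
  apply hPQ
  refine sylow_eq_of_fixes π hπ P Q hv hPv (fun y hy => ?_)
  have := hQv' y hy
  rw [hμ, Matrix.mulVec_smul] at this
  exact smul_right_injective _ hμ0 this

variable [Finite G]

/-- **the endgame for `p ≥ 5`** -/
theorem false_of_card_sylow (hp5 : 5 ≤ p) (π : G →* GL (Fin 2) k)
    (hπ : Function.Injective π) (h : ImgHyp p π) (hp : p ∣ Nat.card G)
    (hsc : ∀ (g : G) (a : k), (π g : Mat2 k) = Matrix.scalar (Fin 2) a → a ^ 2 = 1)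
    (P : Sylow p G) (hcard : Nat.card (Sylow p G) = Nat.card P + 1) : False := by
  have hp2 : p ≠ 2 := by omega
  have hTI : SylowTI p G := sylowTI hp2 π hπ
  -- a second Sylow subgroup
  have hex : ∃ Q : Sylow p G, Q ≠ P := by
    by_contra hall
    push Not at hall
    have : Subsingleton (Sylow p G) := ⟨fun A B => (hall A).trans (hall B).symm⟩
    have h1 : Nat.card (Sylow p G) = 1 := Nat.card_unique
    have h2 : 0 < Nat.card (P : Subgroup G) := Nat.card_pos
    omega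
  obtain ⟨Q, hQ⟩ := hex
  have hPne : (P : Subgroup G) ≠ ⊥ := P.ne_bot_of_dvd_card hp
  have hQne : (Q : Subgroup G) ≠ ⊥ := Q.ne_bot_of_dvd_card hp
  obtain ⟨v, hv, hPv, hPline⟩ := exists_fixed_vector π hp2 hπ P.isPGroup' hPne
  obtain ⟨v', hv', hQv', hQline⟩ := exists_fixed_vector π hp2 hπ Q.isPGroup' hQne
  -- independence
  have hind : ∀ μ : k, v' ≠ μ • v := by
    intro μ hμ
    have hμ0 : μ ≠ 0 := by
      rintro rfl
      rw [zero_smul] at hμ
      exact hv' hμ
    apply hQ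
    symm
    refine sylow_eq_of_fixes π hπ P Q hv hPv (fun y hy => ?_)
    have := hQv' y hy
    rw [hμ, Matrix.mulVec_smul] at this
    exact smul_right_injective _ hμ0 this
  -- the swapping element
  obtain ⟨w, hwP, hwQ⟩ := exists_swap hTI P hcard Q hQ
  obtain ⟨β, hβ⟩ := hQline _ (fixes_of_smul_eq π hwP hPv)
  obtain ⟨γ, hγ⟩ := hPline _ (fixes_of_smul_eq π hwQ hQv')
  -- elements of `N(P) ⊓ N(Q)` have determinant `± 1`
  have hT : ∀ t : G, t ∈ nz P → t ∈ nz Q → ((π t : Mat2 k).det) ^ 2 = 1 := by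
    intro t htP htQ
    obtain ⟨a, ha⟩ := hPline _ (fixes_of_smul_eq π (smul_eq_iff_mem_nz.2 htP) hPv)
    obtain ⟨d, hd⟩ := hQline _ (fixes_of_smul_eq π (smul_eq_iff_mem_nz.2 htQ) hQv')
    have hdet : (π t : Mat2 k).det = a * d := det_eq_mul_of_two_eigen hv hind ha hd
    -- the conjugate `w t w⁻¹` has the eigenvalues swapped
    have hβ0 : β ≠ 0 := by
      rintro rfl
      rw [zero_smul] at hβ
      exact mulVec_ne_zero π w hv hβ
    have hγ0 : γ ≠ 0 := by
      rintro rfl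
      rw [zero_smul] at hγ
      exact mulVec_ne_zero π w hv' hγ
    have hwinv_v' : (π w⁻¹ : Mat2 k) *ᵥ v' = β⁻¹ • v := by
      have := congrArg (fun u => (π w⁻¹ : Mat2 k) *ᵥ u) hβ
      simp only [Matrix.mulVec_mulVec, Matrix.mulVec_smul] at this
      rw [← Units.val_mul, ← map_mul, inv_mul_cancel, map_one, Units.val_one,
        Matrix.one_mulVec] at this
      rw [this, smul_smul, inv_mul_cancel₀ hβ0, one_smul]
    have hwinv_v : (π w⁻¹ : Mat2 k) *ᵥ v = γ⁻¹ • v' := by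
      have := congrArg (fun u => (π w⁻¹ : Mat2 k) *ᵥ u) hγ
      simp only [Matrix.mulVec_mulVec, Matrix.mulVec_smul] at this
      rw [← Units.val_mul, ← map_mul, inv_mul_cancel, map_one, Units.val_one,
        Matrix.one_mulVec] at this
      rw [this, smul_smul, inv_mul_cancel₀ hγ0, one_smul]
    have hc_v : (π (w * t * w⁻¹) : Mat2 k) *ᵥ v = d • v := by
      rw [map_mul, map_mul, Units.val_mul, Units.val_mul, ← Matrix.mulVec_mulVec,
        ← Matrix.mulVec_mulVec, hwinv_v, Matrix.mulVec_smul, hd, Matrix.mulVec_smul,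
        Matrix.mulVec_smul, hγ, smul_smul, smul_smul]
      congr 1
      field_simp
    have hc_v' : (π (w * t * w⁻¹) : Mat2 k) *ᵥ v' = a • v' := by
      rw [map_mul, map_mul, Units.val_mul, Units.val_mul, ← Matrix.mulVec_mulVec,
        ← Matrix.mulVec_mulVec, hwinv_v', Matrix.mulVec_smul, ha, Matrix.mulVec_smul,
        Matrix.mulVec_smul, hβ, smul_smul, smul_smul]
      congr 1
      field_simp
    have hs_v : (π (t * (w * t * w⁻¹)) : Mat2 k) *ᵥ v = (a * d) • v := by
      rw [map_mul, Units.val_mul, ← Matrix.mulVec_mulVec, hc_v, Matrix.mulVec_smul, ha,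
        smul_smul, mul_comm]
    have hs_v' : (π (t * (w * t * w⁻¹)) : Mat2 k) *ᵥ v' = (a * d) • v' := by
      rw [map_mul, Units.val_mul, ← Matrix.mulVec_mulVec, hc_v', Matrix.mulVec_smul, hd,
        smul_smul]
    have hs := eq_smul_one_of_two_eigen hv hind hs_v hs_v'
    rw [Matrix.smul_one_eq_diagonal, ← Matrix.scalar_apply] at hs
    rw [hdet]
    exact hsc _ _ hs
  -- an element of determinant `2`
  have h2c : Nat.Coprime 2 p := by
    rw [Nat.coprime_comm, Nat.Prime.coprime_iff_not_dvd Fact.out]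
    intro hd
    have := Nat.le_of_dvd (by norm_num) hd
    omega
  obtain ⟨g, hg⟩ := h.det (ZMod.unitOfCoprime 2 h2c)
  have hg2 : (π g : Mat2 k).det = 2 := by
    rw [← Matrix.GeneralLinearGroup.val_det_apply, hg, ZMod.coe_unitOfCoprime]
    have := ZMod.cast_natCast (R := k) (dvd_refl p) 2
    simpa using this
  -- Frattini
  let N : Subgroup G := (Matrix.GeneralLinearGroup.det.comp π).ker
  have hPN : (P : Subgroup G) ≤ N := by
    intro x hx
    rw [MonoidHom.mem_ker, MonoidHom.comp_apply]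
    apply Units.ext
    rw [Matrix.GeneralLinearGroup.val_det_apply, Units.val_one]
    exact (isDbl_of_isPGroup π P.isPGroup' hx).2.trans (one_pow 2)
  have hfr : nz P ⊔ N = ⊤ := Sylow.normalizer_sup_eq_top' P hPN
  have hgmem : g ∈ nz P ⊔ N := hfr ▸ Subgroup.mem_top g
  have hgmem' : g ∈ ((nz P ⊔ N : Subgroup G) : Set G) := hgmem
  rw [Subgroup.mul_normal] at hgmem'
  obtain ⟨b, hb, n, hn, rfl⟩ := Set.mem_mul.1 hgmem'
  have hn1 : (π n : Mat2 k).det = 1 := by
    have : (Matrix.GeneralLinearGroup.det.comp π) n = 1 := hn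
    rw [MonoidHom.comp_apply] at this
    rw [← Matrix.GeneralLinearGroup.val_det_apply, this, Units.val_one]
  have hb2 : (π b : Mat2 k).det = 2 := by
    rw [map_mul, Units.val_mul, Matrix.det_mul, hn1, mul_one] at hg2
    exact hg2
  obtain ⟨u, hu, htP, htQ⟩ := exists_mul_of_mem_normalizer hTI P hcard Q hQ hb
  have hu1 : (π u⁻¹ : Mat2 k).det = 1 :=
    (isDbl_of_isPGroup π P.isPGroup' (P.inv_mem hu)).2.trans (one_pow 2)
  have ht2 : (π (u⁻¹ * b) : Mat2 k).det = 2 := by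
    rw [map_mul, Units.val_mul, Matrix.det_mul, hu1, one_mul, hb2]
  have h4 := hT _ htP htQ
  rw [ht2] at h4
  -- `4 = 1` in `k` forces `p ∣ 3`
  have h3 : ((3 : ℕ) : k) = 0 := by
    have : (2 : k) ^ 2 - 1 = 0 := sub_eq_zero.2 h4
    push_cast
    linear_combination this
  rw [CharP.cast_eq_zero_iff k p] at h3
  have := Nat.le_of_dvd (by norm_num) h3
  omega

end main

end Fermat.Agent.S56.Grp.Residue.Endgame
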