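import Mathlib

/-!
# PROJECT T (S56), block (a5-G), leaf (G4c): free actions and cardinalities
-/

set_option autoImplicit false

namespace Fermat.Agent.S56.Grp.Residue.FreeAct

variable {P Y : Type*} [Group P] [MulAction P Y]

/-- the order of a group acting freely divides the cardinality of the set -/
theorem card_dvd_of_free (hfree : ∀ (u : P) (y : Y), u • y = y → u = 1) :
    Nat.card P ∣ Nat.card Y := by
  have hstab : ∀ y : Y, MulAction.stabilizer P y = ⊥ := by
    intro y
    rw [Subgroup.eq_bot_iff_forall]
    intro u hu
    exact hfree u y (MulAction.mem_stabilizer_iff.mp hu)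
  have e := MulAction.selfEquivOrbitsQuotientProd hstab
  rw [Nat.card_congr e, Nat.card_prod]
  exact Dvd.intro_left _ rfl

/-- one fixed point, free elsewhere: the order of the group divides the cardinality minus one -/
theorem card_dvd_card_sub_one [Finite Y] (y₀ : Y) (hfix : ∀ u : P, u • y₀ = y₀)
    (hfree : ∀ (u : P) (y : Y), y ≠ y₀ → u • y = y → u = 1) :
    Nat.card P ∣ Nat.card Y - 1 := by
  classical
  let S : SubMulAction P Y :=
    { carrier := {y | y ≠ y₀}
      smul_mem' := by
        intro u y hy h
        apply hy
        have : u⁻¹ • (u • y) = u⁻¹ • y₀ := by rw [h]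
        rw [inv_smul_smul] at this
        rw [this]
        have h2 := hfix u
        calc u⁻¹ • y₀ = u⁻¹ • (u • y₀) := by rw [h2]
          _ = y₀ := inv_smul_smul u y₀ }
  have h1 : Nat.card P ∣ Nat.card S := by
    apply card_dvd_of_free
    intro u y h
    apply hfree u (y : Y) y.2
    have := congrArg (fun z : S => (z : Y)) h
    simpa using this
  have h2 : Nat.card S = Nat.card Y - 1 := by
    have e : Option {y : Y // y ≠ y₀} ≃ Y := Equiv.optionSubtypeNe y₀
    have h3 : Nat.card Y = Nat.card {y : Y // y ≠ y₀} + 1 := by
      rw [← Nat.card_congr e, Finite.card_option]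
    have h4 : Nat.card S = Nat.card {y : Y // y ≠ y₀} := rfl
    omega
  rw [← h2]
  exact h1

end Fermat.Agent.S56.Grp.Residue.FreeAct
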