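import Mathlib

/-!
# PROJECT T (S56), block (a5-G), leaf (G4c), file (R1): two by two matrices over a field

Pure matrix lemmas: the commutant of a non-scalar matrix `x` is `k[x]`, commuting is transitive on
non-scalar matrices, the discriminant `disc x = (tr x)^2 - 4 det x` of an element of `k[x]`, the
two elements of `k[x]` with the trace and determinant of `x`, involutions of determinant one,
elements of determinant one and discriminant zero.
-/

set_option autoImplicit false

namespace Fermat.Agent.S56.Grp.Residue.Mat2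

open Matrix

variable {k : Type*} [Field k]

/-- scalar matrices -/
def IsScalar (x : Matrix (Fin 2) (Fin 2) k) : Prop :=
  ∃ a : k, x = a • (1 : Matrix (Fin 2) (Fin 2) k)

/-- the discriminant of the characteristic polynomial -/
def disc (x : Matrix (Fin 2) (Fin 2) k) : k := x.trace ^ 2 - 4 * x.det

omit [Field k] in
/-- entrywise equality of two by two matrices -/
private theorem ext2 {x y : Matrix (Fin 2) (Fin 2) k} (h00 : x 0 0 = y 0 0) (h01 : x 0 1 = y 0 1)
    (h10 : x 1 0 = y 1 0) (h11 : x 1 1 = y 1 1) : x = y := by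
  ext i j
  fin_cases i <;> fin_cases j <;> assumption

omit [Field k] in
private theorem ext2_iff {x y : Matrix (Fin 2) (Fin 2) k} :
    x = y ↔ x 0 0 = y 0 0 ∧ x 0 1 = y 0 1 ∧ x 1 0 = y 1 0 ∧ x 1 1 = y 1 1 :=
  ⟨fun h => by subst h; exact ⟨rfl, rfl, rfl, rfl⟩, fun h => ext2 h.1 h.2.1 h.2.2.1 h.2.2.2⟩

/-- (M1) -/
theorem isScalar_iff (x : Matrix (Fin 2) (Fin 2) k) :
    IsScalar x ↔ x 0 1 = 0 ∧ x 1 0 = 0 ∧ x 0 0 = x 1 1 := by
  constructor
  · rintro ⟨a, rfl⟩
    simp
  · rintro ⟨h01, h10, h00⟩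
    refine ⟨x 0 0, ext2 ?_ ?_ ?_ ?_⟩ <;> simp [h01, h10, h00]

private theorem mul_apply2 (x y : Matrix (Fin 2) (Fin 2) k) (i j : Fin 2) :
    (x * y) i j = x i 0 * y 0 j + x i 1 * y 1 j := by
  rw [Matrix.mul_apply, Fin.sum_univ_two]

/-- (M2) the commutant of a non-scalar matrix `x` is `k[x]` -/
theorem comm_eq_poly {x y : Matrix (Fin 2) (Fin 2) k} (hx : ¬ IsScalar x) (h : x * y = y * x) :
    ∃ a b : k, y = a • (1 : Matrix (Fin 2) (Fin 2) k) + b • x := by
  rw [ext2_iff] at h
  simp only [mul_apply2] at h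
  obtain ⟨e00, e01, e10, -⟩ := h
  rw [isScalar_iff] at hx
  by_cases hq : x 0 1 = 0
  · by_cases hr : x 1 0 = 0
    · have hps : x 0 0 ≠ x 1 1 := fun hps => hx ⟨hq, hr, hps⟩
      have hps' : x 1 1 - x 0 0 ≠ 0 := sub_ne_zero.mpr (Ne.symm hps)
      rw [hq] at e01
      rw [hr] at e10
      have hb : y 0 1 = 0 := by
        have : y 0 1 * (x 1 1 - x 0 0) = 0 := by linear_combination -e01
        rcases mul_eq_zero.mp this with h | h
        · exact h
        · exact absurd h hps'
      have hc : y 1 0 = 0 := by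
        have : y 1 0 * (x 1 1 - x 0 0) = 0 := by linear_combination e10
        rcases mul_eq_zero.mp this with h | h
        · exact h
        · exact absurd h hps'
      refine ⟨y 0 0 - (y 1 1 - y 0 0) / (x 1 1 - x 0 0) * x 0 0,
        (y 1 1 - y 0 0) / (x 1 1 - x 0 0), ext2 ?_ ?_ ?_ ?_⟩
      · simp
      · simp [hb, hq]
      · simp [hc, hr]
      · simp
        field_simp
        ring
    · refine ⟨y 0 0 - y 1 0 / x 1 0 * x 0 0, y 1 0 / x 1 0, ext2 ?_ ?_ ?_ ?_⟩
      · simp
      · simp
        field_simp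
        linear_combination -e00
      · simp
        field_simp
      · simp
        field_simp
        linear_combination -e10
  · refine ⟨y 0 0 - y 0 1 / x 0 1 * x 0 0, y 0 1 / x 0 1, ext2 ?_ ?_ ?_ ?_⟩
    · simp
    · simp
      field_simp
    · simp
      field_simp
      linear_combination e00
    · simp
      field_simp
      linear_combination e01

/-- (M3) commuting is transitive through a non-scalar matrix -/
theorem comm_trans {x y z : Matrix (Fin 2) (Fin 2) k} (hy : ¬ IsScalar y) (hxy : x * y = y * x)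
    (hyz : y * z = z * y) : x * z = z * x := by
  obtain ⟨a, b, rfl⟩ := comm_eq_poly hy hxy.symm
  obtain ⟨c, d, rfl⟩ := comm_eq_poly hy hyz
  simp only [add_mul, mul_add, smul_mul_assoc, mul_smul_comm, one_mul, mul_one, smul_add,
    smul_smul]
  rw [mul_comm c a, mul_comm d b, mul_comm d a, mul_comm c b]
  abel

/-- (M4) -/
theorem disc_poly (x : Matrix (Fin 2) (Fin 2) k) (a b : k) :
    disc (a • (1 : Matrix (Fin 2) (Fin 2) k) + b • x) = b ^ 2 * disc x := by
  simp only [disc, Matrix.trace_fin_two, Matrix.det_fin_two, Matrix.add_apply, Matrix.smul_apply,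
    Matrix.one_apply_eq, Matrix.one_apply_ne, smul_eq_mul, mul_one, mul_zero, zero_add, ne_eq,
    one_ne_zero, not_false_eq_true, zero_ne_one]
  ring

/-- (M4') -/
theorem disc_conj (g x : Matrix (Fin 2) (Fin 2) k) (hg : g.det ≠ 0) :
    disc (g * x * g⁻¹) = disc x := by
  have hu : IsUnit g.det := isUnit_iff_ne_zero.mpr hg
  have htr : (g * x * g⁻¹).trace = x.trace := by
    rw [Matrix.trace_mul_cycle, Matrix.nonsing_inv_mul g hu, one_mul]
  have hdet : (g * x * g⁻¹).det = x.det := by
    rw [Matrix.det_mul, Matrix.det_mul, Matrix.det_nonsing_inv, Ring.inverse_eq_inv']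
    field_simp
  rw [disc, disc, htr, hdet]

/-- a non-scalar polynomial `a + b x` has `b ≠ 0`. -/
private theorem coeff_ne_zero_of_not_isScalar {x : Matrix (Fin 2) (Fin 2) k} {a b : k}
    (h : ¬ IsScalar (a • (1 : Matrix (Fin 2) (Fin 2) k) + b • x)) : b ≠ 0 := by
  rintro rfl
  exact h ⟨a, by simp⟩

/-- (M5) two commuting non-scalar matrices have the same type -/
theorem disc_eq_zero_iff_of_comm {x y : Matrix (Fin 2) (Fin 2) k} (hx : ¬ IsScalar x)
    (hy : ¬ IsScalar y) (h : x * y = y * x) : disc y = 0 ↔ disc x = 0 := by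
  obtain ⟨a, b, rfl⟩ := comm_eq_poly hx h
  have hb := coeff_ne_zero_of_not_isScalar hy
  rw [disc_poly]
  constructor
  · intro h0
    rcases mul_eq_zero.mp h0 with h1 | h1
    · exact absurd (pow_eq_zero_iff two_ne_zero |>.mp h1) hb
    · exact h1
  · intro h0; rw [h0, mul_zero]

/-- the inverse of a two by two matrix of determinant one is `tr x - x`. -/
private theorem inv_eq_of_det_eq_one {x : Matrix (Fin 2) (Fin 2) k} (hdx : x.det = 1) :
    x⁻¹ = x.trace • (1 : Matrix (Fin 2) (Fin 2) k) - x := by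
  rw [Matrix.inv_def, hdx, Ring.inverse_one, one_smul, Matrix.adjugate_fin_two]
  refine ext2 ?_ ?_ ?_ ?_ <;> simp [Matrix.trace_fin_two]

/-- (M6) an element of the commutant of `x` with the trace and determinant of `x` is `x` or
`x⁻¹`, when `det x = 1` and `disc x ≠ 0`. -/
theorem eq_or_eq_inv_of_comm (h2 : (2 : k) ≠ 0) {x y : Matrix (Fin 2) (Fin 2) k}
    (hx : ¬ IsScalar x) (hdx : x.det = 1) (hdisc : disc x ≠ 0) (hdy : y.det = 1)
    (htr : y.trace = x.trace) (h : x * y = y * x) : y = x ∨ y = x⁻¹ := by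
  obtain ⟨a, b, rfl⟩ := comm_eq_poly hx h
  have hd : disc (a • (1 : Matrix (Fin 2) (Fin 2) k) + b • x) = disc x := by
    rw [disc, disc, htr, hdy, hdx]
  rw [disc_poly] at hd
  have hb : (b - 1) * (b + 1) = 0 := by
    have : (b ^ 2 - 1) * disc x = 0 := by linear_combination hd
    rcases mul_eq_zero.mp this with h1 | h1
    · linear_combination h1
    · exact absurd h1 hdisc
  have htr' : 2 * a + b * x.trace = x.trace := by
    have := htr
    simp only [Matrix.trace_fin_two, Matrix.add_apply, Matrix.smul_apply, Matrix.one_apply_eq,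
      smul_eq_mul, mul_one] at this ⊢
    linear_combination this
  rcases mul_eq_zero.mp hb with hb1 | hb1
  · left
    have hb' : b = 1 := by linear_combination hb1
    have ha : a = 0 := by
      have : 2 * a = 0 := by rw [hb'] at htr'; linear_combination htr'
      rcases mul_eq_zero.mp this with h3 | h3
      · exact absurd h3 h2
      · exact h3
    rw [ha, hb']; simp
  · right
    have hb' : b = -1 := by linear_combination hb1
    have ha : a = x.trace := by
      have : 2 * (a - x.trace) = 0 := by rw [hb'] at htr'; linear_combination htr'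
      rcases mul_eq_zero.mp this with h3 | h3
      · exact absurd h3 h2
      · linear_combination h3
    rw [inv_eq_of_det_eq_one hdx, ha, hb']
    simp [sub_eq_add_neg]

/-- (M7) an involution of determinant one is `1` or `-1` -/
theorem eq_one_or_neg_one_of_sq (h2 : (2 : k) ≠ 0) {x : Matrix (Fin 2) (Fin 2) k}
    (hdx : x.det = 1) (h : x * x = 1) : x = 1 ∨ x = -1 := by
  rw [ext2_iff] at h
  simp only [mul_apply2, Matrix.one_apply_eq, Matrix.one_apply_ne, ne_eq, zero_ne_one,
    one_ne_zero, not_false_eq_true] at h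
  obtain ⟨e00, e01, e10, e11⟩ := h
  rw [Matrix.det_fin_two] at hdx
  have hts : x 0 0 * (x 0 0 + x 1 1) = 2 := by linear_combination e00 + hdx
  have hne : x 0 0 + x 1 1 ≠ 0 := by
    intro h0; rw [h0, mul_zero] at hts; exact h2 hts.symm
  have hq : x 0 1 = 0 := by
    have : x 0 1 * (x 0 0 + x 1 1) = 0 := by linear_combination e01
    rcases mul_eq_zero.mp this with h3 | h3
    · exact h3
    · exact absurd h3 hne
  have hr : x 1 0 = 0 := by
    have : x 1 0 * (x 0 0 + x 1 1) = 0 := by linear_combination e10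
    rcases mul_eq_zero.mp this with h3 | h3
    · exact h3
    · exact absurd h3 hne
  rw [hq, hr] at hdx e00 e11
  have hp : (x 0 0 - 1) * (x 0 0 + 1) = 0 := by linear_combination e00
  have hps : x 1 1 = x 0 0 := by
    -- `p s = 1`, `p² = 1`
    have : x 0 0 * (x 1 1 - x 0 0) = 0 := by linear_combination hdx - e00
    rcases mul_eq_zero.mp this with h3 | h3
    · rw [h3] at e00; simp at e00
    · linear_combination h3
  rcases mul_eq_zero.mp hp with h3 | h3
  · left
    have hp1 : x 0 0 = 1 := by linear_combination h3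
    refine ext2 ?_ ?_ ?_ ?_ <;> simp [hq, hr, hps, hp1]
  · right
    have hp1 : x 0 0 = -1 := by linear_combination h3
    refine ext2 ?_ ?_ ?_ ?_ <;> simp [hq, hr, hps, hp1]

/-- (M7') a scalar matrix of determinant one is `1` or `-1` -/
theorem eq_one_or_neg_one_of_isScalar {x : Matrix (Fin 2) (Fin 2) k} (hs : IsScalar x)
    (hdx : x.det = 1) : x = 1 ∨ x = -1 := by
  obtain ⟨a, rfl⟩ := hs
  have ha : (a - 1) * (a + 1) = 0 := by
    rw [Matrix.det_fin_two] at hdx
    simp at hdx
    linear_combination hdx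
  rcases mul_eq_zero.mp ha with h3 | h3
  · left
    have : a = 1 := by linear_combination h3
    rw [this, one_smul]
  · right
    have : a = -1 := by linear_combination h3
    rw [this]; simp

/-- Cayley-Hamilton for two by two matrices -/
private theorem cayley_hamilton (x : Matrix (Fin 2) (Fin 2) k) :
    x * x = x.trace • x - x.det • (1 : Matrix (Fin 2) (Fin 2) k) := by
  refine ext2 ?_ ?_ ?_ ?_ <;>
    simp [mul_apply2, Matrix.trace_fin_two, Matrix.det_fin_two] <;> ring

/-- determinant one and discriminant zero: `x * x - 1` squares to zero -/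
private theorem sq_sub_one_mul_self {x : Matrix (Fin 2) (Fin 2) k} (hdx : x.det = 1)
    (hdisc : disc x = 0) : (x * x - 1) * (x * x - 1) = 0 := by
  have hd : x.trace ^ 2 - 4 * x.det = 0 := hdisc
  rw [Matrix.trace_fin_two, Matrix.det_fin_two] at hd
  rw [Matrix.det_fin_two] at hdx
  refine ext2 ?_ ?_ ?_ ?_
  all_goals
    simp only [mul_apply2, Matrix.sub_apply, Matrix.one_apply_eq, Matrix.one_apply_ne, ne_eq,
      zero_ne_one, one_ne_zero, not_false_eq_true, Matrix.zero_apply, sub_zero]
  · linear_combination ((x 0 0 + x 1 1) * x 0 0 - (x 0 0 * x 1 1 - x 0 1 * x 1 0)) * hd +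
      (2 * (x 0 0 + x 1 1) * x 0 0 - (3 * (x 0 0 * x 1 1 - x 0 1 * x 1 0) + 1)) * hdx
  · linear_combination ((x 0 0 + x 1 1) * x 0 1) * hd + (2 * (x 0 0 + x 1 1) * x 0 1) * hdx
  · linear_combination ((x 0 0 + x 1 1) * x 1 0) * hd + (2 * (x 0 0 + x 1 1) * x 1 0) * hdx
  · linear_combination ((x 0 0 + x 1 1) * x 1 1 - (x 0 0 * x 1 1 - x 0 1 * x 1 0)) * hd +
      (2 * (x 0 0 + x 1 1) * x 1 1 - (3 * (x 0 0 * x 1 1 - x 0 1 * x 1 0) + 1)) * hdx

private theorem one_add_pow_of_sq_zero {M : Matrix (Fin 2) (Fin 2) k} (hM : M * M = 0) (n : ℕ) :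
    (1 + M) ^ n = 1 + (n : k) • M := by
  induction n with
  | zero => simp
  | succ n ih =>
    rw [pow_succ, ih]
    simp only [add_mul, mul_add, one_mul, mul_one, smul_mul_assoc, hM, smul_zero, add_zero,
      Nat.cast_succ, add_smul, one_smul]
    abel

/-- (M8) determinant one and discriminant zero: the square is killed by `p` -/
theorem sq_pow_char (p : ℕ) [Fact p.Prime] [CharP k p] (hp : p ≠ 2)
    {x : Matrix (Fin 2) (Fin 2) k} (hdx : x.det = 1) (hdisc : disc x = 0) :
    (x * x) ^ p = 1 := by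
  have _ := hp
  have hM := sq_sub_one_mul_self hdx hdisc
  have hx : x * x = 1 + (x * x - 1) := by abel
  rw [hx, one_add_pow_of_sq_zero hM, CharP.cast_eq_zero k p, zero_smul, add_zero]

/-- (M9) determinant one, not scalar: the square is not `1` -/
theorem sq_ne_one (h2 : (2 : k) ≠ 0) {x : Matrix (Fin 2) (Fin 2) k} (hx : ¬ IsScalar x)
    (hdx : x.det = 1) : x * x ≠ 1 := by
  intro h
  rcases eq_one_or_neg_one_of_sq h2 hdx h with rfl | rfl
  · exact hx ⟨1, by simp⟩
  · exact hx ⟨-1, by simp⟩

private theorem two_ne_zero_of_char (p : ℕ) [Fact p.Prime] [CharP k p] (hp : p ≠ 2) :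
    (2 : k) ≠ 0 := by
  intro h
  have h' : ((2 : ℕ) : k) = 0 := by exact_mod_cast h
  rw [CharP.cast_eq_zero_iff k p] at h'
  exact hp ((Nat.prime_dvd_prime_iff_eq (Fact.out : p.Prime) Nat.prime_two).mp h')

/-- (M9') determinant one, not scalar, discriminant zero, odd characteristic: no power of `x`
prime to `p` is scalar... in the form used: if `x ^ n = 1` with `n` prime to `p` then `x` is
scalar or `disc x ≠ 0`. -/
theorem disc_ne_zero_of_pow_eq_one (p : ℕ) [Fact p.Prime] [CharP k p] (hp : p ≠ 2)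
    {x : Matrix (Fin 2) (Fin 2) k} (hx : ¬ IsScalar x) (hdx : x.det = 1) {n : ℕ}
    (hn : Nat.Coprime n p) (hxn : x ^ n = 1) : disc x ≠ 0 := by
  intro hdisc
  have h2 : (2 : k) ≠ 0 := two_ne_zero_of_char p hp
  have h2p : x ^ (2 * p) = 1 := by
    rw [pow_mul, pow_two]; exact sq_pow_char p hp hdx hdisc
  have hd1 : orderOf x ∣ n := orderOf_dvd_of_pow_eq_one hxn
  have hd2 : orderOf x ∣ 2 * p := orderOf_dvd_of_pow_eq_one h2p
  have hcop : Nat.Coprime (orderOf x) p := Nat.Coprime.coprime_dvd_left hd1 hn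
  have hd3 : orderOf x ∣ 2 := hcop.dvd_of_dvd_mul_right hd2
  have hsq : x ^ 2 = 1 := orderOf_dvd_iff_pow_eq_one.mp hd3
  rw [pow_two] at hsq
  exact sq_ne_one h2 hx hdx hsq

/-! ### normalised coordinates -/

private theorem inv_of_det_one {g : Matrix (Fin 2) (Fin 2) k} (hg : g.det = 1) :
    g⁻¹ = !![g 1 1, -g 0 1; -g 1 0, g 0 0] := by
  rw [Matrix.inv_def, hg, Ring.inverse_one, one_smul, Matrix.adjugate_fin_two]


/-- the upper unitriangular matrix -/
def uE (x : k) : Matrix (Fin 2) (Fin 2) k := !![1, x; 0, 1]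

/-- (M10) the lower left entry of a conjugate of `uE x` -/
theorem conj_uE_apply_one_zero (g : Matrix (Fin 2) (Fin 2) k) (hg : g.det = 1) (x : k) :
    (g * uE x * g⁻¹) 1 0 = - (g 1 0) ^ 2 * x := by
  rw [inv_of_det_one hg]
  simp [uE, mul_apply2]
  ring

/-- (M11) conjugating `uE x` by an upper triangular matrix of determinant one -/
theorem conj_uE_of_upper (b : Matrix (Fin 2) (Fin 2) k) (hb : b.det = 1) (h10 : b 1 0 = 0)
    (x : k) : b * uE x * b⁻¹ = uE ((b 0 0) ^ 2 * x) := by
  rw [inv_of_det_one hb]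
  have hd : b 0 0 * b 1 1 = 1 := by
    rw [Matrix.det_fin_two, h10] at hb
    linear_combination hb
  ext i j
  fin_cases i <;> fin_cases j <;> simp [uE, mul_apply2, h10]
  · exact hd
  · ring
  · linear_combination hd

/-- (M12) the commutant of `uE x₀`, `x₀ ≠ 0` -/
theorem comm_uE_iff {x₀ : k} (hx₀ : x₀ ≠ 0) (y : Matrix (Fin 2) (Fin 2) k) :
    uE x₀ * y = y * uE x₀ ↔ y 1 0 = 0 ∧ y 0 0 = y 1 1 := by
  constructor
  · intro h
    have h00 := congrFun (congrFun h 0) 0
    have h01 := congrFun (congrFun h 0) 1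
    simp [uE, mul_apply2] at h00 h01
    refine ⟨?_, ?_⟩
    · rcases h00 with h | h
      · exact absurd h hx₀
      · exact h
    · have : x₀ * (y 1 1 - y 0 0) = 0 := by linear_combination h01
      rcases mul_eq_zero.mp this with h | h
      · exact absurd h hx₀
      · linear_combination -h
  · rintro ⟨h10, h00⟩
    ext i j
    fin_cases i <;> fin_cases j <;> simp [uE, mul_apply2, h10, h00]
    ring

/-- (M13) an upper triangular matrix of determinant one with `a ^ 2 ≠ 1`, `a` its first diagonal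
entry: discriminant -/
theorem disc_of_upper {s : Matrix (Fin 2) (Fin 2) k} (hs : s.det = 1) (h10 : s 1 0 = 0) :
    disc s = (s 0 0 - s 1 1) ^ 2 := by
  have _ := hs
  rw [disc, Matrix.trace_fin_two, Matrix.det_fin_two, h10]
  ring

/-- (M13') its commutant is upper triangular -/
theorem upper_of_comm_upper {s y : Matrix (Fin 2) (Fin 2) k} (h10 : s 1 0 = 0)
    (hne : s 0 0 ≠ s 1 1) (h : s * y = y * s) : y 1 0 = 0 := by
  have e10 := congrFun (congrFun h 1) 0
  rw [mul_apply2, mul_apply2, h10] at e10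
  have : (s 0 0 - s 1 1) * y 1 0 = 0 := by linear_combination -e10
  rcases mul_eq_zero.mp this with h0 | h0
  · exact absurd (sub_eq_zero.mp h0) hne
  · exact h0

/-- (M13'') an element of its commutant with determinant one and first diagonal entry one is `1` -/
theorem eq_one_of_comm_upper {s y : Matrix (Fin 2) (Fin 2) k} (h10 : s 1 0 = 0)
    (hne : s 0 0 ≠ s 1 1) (h : s * y = y * s) (hdy : y.det = 1) (h00 : y 0 0 = 1) : y = 1 := by
  have hy10 := upper_of_comm_upper h10 hne h
  have hy11 : y 1 1 = 1 := by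
    rw [Matrix.det_fin_two, hy10, h00] at hdy
    linear_combination hdy
  have e01 := congrFun (congrFun h 0) 1
  rw [mul_apply2, mul_apply2, h00, hy11] at e01
  have : (s 0 0 - s 1 1) * y 0 1 = 0 := by linear_combination e01
  have hy01 : y 0 1 = 0 := by
    rcases mul_eq_zero.mp this with h0 | h0
    · exact absurd (sub_eq_zero.mp h0) hne
    · exact h0
  ext i j
  fin_cases i <;> fin_cases j <;> simp [h00, hy01, hy10, hy11]

end Fermat.Agent.S56.Grp.Residue.Mat2
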