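import Fermat.Agent.S56.Grp.Residue.Mat2

/-!
# PROJECT T (S56), block (a5-G), leaf (G4c): more two by two matrix lemmas
-/

set_option autoImplicit false

namespace Fermat.Agent.S56.Grp.Residue.Mat2Extra

open Matrix
open Fermat.Agent.S56.Grp.Residue.Mat2

variable {k : Type*} [Field k]

/-- (M14) an upper triangular matrix of determinant one with equal diagonal entries: its `p`-th
power is the scalar matrix of its diagonal entry (odd characteristic `p`) -/
theorem pow_char_of_upper (p : ℕ) [Fact p.Prime] [CharP k p] (hp : p ≠ 2)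
    {m : Matrix (Fin 2) (Fin 2) k} (h10 : m 1 0 = 0) (h : m 0 0 = m 1 1) (hd : m.det = 1) :
    m ^ p = (m 0 0) • (1 : Matrix (Fin 2) (Fin 2) k) := by
  set a := m 0 0 with ha
  have ha2 : a * a = 1 := by
    rw [Matrix.det_fin_two, h10, ← h] at hd
    simpa using hd
  set N : Matrix (Fin 2) (Fin 2) k := !![0, m 0 1; 0, 0] with hN
  have hm : m = a • (1 : Matrix (Fin 2) (Fin 2) k) + N := by
    ext i j
    fin_cases i <;> fin_cases j <;> simp [hN, h10, ← h, ha]
  have hNN : N * N = 0 := by
    ext i j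
    fin_cases i <;> fin_cases j <;> simp [hN, Matrix.mul_apply, Fin.sum_univ_two]
  have hcomm : Commute (a • (1 : Matrix (Fin 2) (Fin 2) k)) N := by
    show a • (1 : Matrix (Fin 2) (Fin 2) k) * N = N * a • (1 : Matrix (Fin 2) (Fin 2) k)
    simp
  have hp2 : 2 ≤ p := (Fact.out : p.Prime).two_le
  have hNp : N ^ p = 0 := by
    obtain ⟨j, hj⟩ := Nat.exists_eq_add_of_le hp2
    rw [hj, pow_add, pow_two, hNN, zero_mul]
  have hodd : Odd p := (Fact.out : p.Prime).odd_of_ne_two hp
  have hap : a ^ p = a := by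
    obtain ⟨j, hj⟩ := hodd
    rw [hj, pow_succ, pow_mul, pow_two, ha2, one_pow, one_mul]
  rw [hm, add_pow_char_of_commute p hcomm, hNp, add_zero, smul_pow, one_pow, hap]

end Fermat.Agent.S56.Grp.Residue.Mat2Extra
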