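import Fermat.Agent.S56.Grp.AdIrr

/-!
# (a5-G) residue, endgame: `p`-subgroups of a finite subgroup of `GL₂(k)`, `char k = p`

Every element of a `p`-subgroup is unipotent; a nontrivial `p`-subgroup fixes exactly one line
pointwise; two Sylow `p`-subgroups with the same line are equal, and two distinct ones meet
trivially.
-/

set_option autoImplicit false

namespace Fermat.Agent.S56.Grp.Residue.Endgame

open Matrix Polynomial Fermat.Agent.S56.Grp

variable {k : Type} [Field k] {G : Type} [Group G]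

local notation "Mat2" => Matrix (Fin 2) (Fin 2)

/-- a nilpotent `2 × 2` matrix has trace and determinant zero -/
theorem trace_det_of_pow_eq_zero {N : Mat2 k} {m : ℕ} (h : N ^ m = 0) :
    N.trace = 0 ∧ N.det = 0 := by
  constructor
  · exact (Matrix.isNilpotent_trace_of_isNilpotent ⟨m, h⟩).eq_zero
  · have h1 : N.det ^ m = 0 := by
      rw [← Matrix.det_pow, h]
      simp
    have hm : m ≠ 0 := by
      rintro rfl
      rw [pow_zero] at h1
      exact one_ne_zero h1
    exact (pow_eq_zero_iff hm).1 h1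

section charp

variable {p : ℕ} [Fact p.Prime] [CharP k p]

/-- an element of `p`-power order is unipotent -/
theorem isDbl_one_of_pow_eq_one {A : Mat2 k} {a : ℕ} (h : A ^ (p ^ a) = 1) : IsDbl A 1 := by
  have hN : (A - 1) ^ (p ^ a) = 0 := by
    rw [sub_pow_char_pow_of_commute p a (Commute.one_right A), h, one_pow, sub_self]
  obtain ⟨ht, hd⟩ := trace_det_of_pow_eq_zero hN
  have ht' : (A - (1 : k) • (1 : Mat2 k)).trace = 0 := by rwa [one_smul]
  have hd' : (A - (1 : k) • (1 : Mat2 k)).det = 0 := by rwa [one_smul]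
  rw [trace_sub_smul_one] at ht'
  rw [det_sub_smul_one] at hd'
  constructor
  · linear_combination ht'
  · linear_combination hd' + ht'

/-- a matrix fixing a nonzero vector, of determinant one, is unipotent -/
theorem isDbl_one_of_fixes {A : Mat2 k} {v : Fin 2 → k} (hv : v ≠ 0) (hAv : A *ᵥ v = v)
    (hd : A.det = 1) : IsDbl A 1 := by
  have h0 : (A - (1 : k) • (1 : Mat2 k)).det = 0 := by
    apply Matrix.exists_mulVec_eq_zero_iff.1
    refine ⟨v, hv, ?_⟩
    rw [Matrix.sub_mulVec, one_smul, Matrix.one_mulVec, hAv, sub_self]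
  rw [det_sub_smul_one, hd] at h0
  constructor
  · linear_combination -h0
  · rw [hd]; ring

/-- a unipotent matrix has `p`-th power one -/
theorem pow_char_eq_one_of_isDbl {A : Mat2 k} (h : IsDbl A 1) : A ^ p = 1 := by
  have hNN : (A - (1 : k) • (1 : Mat2 k)) * (A - (1 : k) • (1 : Mat2 k)) = 0 := by
    rw [mul_self_of_trace_eq_zero h.trace_nil, h.det_nil, neg_zero, zero_smul]
  rw [one_smul] at hNN
  have hp : (A - 1) ^ p = 0 := by
    have h2 : 2 ≤ p := (Fact.out : p.Prime).two_le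
    obtain ⟨j, rfl⟩ := Nat.exists_eq_add_of_le h2
    rw [pow_add, pow_two, hNN, zero_mul]
  have : A = (A - 1) + 1 := by abel
  rw [this, add_pow_char_of_commute p (Commute.one_right _), hp, one_pow, zero_add]

end charp

section psubgroup

variable {p : ℕ} [Fact p.Prime] [CharP k p] (π : G →* GL (Fin 2) k)

/-- the matrix of an element of a `p`-group is unipotent -/
theorem isDbl_of_isPGroup {Q : Subgroup G} (hQ : IsPGroup p Q) {x : G} (hx : x ∈ Q) :
    IsDbl (π x : Mat2 k) 1 := by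
  obtain ⟨a, ha⟩ := hQ ⟨x, hx⟩
  have hx' : x ^ (p ^ a) = 1 := by
    have := congrArg Subtype.val ha
    simpa using this
  apply isDbl_one_of_pow_eq_one (p := p) (a := a)
  rw [← Units.val_pow_eq_pow_val, ← map_pow, hx', map_one]; rfl

/-- all the nilpotent parts of a `p`-group are proportional to a given nonzero one -/
theorem exists_smul_of_isPGroup (hp2 : p ≠ 2) {Q : Subgroup G} (hQ : IsPGroup p Q) {x y : G} (hx : x ∈ Q)
    (hy : y ∈ Q) (hx1 : (π x : Mat2 k) - (1 : k) • (1 : Mat2 k) ≠ 0) :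
    ∃ l : k, (π y : Mat2 k) - (1 : k) • (1 : Mat2 k) =
      l • ((π x : Mat2 k) - (1 : k) • (1 : Mat2 k)) := by
  have h2 : (2 : k) ≠ 0 := two_ne_zero_of_ne_two (p := p) hp2
  have hxd := isDbl_of_isPGroup π hQ hx
  have hyd := isDbl_of_isPGroup π hQ hy
  have hxy := isDbl_of_isPGroup π hQ (Q.mul_mem hx hy)
  have hxxy := isDbl_of_isPGroup π hQ (Q.mul_mem (Q.mul_mem hx hx) hy)
  have ht := trace_nil_mul_eq_zero h2 hxd hyd one_ne_zero one_ne_zero
    (by simpa [map_mul] using hxy) (by simpa [map_mul] using hxxy)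
  exact exists_smul_of_trace_mul_eq_zero hx1 hxd.trace_nil hxd.det_nil hyd.trace_nil
    hyd.det_nil ht

/-- **a nontrivial `p`-subgroup fixes a nonzero vector** -/
theorem exists_fixed_vector (hp2 : p ≠ 2) (hπ : Function.Injective π) {Q : Subgroup G} (hQ : IsPGroup p Q)
    (hne : Q ≠ ⊥) :
    ∃ v : Fin 2 → k, v ≠ 0 ∧ (∀ y ∈ Q, (π y : Mat2 k) *ᵥ v = v) ∧
      ∀ u : Fin 2 → k, (∀ y ∈ Q, (π y : Mat2 k) *ᵥ u = u) → ∃ μ : k, u = μ • v := by
  obtain ⟨⟨x, hx⟩, hx1'⟩ := (Subgroup.ne_bot_iff_exists_ne_one (H := Q)).1 hne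
  have hx1 : x ≠ 1 := fun h1 => hx1' (Subtype.ext h1)
  have hN : (π x : Mat2 k) - (1 : k) • (1 : Mat2 k) ≠ 0 := by
    intro h0
    apply hx1
    apply hπ
    apply Units.ext
    rw [map_one, Units.val_one]
    rw [one_smul, sub_eq_zero] at h0
    exact h0
  obtain ⟨v, hv, hNv⟩ := exists_ne_zero_mulVec_eq_zero (isDbl_of_isPGroup π hQ hx).det_nil
  refine ⟨v, hv, fun y hy => ?_, fun u hu => ?_⟩
  · obtain ⟨l, hl⟩ := exists_smul_of_isPGroup π hp2 hQ hx hy hN
    have : ((π y : Mat2 k) - (1 : k) • (1 : Mat2 k)) *ᵥ v = 0 := by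
      rw [hl, Matrix.smul_mulVec, hNv, smul_zero]
    rw [Matrix.sub_mulVec, one_smul, Matrix.one_mulVec, sub_eq_zero] at this
    exact this
  · have hNu : ((π x : Mat2 k) - (1 : k) • (1 : Mat2 k)) *ᵥ u = 0 := by
      rw [Matrix.sub_mulVec, one_smul, Matrix.one_mulVec, hu x hx, sub_self]
    exact exists_smul_of_mulVec_eq_zero hN hv hNv hNu

/-- the subgroup of the unipotent elements fixing `v` -/
def unipFix (v : Fin 2 → k) : Subgroup G where
  carrier := {g | (π g : Mat2 k) *ᵥ v = v ∧ (π g : Mat2 k).det = 1}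
  one_mem' := ⟨by rw [map_one, Units.val_one, Matrix.one_mulVec],
    by rw [map_one, Units.val_one, Matrix.det_one]⟩
  mul_mem' := by
    rintro a b ⟨ha, ha'⟩ ⟨hb, hb'⟩
    refine ⟨?_, ?_⟩
    · rw [map_mul, Units.val_mul, ← Matrix.mulVec_mulVec, hb, ha]
    · rw [map_mul, Units.val_mul, Matrix.det_mul, ha', hb', one_mul]
  inv_mem' := by
    rintro a ⟨ha, ha'⟩
    refine ⟨?_, ?_⟩
    · have := congrArg (fun u => (π a⁻¹ : Mat2 k) *ᵥ u) ha
      simp only [Matrix.mulVec_mulVec] at this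
      rw [← Units.val_mul, ← map_mul, inv_mul_cancel, map_one, Units.val_one,
        Matrix.one_mulVec] at this
      exact this.symm
    · have h1 : (π a⁻¹ : Mat2 k).det * (π a : Mat2 k).det = 1 := by
        rw [← Matrix.det_mul, ← Units.val_mul, ← map_mul, inv_mul_cancel, map_one, Units.val_one,
          Matrix.det_one]
      rwa [ha', mul_one] at h1

theorem mem_unipFix {v : Fin 2 → k} {g : G} :
    g ∈ unipFix π v ↔ (π g : Mat2 k) *ᵥ v = v ∧ (π g : Mat2 k).det = 1 := Iff.rfl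

theorem isPGroup_unipFix (hπ : Function.Injective π) {v : Fin 2 → k} (hv : v ≠ 0) :
    IsPGroup p (unipFix π v) := by
  rintro ⟨g, hg1, hg2⟩
  refine ⟨1, ?_⟩
  apply Subtype.ext
  apply hπ
  apply Units.ext
  rw [pow_one]
  have := pow_char_eq_one_of_isDbl (p := p) (isDbl_one_of_fixes hv hg1 hg2)
  simpa [Units.val_pow_eq_pow_val] using this

/-- a Sylow `p`-subgroup fixing `v` is the full group of unipotent elements fixing `v` -/
theorem sylow_eq_unipFix (hπ : Function.Injective π) (P : Sylow p G) {v : Fin 2 → k}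
    (hv : v ≠ 0) (hPv : ∀ y ∈ P, (π y : Mat2 k) *ᵥ v = v) :
    (P : Subgroup G) = unipFix π v := by
  have hle : (P : Subgroup G) ≤ unipFix π v := fun y hy =>
    ⟨hPv y hy, (isDbl_of_isPGroup π P.isPGroup' hy).2.trans (one_pow 2)⟩
  exact (P.is_maximal' (isPGroup_unipFix π hπ hv) hle).symm

/-- two Sylow `p`-subgroups fixing the same nonzero vector are equal -/
theorem sylow_eq_of_fixes (hπ : Function.Injective π) (P Q : Sylow p G) {v : Fin 2 → k}
    (hv : v ≠ 0) (hPv : ∀ y ∈ P, (π y : Mat2 k) *ᵥ v = v)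
    (hQv : ∀ y ∈ Q, (π y : Mat2 k) *ᵥ v = v) : P = Q :=
  Sylow.ext ((sylow_eq_unipFix π hπ P hv hPv).trans (sylow_eq_unipFix π hπ Q hv hQv).symm)

end psubgroup

end Fermat.Agent.S56.Grp.Residue.Endgame
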