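import Fermat.Agent.S56.Grp.Residue.SL2Class
import Fermat.Agent.S56.Grp.Residue.FreeAct
import Fermat.Agent.S56.Grp.Residue.Mat2Extra

/-!
# PROJECT T (S56), block (a5-G), leaf (G4c), file (R3a): normalised coordinates

`H` a finite group of two by two matrices of determinant one containing `uE x₀`, `x₀ ≠ 0`.
The upper triangular subgroup `borel`, the upper unitriangular subgroup `unip`, the diagonal
character `chi`, the centraliser of `uE x₀` and its normaliser.
-/

set_option autoImplicit false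

namespace Fermat.Agent.S56.Grp.Residue.SL2Borel

open Matrix
open Fermat.Agent.S56.Grp.Residue.Mat2
open Fermat.Agent.S56.Grp.Residue.Mat2Extra
open Fermat.Agent.S56.Grp.Residue.CTCount
open Fermat.Agent.S56.Grp.Residue.SL2Class

variable {k : Type*} [Field k] {H : Type*} [Group H]

theorem mt_mul_apply (φ : H →* GL (Fin 2) k) (x y : H) (i j : Fin 2) :
    mt φ (x * y) i j = mt φ x i 0 * mt φ y 0 j + mt φ x i 1 * mt φ y 1 j := by
  rw [mt_mul, Matrix.mul_apply, Fin.sum_univ_two]

theorem det_mt_eq (φ : H →* GL (Fin 2) k) (x : H) :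
    (mt φ x).det = mt φ x 0 0 * mt φ x 1 1 - mt φ x 0 1 * mt φ x 1 0 :=
  Matrix.det_fin_two _

theorem mt_inv_apply {φ : H →* GL (Fin 2) k} (hdet : ∀ x : H, (mt φ x).det = 1) (x : H) :
    mt φ x⁻¹ = !![mt φ x 1 1, -mt φ x 0 1; -mt φ x 1 0, mt φ x 0 0] := by
  rw [mt_inv, inv_eq_of_det_one _ (hdet x)]

variable (φ : H →* GL (Fin 2) k) (hdet : ∀ x : H, (mt φ x).det = 1)

/-- the upper triangular elements -/
def borel : Subgroup H where
  carrier := {x | mt φ x 1 0 = 0}
  one_mem' := by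
    show mt φ 1 1 0 = 0
    rw [mt_one]; simp
  mul_mem' := by
    intro x y hx hy
    have hx' : mt φ x 1 0 = 0 := hx
    have hy' : mt φ y 1 0 = 0 := hy
    show mt φ (x * y) 1 0 = 0
    rw [mt_mul_apply, hx', hy']; ring
  inv_mem' := by
    intro x hx
    have hx' : mt φ x 1 0 = 0 := hx
    show mt φ x⁻¹ 1 0 = 0
    rw [mt_inv_apply hdet]; simp [hx']

/-- the upper unitriangular elements -/
def unip : Subgroup H where
  carrier := {x | mt φ x 1 0 = 0 ∧ mt φ x 0 0 = 1}
  one_mem' := by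
    show mt φ 1 1 0 = 0 ∧ mt φ 1 0 0 = 1
    rw [mt_one]; simp
  mul_mem' := by
    intro x y hx hy
    obtain ⟨hx1, hx2⟩ : mt φ x 1 0 = 0 ∧ mt φ x 0 0 = 1 := hx
    obtain ⟨hy1, hy2⟩ : mt φ y 1 0 = 0 ∧ mt φ y 0 0 = 1 := hy
    show mt φ (x * y) 1 0 = 0 ∧ mt φ (x * y) 0 0 = 1
    rw [mt_mul_apply, mt_mul_apply, hx1, hy1, hx2, hy2]
    constructor <;> ring
  inv_mem' := by
    intro x hx
    obtain ⟨hx1, hx2⟩ : mt φ x 1 0 = 0 ∧ mt φ x 0 0 = 1 := hx
    show mt φ x⁻¹ 1 0 = 0 ∧ mt φ x⁻¹ 0 0 = 1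
    have hd := hdet x
    rw [det_mt_eq, hx1, hx2] at hd
    rw [mt_inv_apply hdet]
    constructor
    · simp [hx1]
    · simpa using hd

variable {φ} {hdet}

theorem mem_borel {x : H} : x ∈ borel φ hdet ↔ mt φ x 1 0 = 0 := Iff.rfl

theorem mem_unip {x : H} : x ∈ unip φ hdet ↔ mt φ x 1 0 = 0 ∧ mt φ x 0 0 = 1 := Iff.rfl

theorem unip_le_borel : unip φ hdet ≤ borel φ hdet := fun _ hx => (mem_unip.mp hx).1

/-- the diagonal entries of an upper triangular element are inverse to each other -/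
theorem diag_mul_of_mem_borel {x : H} (hx : x ∈ borel φ hdet) :
    mt φ x 0 0 * mt φ x 1 1 = 1 := by
  have hd := hdet x
  rw [det_mt_eq, mem_borel.mp hx] at hd
  simpa using hd

/-- an element of `unip` is `uE` of its upper right entry -/
theorem mt_of_mem_unip {x : H} (hx : x ∈ unip φ hdet) : mt φ x = uE (mt φ x 0 1) := by
  obtain ⟨h1, h2⟩ := mem_unip.mp hx
  have h3 := diag_mul_of_mem_borel (unip_le_borel hx)
  rw [h2, one_mul] at h3
  rw [Matrix.eta_fin_two (mt φ x), h1, h2, h3]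
  simp [uE]

/-! ### the centraliser of `uE x₀` -/

section Normalised

variable (hφ : Function.Injective φ) {u₀ : H} {x₀ : k} (hu₀ : mt φ u₀ = uE x₀) (hx₀ : x₀ ≠ 0)

include hu₀ hx₀ in
theorem u₀_notMem_scal : u₀ ∉ scal φ hdet := by
  intro h
  have h' := (isScalar_iff _).mp (mem_scal.mp h)
  rw [hu₀] at h'
  have : x₀ = 0 := by simpa [uE] using h'.1
  exact hx₀ this

include hφ hu₀ hx₀ in
theorem mem_cent_u₀ {y : H} :
    y ∈ cent u₀ ↔ mt φ y 1 0 = 0 ∧ mt φ y 0 0 = mt φ y 1 1 := by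
  rw [mem_cent, commute_iff hφ, hu₀]
  exact comm_uE_iff hx₀ _

include hφ hu₀ hx₀ in
theorem cent_u₀_le_borel : cent u₀ ≤ borel φ hdet := fun _ hy =>
  mem_borel.mpr ((mem_cent_u₀ hφ hu₀ hx₀).mp hy).1

include hφ hu₀ hx₀ in
theorem unip_le_cent_u₀ : unip φ hdet ≤ cent u₀ := by
  intro y hy
  rw [mem_cent_u₀ hφ hu₀ hx₀]
  obtain ⟨h1, h2⟩ := mem_unip.mp hy
  have h3 := diag_mul_of_mem_borel (unip_le_borel hy)
  rw [h2, one_mul] at h3
  exact ⟨h1, by rw [h2, h3]⟩

/-- conjugation by an upper triangular element preserves the diagonal -/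
theorem conj_diag_of_mem_borel {b y : H} (hb : b ∈ borel φ hdet) (hy : y ∈ borel φ hdet) :
    mt φ (b * y * b⁻¹) 0 0 = mt φ y 0 0 ∧ mt φ (b * y * b⁻¹) 1 1 = mt φ y 1 1 := by
  have hb1 := mem_borel.mp hb
  have hy1 := mem_borel.mp hy
  have hbd := diag_mul_of_mem_borel hb
  rw [mt_mul_apply, mt_mul_apply, mt_mul_apply, mt_mul_apply, mt_mul_apply, mt_mul_apply,
    mt_inv_apply hdet b]
  simp only [Matrix.of_apply, Matrix.cons_val_zero, Matrix.cons_val_one, hb1, hy1,
    Matrix.cons_val', Matrix.cons_val_fin_one]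
  constructor
  · linear_combination (mt φ y 0 0) * hbd
  · linear_combination (mt φ y 1 1) * hbd

include hφ hu₀ hx₀ in
/-- the normaliser of the centraliser of `u₀` is the upper triangular subgroup -/
theorem normalizer_cent_u₀ :
    Subgroup.normalizer (cent u₀ : Set H) = borel φ hdet := by
  apply le_antisymm
  · intro g hg
    have h1 : g * u₀ * g⁻¹ ∈ cent u₀ :=
      ((Subgroup.mem_set_normalizer_iff.mp hg) u₀).mp (self_mem_cent u₀)
    have h2 := ((mem_cent_u₀ hφ hu₀ hx₀).mp h1).1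
    rw [mt_conj, hu₀, conj_uE_apply_one_zero _ (hdet g)] at h2
    rw [mem_borel]
    have : (mt φ g 1 0) ^ 2 = 0 := by
      have h3 : (mt φ g 1 0) ^ 2 * x₀ = 0 := by linear_combination -h2
      rcases mul_eq_zero.mp h3 with h | h
      · exact h
      · exact absurd h hx₀
    exact pow_eq_zero_iff (two_ne_zero) |>.mp this
  · intro b hb
    have key : ∀ (b : H), b ∈ borel φ hdet → ∀ y, y ∈ cent u₀ → b * y * b⁻¹ ∈ cent u₀ := by
      intro b hb y hy
      have hyB := cent_u₀_le_borel (hdet := hdet) hφ hu₀ hx₀ hy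
      have h1 : b * y * b⁻¹ ∈ borel φ hdet :=
        (borel φ hdet).mul_mem ((borel φ hdet).mul_mem hb hyB) ((borel φ hdet).inv_mem hb)
      rw [mem_cent_u₀ hφ hu₀ hx₀]
      refine ⟨mem_borel.mp h1, ?_⟩
      obtain ⟨e1, e2⟩ := conj_diag_of_mem_borel hb hyB
      rw [e1, e2]
      exact ((mem_cent_u₀ hφ hu₀ hx₀).mp hy).2
    rw [Subgroup.mem_set_normalizer_iff]
    intro y
    constructor
    · exact key b hb y
    · intro h
      have := key b⁻¹ ((borel φ hdet).inv_mem hb) _ h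
      simpa [mul_assoc] using this

end Normalised

section Unipotent

variable [Fintype H] (hφ : Function.Injective φ) {u₀ : H} {x₀ : k} (hu₀ : mt φ u₀ = uE x₀)
  (hx₀ : x₀ ≠ 0)

include hφ hu₀ hx₀ in
/-- the elements of unipotent type are the spread of the centraliser of `u₀`, when every such
element is conjugate to an upper triangular one -/
theorem mem_spread_cent_u₀_iff
    (hSyl : ∀ x : H, x ∉ scal φ hdet → disc (mt φ x) = 0 → ∃ g : H, mt φ (g⁻¹ * x * g) 1 0 = 0)
    {x : H} : x ∈ spread (scal φ hdet) (cent u₀) ↔ x ∉ scal φ hdet ∧ disc (mt φ x) = 0 := by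
  have hu₀Z := u₀_notMem_scal (hdet := hdet) hu₀ hx₀
  have hdu₀ : disc (mt φ u₀) = 0 := by
    rw [disc_of_upper (hdet u₀) (by rw [hu₀]; simp [uE]), hu₀]
    simp [uE]
  constructor
  · intro hx
    refine ⟨(mem_spread.mp hx).1, ?_⟩
    rw [disc_eq_zero_iff_of_mem_spread hφ hu₀Z hx]
    exact hdu₀
  · rintro ⟨hxZ, hd⟩
    obtain ⟨g, hg⟩ := hSyl x hxZ hd
    rw [mem_spread]
    refine ⟨hxZ, g, ?_⟩
    rw [mem_cent_u₀ hφ hu₀ hx₀]
    refine ⟨hg, ?_⟩
    have h1 : disc (mt φ (g⁻¹ * x * g)) = 0 := by rw [disc_conj_mt hdet]; exact hd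
    rw [disc_of_upper (hdet _) hg] at h1
    have := pow_eq_zero_iff (two_ne_zero) |>.mp h1
    exact sub_eq_zero.mp this

variable (p : ℕ) [Fact p.Prime] [CharP k p] (hp2 : p ≠ 2)

include hφ hu₀ hx₀ hp2 in
/-- the centraliser of `u₀` is the direct product of the scalars and of `unip` -/
theorem card_cent_u₀ :
    Nat.card (cent u₀) = Nat.card (scal φ hdet) * Nat.card (unip φ hdet) := by
  classical
  rw [← card_fs, ← card_fs, ← card_fs, ← Finset.card_product]
  symm
  refine Finset.card_bij (fun zu _ => zu.1 * zu.2) ?_ ?_ ?_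
  · intro zu hzu
    rw [Finset.mem_product, mem_fs, mem_fs] at hzu
    rw [mem_fs]
    exact (cent u₀).mul_mem (le_cent (scal_le_center hφ) u₀ hzu.1)
      (unip_le_cent_u₀ hφ hu₀ hx₀ hzu.2)
  · intro zu hzu zu' hzu' h
    rw [Finset.mem_product, mem_fs, mem_fs] at hzu hzu'
    have h00 : ∀ (z u : H), z ∈ scal φ hdet → u ∈ unip φ hdet →
        mt φ (z * u) 0 0 = mt φ z 0 0 := by
      intro z u hz hu
      rw [mt_mul_apply, (mem_unip.mp hu).1, (mem_unip.mp hu).2]
      ring
    have e1 : mt φ zu.1 0 0 = mt φ zu'.1 0 0 := by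
      rw [← h00 _ _ hzu.1 hzu.2, ← h00 _ _ hzu'.1 hzu'.2]
      exact congrArg (fun w => mt φ w 0 0) h
    have e2 : zu.1 = zu'.1 := by
      apply mt_injective hφ
      obtain ⟨a, ha⟩ := mem_scal.mp hzu.1
      obtain ⟨b, hb⟩ := mem_scal.mp hzu'.1
      rw [ha, hb] at e1
      rw [ha, hb]
      have : a = b := by simpa using e1
      rw [this]
    have e3 : zu.2 = zu'.2 := by
      have h' : zu.1 * zu.2 = zu'.1 * zu'.2 := h
      rw [e2] at h'
      exact mul_left_cancel h'
    exact Prod.ext e2 e3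
  · intro y hy
    rw [mem_fs] at hy
    obtain ⟨h10, hdiag⟩ := (mem_cent_u₀ hφ hu₀ hx₀).mp hy
    have hpow : mt φ (y ^ p) = (mt φ y 0 0) • (1 : Matrix (Fin 2) (Fin 2) k) := by
      rw [mt_pow]
      exact pow_char_of_upper p hp2 h10 hdiag (hdet y)
    have hz : y ^ p ∈ scal φ hdet := mem_scal.mpr ⟨_, hpow⟩
    refine ⟨(y ^ p, (y ^ p)⁻¹ * y), ?_, by simp⟩
    rw [Finset.mem_product, mem_fs, mem_fs]
    refine ⟨hz, ?_⟩
    rw [mem_unip]
    have hyB : y ∈ borel φ hdet := mem_borel.mpr h10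
    have hzB : (y ^ p)⁻¹ ∈ borel φ hdet := (borel φ hdet).inv_mem ((borel φ hdet).pow_mem hyB p)
    refine ⟨mem_borel.mp ((borel φ hdet).mul_mem hzB hyB), ?_⟩
    rw [mt_mul_apply, mt_inv_apply hdet, hpow, h10]
    have hdd := diag_mul_of_mem_borel hyB
    rw [← hdiag] at hdd
    simp only [Matrix.of_apply, Matrix.cons_val_zero, Matrix.cons_val_one, Matrix.smul_apply,
      Matrix.one_apply_eq, smul_eq_mul, mul_one, mul_zero, add_zero, Matrix.cons_val',
      Matrix.cons_val_fin_one]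
    exact hdd

end Unipotent

/-! ### the diagonal character -/

variable (φ) (hdet) in
/-- the diagonal character of the upper triangular subgroup -/
def chi : ↥(borel φ hdet) →* kˣ where
  toFun b := Units.mk0 (mt φ (b : H) 0 0) (by
    intro h
    have := diag_mul_of_mem_borel b.2
    rw [h, zero_mul] at this
    exact zero_ne_one this)
  map_one' := by
    apply Units.ext
    show mt φ ((1 : ↥(borel φ hdet)) : H) 0 0 = 1
    rw [Subgroup.coe_one, mt_one]; simp
  map_mul' := by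
    intro b b'
    apply Units.ext
    show mt φ ((b * b' : ↥(borel φ hdet)) : H) 0 0 = mt φ (b : H) 0 0 * mt φ (b' : H) 0 0
    rw [Subgroup.coe_mul, mt_mul_apply, mem_borel.mp b'.2]
    ring

theorem chi_val (b : ↥(borel φ hdet)) : ((chi φ hdet b : kˣ) : k) = mt φ (b : H) 0 0 := rfl

theorem ker_chi : (chi φ hdet).ker = (unip φ hdet).subgroupOf (borel φ hdet) := by
  ext b
  rw [MonoidHom.mem_ker, Subgroup.mem_subgroupOf, mem_unip, ← Units.val_inj, chi_val]
  constructor
  · intro h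
    exact ⟨mem_borel.mp b.2, h⟩
  · intro h
    exact h.2

/-- `#borel = #unip * #(range chi)` -/
theorem card_borel :
    Nat.card (borel φ hdet) = Nat.card (unip φ hdet) * Nat.card (chi φ hdet).range := by
  rw [← Subgroup.card_mul_index (chi φ hdet).ker, Subgroup.index_ker, ker_chi,
    Nat.card_congr (Subgroup.subgroupOfEquivOfLe (unip_le_borel (φ := φ) (hdet := hdet))).toEquiv]

/-! ### the index of the upper triangular subgroup -/

/-- a unitriangular element with an upper triangular conjugate by `g ∉ borel` is trivial -/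
theorem eq_one_of_conj_mem_borel (hφ : Function.Injective φ) {u g : H} (hu : u ∈ unip φ hdet)
    (h : g⁻¹ * u * g ∈ borel φ hdet) (hg : g ∉ borel φ hdet) : u = 1 := by
  have h1 := mem_borel.mp h
  have h2 := mt_conj (φ := φ) u g⁻¹
  rw [inv_inv] at h2
  rw [h2, mt_of_mem_unip hu, conj_uE_apply_one_zero _ (hdet g⁻¹)] at h1
  have hg' : mt φ g⁻¹ 1 0 ≠ 0 := by
    rw [mt_inv_apply hdet]
    have hg2 : mt φ g 1 0 ≠ 0 := fun h0 => hg (mem_borel.mpr h0)
    simpa using hg2
  have hc : mt φ u 0 1 = 0 := by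
    rcases mul_eq_zero.mp h1 with h3 | h3
    · exfalso
      have : (mt φ g⁻¹ 1 0) ^ 2 = 0 := by simpa using h3
      exact hg' (pow_eq_zero_iff two_ne_zero |>.mp this)
    · exact h3
  rw [← mt_eq_one_iff hφ, mt_of_mem_unip hu, hc]
  ext i j
  fin_cases i <;> fin_cases j <;> simp [uE]

/-- **the index of `borel` is `1` modulo the order of `unip`** -/
theorem card_unip_dvd_index_sub_one [Finite H] (hφ : Function.Injective φ) :
    Nat.card (unip φ hdet) ∣ (borel φ hdet).index - 1 := by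
  have := FreeAct.card_dvd_card_sub_one (P := ↥(unip φ hdet)) (Y := H ⧸ borel φ hdet)
    ((1 : H) : H ⧸ borel φ hdet) ?_ ?_
  · exact this
  · intro u
    show (((u : H) * 1 : H) : H ⧸ borel φ hdet) = ((1 : H) : H ⧸ borel φ hdet)
    rw [QuotientGroup.eq]
    have : ((u : H) * 1)⁻¹ * 1 = (u : H)⁻¹ := by simp
    rw [this]
    exact (borel φ hdet).inv_mem (unip_le_borel u.2)
  · intro u c
    induction c using QuotientGroup.induction_on with
    | H g =>
      intro hne hfix
      have hg : g ∉ borel φ hdet := by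
        intro hg
        apply hne
        rw [QuotientGroup.eq]
        simpa using hg
      have hfix' : (((u : H) * g : H) : H ⧸ borel φ hdet) = (g : H ⧸ borel φ hdet) := hfix
      rw [QuotientGroup.eq] at hfix'
      have h3 : g⁻¹ * (u : H)⁻¹ * g ∈ borel φ hdet := by
        have : ((u : H) * g)⁻¹ * g = g⁻¹ * (u : H)⁻¹ * g := by simp [mul_assoc]
        rw [← this]
        exact hfix'
      have h4 := eq_one_of_conj_mem_borel hφ ((unip φ hdet).inv_mem u.2) h3 hg
      apply Subtype.ext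
      simpa using h4

/-! ### the orbit of `u₀` under the upper triangular subgroup -/

section Orbit

variable [Fintype H] (hφ : Function.Injective φ) {u₀ : H} {x₀ : k} (hu₀ : mt φ u₀ = uE x₀)
  (hx₀ : x₀ ≠ 0)

variable (φ) (hdet) in
open Classical in
/-- the conjugates of `u₀` under the upper triangular subgroup -/
noncomputable def conjOrb (u₀ : H) : Finset H :=
  (fs (borel φ hdet)).image (fun b => b * u₀ * b⁻¹)

omit [Fintype H] in
include hu₀ in
theorem mt_conj_u₀ {b : H} (hb : b ∈ borel φ hdet) :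
    mt φ (b * u₀ * b⁻¹) = uE ((mt φ b 0 0) ^ 2 * x₀) := by
  rw [mt_conj, hu₀]
  exact conj_uE_of_upper _ (hdet b) (mem_borel.mp hb) x₀

include hφ hu₀ hx₀ in
/-- `#borel = #(conjOrb u₀) * #(cent u₀)` -/
theorem card_borel_eq_orb :
    Nat.card (borel φ hdet) = (conjOrb φ hdet u₀).card * Nat.card (cent u₀) := by
  classical
  rw [← card_fs, Finset.card_eq_sum_card_image (fun b => b * u₀ * b⁻¹) (fs (borel φ hdet))]
  have hfib : ∀ y ∈ (fs (borel φ hdet)).image (fun b => b * u₀ * b⁻¹),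
      ((fs (borel φ hdet)).filter (fun b => b * u₀ * b⁻¹ = y)).card = Nat.card (cent u₀) := by
    intro y hy
    obtain ⟨b₀, hb₀, rfl⟩ := Finset.mem_image.mp hy
    rw [mem_fs] at hb₀
    rw [← card_fs]
    refine Finset.card_equiv (Equiv.mulLeft b₀⁻¹) ?_
    intro b
    simp only [Finset.mem_filter, mem_fs, Equiv.coe_mulLeft]
    constructor
    · rintro ⟨_, h⟩
      rw [mem_cent]
      show u₀ * (b₀⁻¹ * b) = b₀⁻¹ * b * u₀
      have h1 : b₀⁻¹ * (b * u₀ * b⁻¹) * b = b₀⁻¹ * (b₀ * u₀ * b₀⁻¹) * b := by rw [h]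
      have h2 : b₀⁻¹ * b * u₀ = u₀ * (b₀⁻¹ * b) := by
        simpa [mul_assoc] using h1
      exact h2.symm
    · intro h
      have hc : u₀ * (b₀⁻¹ * b) = b₀⁻¹ * b * u₀ := mem_cent.mp h
      constructor
      · have h1 := (borel φ hdet).mul_mem hb₀ (cent_u₀_le_borel (hdet := hdet) hφ hu₀ hx₀ h)
        simpa [mul_assoc] using h1
      · have h2 : b * u₀ = b₀ * u₀ * b₀⁻¹ * b := by
          have : b₀ * (b₀⁻¹ * b * u₀) = b₀ * (u₀ * (b₀⁻¹ * b)) := by rw [hc]
          simpa [mul_assoc] using this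
        rw [h2]
        simp [mul_assoc]
  rw [Finset.sum_congr rfl hfib, Finset.sum_const, smul_eq_mul]
  rfl

include hu₀ hx₀ in
/-- the orbit lies in `unip` and does not contain `1` -/
theorem conjOrb_subset {y : H} (hy : y ∈ conjOrb φ hdet u₀) :
    y ≠ 1 ∧ y ∈ unip φ hdet := by
  classical
  obtain ⟨b, hb, rfl⟩ := Finset.mem_image.mp hy
  rw [mem_fs] at hb
  have hm := mt_conj_u₀ (hdet := hdet) hu₀ hb
  have hb00 : mt φ b 0 0 ≠ 0 := by
    intro h
    have := diag_mul_of_mem_borel hb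
    rw [h, zero_mul] at this
    exact zero_ne_one this
  rw [mem_unip]
  refine ⟨?_, ?_, ?_⟩
  · intro h1
    have h2 : mt φ (b * u₀ * b⁻¹) 0 1 = 0 := by rw [h1, mt_one]; simp
    rw [hm] at h2
    have h3 : (mt φ b 0 0) ^ 2 * x₀ = 0 := by simpa [uE] using h2
    rcases mul_eq_zero.mp h3 with h4 | h4
    · exact hb00 (pow_eq_zero_iff two_ne_zero |>.mp h4)
    · exact hx₀ h4
  · rw [hm]; simp [uE]
  · rw [hm]; simp [uE]

include hu₀ hx₀ in
theorem card_conjOrb_le : (conjOrb φ hdet u₀).card ≤ Nat.card (unip φ hdet) - 1 := by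
  classical
  have hsub : conjOrb φ hdet u₀ ⊆ (fs (unip φ hdet)).erase 1 := by
    intro y hy
    have := conjOrb_subset (hdet := hdet) hu₀ hx₀ hy
    rw [Finset.mem_erase, mem_fs]
    exact this
  have h := Finset.card_le_card hsub
  rw [Finset.card_erase_of_mem (mem_fs.mpr (unip φ hdet).one_mem), card_fs] at h
  exact h

end Orbit

/-! ### an element of semisimple type generating the diagonal quotient -/

/-- if the image of the diagonal character has more than two elements, there is an upper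
triangular element `s` of semisimple type whose centraliser has the order of that image -/
theorem exists_semisimple [Finite H] (hφ : Function.Injective φ)
    (hκ : 2 < Nat.card (chi φ hdet).range) :
    ∃ s : H, s ∈ borel φ hdet ∧ mt φ s 0 0 ≠ mt φ s 1 1 ∧ s ∉ scal φ hdet ∧
      disc (mt φ s) ≠ 0 ∧ cent s ≤ borel φ hdet ∧
      Nat.card (cent s) = Nat.card (chi φ hdet).range := by
  classical
  have : Finite (chi φ hdet).range :=
    Finite.of_surjective (chi φ hdet).rangeRestrict (chi φ hdet).rangeRestrict_surjective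
  obtain ⟨a, ha⟩ := IsCyclic.exists_generator (α := ↥(chi φ hdet).range)
  obtain ⟨s, hs⟩ : ∃ s : ↥(borel φ hdet), chi φ hdet s = (a : kˣ) := a.2
  have hord : orderOf a = Nat.card (chi φ hdet).range :=
    orderOf_eq_card_of_forall_mem_zpowers ha
  have ha2 : a ^ 2 ≠ 1 := by
    intro h
    have := orderOf_dvd_of_pow_eq_one h
    rw [hord] at this
    have := Nat.le_of_dvd (by norm_num) this
    omega
  have hs2 : (mt φ (s : H) 0 0) ^ 2 ≠ 1 := by
    intro h
    apply ha2
    apply Subtype.ext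
    apply Units.ext
    rw [Subgroup.coe_pow, Units.val_pow_eq_pow_val, ← hs, chi_val, h]
    rfl
  have hdiag := diag_mul_of_mem_borel s.2
  have hne : mt φ (s : H) 0 0 ≠ mt φ (s : H) 1 1 := by
    intro h
    apply hs2
    rw [pow_two]
    nth_rewrite 2 [h]
    exact hdiag
  have hs10 : mt φ (s : H) 1 0 = 0 := mem_borel.mp s.2
  have hcentB : cent (s : H) ≤ borel φ hdet := by
    intro y hy
    rw [mem_borel]
    have hc : Commute (s : H) y := mem_cent.mp hy
    rw [commute_iff hφ] at hc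
    exact upper_of_comm_upper hs10 hne hc
  refine ⟨s, s.2, hne, ?_, ?_, hcentB, ?_⟩
  · intro h
    exact hne ((isScalar_iff _).mp (mem_scal.mp h)).2.2
  · rw [disc_of_upper (hdet _) hs10]
    exact pow_ne_zero 2 (sub_ne_zero.mpr hne)
  · let f : ↥(cent (s : H)) → ↥(chi φ hdet).range := fun y =>
      ⟨chi φ hdet ⟨y, hcentB y.2⟩, ⟨⟨y, hcentB y.2⟩, rfl⟩⟩
    apply Nat.card_eq_of_bijective f
    constructor
    · intro y y' h
      have h1 : mt φ (y : H) 0 0 = mt φ (y' : H) 0 0 := by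
        have := congrArg (fun r : ↥(chi φ hdet).range => ((r : kˣ) : k)) h
        exact this
      have hyB := hcentB y.2
      have hy'B := hcentB y'.2
      have hw : (y : H)⁻¹ * (y' : H) ∈ cent (s : H) :=
        (cent (s : H)).mul_mem ((cent (s : H)).inv_mem y.2) y'.2
      have hc : Commute (s : H) ((y : H)⁻¹ * (y' : H)) := mem_cent.mp hw
      rw [commute_iff hφ] at hc
      have h00 : mt φ ((y : H)⁻¹ * (y' : H)) 0 0 = 1 := by
        rw [mt_mul_apply, mt_inv_apply hdet, ← h1]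
        simp only [Matrix.of_apply, Matrix.cons_val_zero, Matrix.cons_val_one,
          Matrix.cons_val', Matrix.cons_val_fin_one]
        rw [mem_borel.mp hy'B, mul_zero, add_zero, mul_comm]
        exact diag_mul_of_mem_borel hyB
      have := eq_one_of_comm_upper hs10 hne hc (hdet _) h00
      rw [mt_eq_one_iff hφ] at this
      apply Subtype.ext
      exact inv_mul_eq_one.mp this
    · intro r
      obtain ⟨j, hj⟩ := Subgroup.mem_zpowers_iff.mp (ha r)
      have hsj : (s : H) ^ j ∈ cent (s : H) := (cent (s : H)).zpow_mem (self_mem_cent _) j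
      refine ⟨⟨(s : H) ^ j, hsj⟩, ?_⟩
      apply Subtype.ext
      show chi φ hdet ⟨(s : H) ^ j, _⟩ = (r : kˣ)
      have e1 : (⟨(s : H) ^ j, hcentB hsj⟩ : ↥(borel φ hdet)) = s ^ j := by
        apply Subtype.ext
        simp
      rw [e1, map_zpow, hs, ← hj]
      simp

end Fermat.Agent.S56.Grp.Residue.SL2Borel
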