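import Fermat.Agent.S56.Grp.Residue.CTCount
import Fermat.Agent.S56.Grp.Residue.Mat2

/-!
# PROJECT T (S56), block (a5-G), leaf (G4c), file (R2): finite groups of two by two matrices of
determinant one: the centre, (CT), the two types of centralisers, the normaliser of a centraliser
of semisimple type has index at most two.
-/

set_option autoImplicit false

namespace Fermat.Agent.S56.Grp.Residue.SL2Class

open Matrix
open Fermat.Agent.S56.Grp.Residue.Mat2
open Fermat.Agent.S56.Grp.Residue.CTCount

variable {k : Type*} [Field k] {H : Type*} [Group H]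

/-- the matrix of an element -/
def mt (φ : H →* GL (Fin 2) k) (x : H) : Matrix (Fin 2) (Fin 2) k :=
  ((φ x : GL (Fin 2) k) : Matrix (Fin 2) (Fin 2) k)

variable (φ : H →* GL (Fin 2) k)

theorem mt_mul (x y : H) : mt φ (x * y) = mt φ x * mt φ y := by
  simp [mt]

theorem mt_one : mt φ 1 = 1 := by
  simp [mt]

theorem mt_inv (x : H) : mt φ x⁻¹ = (mt φ x)⁻¹ := by
  simp [mt, Matrix.coe_units_inv]

theorem mt_pow (x : H) (n : ℕ) : mt φ (x ^ n) = mt φ x ^ n := by
  simp [mt]

theorem inv_eq_of_det_one (m : Matrix (Fin 2) (Fin 2) k) (h : m.det = 1) :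
    m⁻¹ = !![m 1 1, -m 0 1; -m 1 0, m 0 0] := by
  rw [Matrix.inv_def, h, Ring.inverse_one, one_smul, Matrix.adjugate_fin_two]

variable {φ}

theorem mt_injective (hφ : Function.Injective φ) : Function.Injective (mt φ) := by
  intro x y h
  apply hφ
  exact Units.ext h

theorem mt_eq_one_iff (hφ : Function.Injective φ) {x : H} : mt φ x = 1 ↔ x = 1 := by
  rw [← mt_one φ]
  exact (mt_injective hφ).eq_iff

theorem mt_conj (x g : H) : mt φ (g * x * g⁻¹) = mt φ g * mt φ x * (mt φ g)⁻¹ := by
  rw [mt_mul, mt_mul, mt_inv]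

theorem commute_iff (hφ : Function.Injective φ) {x y : H} :
    Commute x y ↔ mt φ x * mt φ y = mt φ y * mt φ x := by
  rw [← mt_mul, ← mt_mul, (mt_injective hφ).eq_iff]
  rfl

variable (φ)

/-- the scalar elements -/
def scal (hdet : ∀ x : H, (mt φ x).det = 1) : Subgroup H where
  carrier := {x | IsScalar (mt φ x)}
  one_mem' := by
    show IsScalar (mt φ 1)
    rw [mt_one]
    exact ⟨1, by simp⟩
  mul_mem' := by
    intro x y hx hy
    obtain ⟨a, ha⟩ := hx
    obtain ⟨b, hb⟩ := hy
    show IsScalar (mt φ (x * y))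
    rw [mt_mul, ha, hb]
    exact ⟨a * b, by simp [smul_smul, mul_comm]⟩
  inv_mem' := by
    intro x hx
    show IsScalar (mt φ x⁻¹)
    have hx' : IsScalar (mt φ x) := hx
    rw [mt_inv, inv_eq_of_det_one _ (hdet x), isScalar_iff]
    rw [isScalar_iff] at hx'
    obtain ⟨h1, h2, h3⟩ := hx'
    simp [h1, h2, h3]

variable {φ}
variable {hdet : ∀ x : H, (mt φ x).det = 1}

theorem mem_scal {x : H} : x ∈ scal φ hdet ↔ IsScalar (mt φ x) := Iff.rfl

theorem scal_le_center (hφ : Function.Injective φ) : scal φ hdet ≤ Subgroup.center H := by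
  intro z hz
  rw [Subgroup.mem_center_iff]
  intro y
  obtain ⟨a, ha⟩ := mem_scal.mp hz
  have : Commute y z := by
    rw [commute_iff hφ, ha]
    simp
  exact this.eq

theorem ct_scal (hφ : Function.Injective φ) : CT (scal φ hdet) := by
  intro x y z _ hy _ hxy hyz
  rw [commute_iff hφ] at hxy hyz ⊢
  exact comm_trans (fun h => hy (mem_scal.mpr h)) hxy hyz

/-- an element of `scal` is `1` or `-1` -/
theorem mt_eq_of_mem_scal {x : H} (hx : x ∈ scal φ hdet) : mt φ x = 1 ∨ mt φ x = -1 :=
  eq_one_or_neg_one_of_isScalar (mem_scal.mp hx) (hdet x)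

theorem disc_conj_mt (hdet : ∀ x : H, (mt φ x).det = 1) (x g : H) :
    disc (mt φ (g⁻¹ * x * g)) = disc (mt φ x) := by
  have h := mt_conj (φ := φ) x g⁻¹
  rw [inv_inv] at h
  rw [h]
  apply disc_conj
  rw [hdet]
  exact one_ne_zero

/-- the type is constant on the spread of a centraliser -/
theorem disc_eq_zero_iff_of_mem_spread [Fintype H] (hφ : Function.Injective φ) {x y : H}
    (hx : x ∉ scal φ hdet) (hy : y ∈ spread (scal φ hdet) (cent x)) :
    disc (mt φ y) = 0 ↔ disc (mt φ x) = 0 := by
  obtain ⟨hyZ, g, hg⟩ := mem_spread.mp hy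
  have hc : Commute x (g⁻¹ * y * g) := mem_cent.mp hg
  rw [commute_iff hφ] at hc
  have hy' : ¬ IsScalar (mt φ (g⁻¹ * y * g)) := by
    intro h
    exact hyZ ((conj_inv_mem_iff (scal_le_center hφ)).mp (mem_scal.mpr h))
  have := disc_eq_zero_iff_of_comm (fun h => hx (mem_scal.mpr h)) hy' hc
  rw [disc_conj_mt hdet] at this
  exact this

theorem trace_conj_mt (hdet : ∀ x : H, (mt φ x).det = 1) (x g : H) :
    (mt φ (g * x * g⁻¹)).trace = (mt φ x).trace := by
  rw [mt_conj, Matrix.trace_mul_cycle]
  have hg : IsUnit (mt φ g).det := by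
    rw [hdet]; exact isUnit_one
  rw [Matrix.nonsing_inv_mul _ hg, Matrix.one_mul]

/-- the conjugates of `x` inside its own centraliser are `x` and `x⁻¹` (semisimple type) -/
theorem conj_eq_or_eq_inv (hφ : Function.Injective φ) (h2 : (2 : k) ≠ 0) {x g : H}
    (hx : x ∉ scal φ hdet) (hdisc : disc (mt φ x) ≠ 0)
    (hg : g ∈ Subgroup.normalizer (cent x : Set H)) :
    g * x * g⁻¹ = x ∨ g * x * g⁻¹ = x⁻¹ := by
  have h1 : g * x * g⁻¹ ∈ cent x := by
    have := (Subgroup.mem_set_normalizer_iff.mp hg) x
    exact this.mp (self_mem_cent x)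
  have hc : Commute x (g * x * g⁻¹) := mem_cent.mp h1
  rw [commute_iff hφ] at hc
  have := eq_or_eq_inv_of_comm h2 (fun h => hx (mem_scal.mpr h)) (hdet x) hdisc
    (hdet (g * x * g⁻¹)) (trace_conj_mt hdet x g) hc
  rcases this with h | h
  · left
    exact mt_injective hφ h
  · right
    rw [← mt_inv] at h
    exact mt_injective hφ h

/-- **the normaliser of a centraliser of semisimple type has index one or two** -/
theorem card_normalizer_cent [Fintype H] (hφ : Function.Injective φ) (h2 : (2 : k) ≠ 0) {x : H}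
    (hx : x ∉ scal φ hdet) (hdisc : disc (mt φ x) ≠ 0) :
    Nat.card (Subgroup.normalizer (cent x : Set H)) = Nat.card (cent x) ∨
      Nat.card (Subgroup.normalizer (cent x : Set H)) = 2 * Nat.card (cent x) := by
  classical
  have hAN : cent x ≤ Subgroup.normalizer (cent x : Set H) := Subgroup.le_normalizer
  by_cases hall : ∀ g ∈ Subgroup.normalizer (cent x : Set H), g * x * g⁻¹ = x
  · left
    have hNA : Subgroup.normalizer (cent x : Set H) ≤ cent x := by
      intro g hg
      have h := hall g hg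
      rw [mem_cent]
      show x * g = g * x
      have : g * x * g⁻¹ * g = x * g := by rw [h]
      rw [← this]
      simp [mul_assoc]
    rw [le_antisymm hNA hAN]
  · right
    push Not at hall
    obtain ⟨g₀, hg₀N, hg₀⟩ := hall
    have hg₀' : g₀ * x * g₀⁻¹ = x⁻¹ := by
      rcases conj_eq_or_eq_inv hφ h2 hx hdisc hg₀N with h | h
      · exact absurd h hg₀
      · exact h
    -- `g₀⁻¹ x⁻¹ g₀ = x`
    have hback : g₀⁻¹ * x⁻¹ * g₀ = x := by
      rw [← hg₀']
      simp [mul_assoc]
    have hg₀A : g₀ ∉ cent x := by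
      intro h
      apply hg₀
      have hc : Commute x g₀ := mem_cent.mp h
      have : g₀ * x = x * g₀ := hc.eq.symm
      rw [this, mul_assoc, mul_inv_cancel, mul_one]
    have hunion : fs (Subgroup.normalizer (cent x : Set H)) =
        fs (cent x) ∪ (fs (cent x)).image (fun a => g₀ * a) := by
      ext g
      rw [Finset.mem_union, Finset.mem_image, mem_fs, mem_fs]
      constructor
      · intro hg
        rcases conj_eq_or_eq_inv hφ h2 hx hdisc hg with h | h
        · left
          rw [mem_cent]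
          show x * g = g * x
          have : g * x * g⁻¹ * g = x * g := by rw [h]
          rw [← this]
          simp [mul_assoc]
        · right
          refine ⟨g₀⁻¹ * g, ?_, by simp⟩
          rw [mem_fs, mem_cent]
          show x * (g₀⁻¹ * g) = g₀⁻¹ * g * x
          have e1 : g₀⁻¹ * (g * x * g⁻¹) * g₀ = x := by rw [h, hback]
          have e2 : g₀⁻¹ * g * x = x * (g₀⁻¹ * g) := by
            have : g₀⁻¹ * (g * x * g⁻¹) * g₀ * (g₀⁻¹ * g) = x * (g₀⁻¹ * g) := by rw [e1]
            rw [← this]
            simp [mul_assoc]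
          exact e2.symm
      · rintro (h | ⟨a, ha, rfl⟩)
        · exact hAN h
        · exact (Subgroup.normalizer (cent x : Set H)).mul_mem hg₀N (hAN (mem_fs.mp ha))
    have hdisj : Disjoint (fs (cent x)) ((fs (cent x)).image (fun a => g₀ * a)) := by
      rw [Finset.disjoint_left]
      intro a ha hb
      obtain ⟨a', ha', rfl⟩ := Finset.mem_image.mp hb
      apply hg₀A
      have := (cent x).mul_mem (mem_fs.mp ha) ((cent x).inv_mem (mem_fs.mp ha'))
      simpa [mul_assoc] using this
    rw [← card_fs, hunion, Finset.card_union_of_disjoint hdisj,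
      Finset.card_image_of_injective _ (mul_right_injective g₀), card_fs]
    ring

end Fermat.Agent.S56.Grp.Residue.SL2Class
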