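import Fermat.Agent.S56.Grp.Residue.Endgame5
import Fermat.Agent.S56.Grp.Residue.ClassEq

/-!
# (a5-G) residue: transport of the class equation to `(G, π)`

`G` finite, `π : G →* GL₂(k)` injective with `ImgHyp`, `P` a Sylow `p`-subgroup of order `≥ 5`
fixing `v`.  In a basis `g₀` with first vector `v` the kernel of the determinant, `dk π`, is a
group of matrices of determinant one in normalised coordinates (`ClassEq.structure_theorem`):
`unip = P`, `borel = N(P) ⊓ dk π`, and `dk π` is transitive on the Sylow `p`-subgroups of `G`.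
Hence `#Syl_p(G) = #P + 1`, and `#P - 1 ≤ 2 #{a² : b v = a v, det b = 1}`.
-/

set_option autoImplicit false

namespace Fermat.Agent.S56.Grp.Residue.Endgame

open Matrix Polynomial Pointwise Fermat.Agent.S56.Grp

variable {k : Type} [Field k] {G : Type} [Group G]

local notation "Mat2" => Matrix (Fin 2) (Fin 2)

/-! ### linear algebra of a basis change -/

theorem mulVec_e0 (N : Mat2 k) (i : Fin 2) : (N *ᵥ ![1, 0]) i = N i 0 := by
  simp [Matrix.mulVec, dotProduct, Fin.sum_univ_two]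

theorem mulVec_e1 (N : Mat2 k) (i : Fin 2) : (N *ᵥ ![0, 1]) i = N i 1 := by
  simp [Matrix.mulVec, dotProduct, Fin.sum_univ_two]

theorem gl_mulVec_injective (g₀ : GL (Fin 2) k) :
    Function.Injective (fun w : Fin 2 → k => (g₀ : Mat2 k) *ᵥ w) := by
  intro w w' h
  have h' : (g₀ : Mat2 k) *ᵥ w = (g₀ : Mat2 k) *ᵥ w' := h
  have e : ∀ u : Fin 2 → k,
      ((g₀⁻¹ : GL (Fin 2) k) : Mat2 k) *ᵥ ((g₀ : Mat2 k) *ᵥ u) = u := by
    intro u
    rw [Matrix.mulVec_mulVec, ← Units.val_mul, inv_mul_cancel, Units.val_one,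
      Matrix.one_mulVec]
  rw [← e w, ← e w', h']

theorem gl_inv_mulVec {g₀ : GL (Fin 2) k} {v e : Fin 2 → k} (hg : (g₀ : Mat2 k) *ᵥ v = e) :
    ((g₀⁻¹ : GL (Fin 2) k) : Mat2 k) *ᵥ e = v := by
  rw [← hg, Matrix.mulVec_mulVec, ← Units.val_mul, inv_mul_cancel, Units.val_one,
    Matrix.one_mulVec]

/-- a basis change sending two independent vectors to the standard basis -/
theorem exists_basis_change {v v' : Fin 2 → k} (hD : v 0 * v' 1 - v 1 * v' 0 ≠ 0) :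
    ∃ g₀ : GL (Fin 2) k, (g₀ : Mat2 k) *ᵥ v = ![1, 0] ∧ (g₀ : Mat2 k) *ᵥ v' = ![0, 1] := by
  have hM : (!![v 0, v' 0; v 1, v' 1] : Mat2 k).det ≠ 0 := by
    rw [Matrix.det_fin_two_of]
    intro h
    apply hD
    linear_combination h
  let g : GL (Fin 2) k := Matrix.GeneralLinearGroup.mkOfDetNeZero _ hM
  have h1 : (g : Mat2 k) *ᵥ ![1, 0] = v := by
    ext i
    rw [mulVec_e0]
    fin_cases i <;> rfl
  have h2 : (g : Mat2 k) *ᵥ ![0, 1] = v' := by
    ext i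
    rw [mulVec_e1]
    fin_cases i <;> rfl
  refine ⟨g⁻¹, ?_, ?_⟩
  · have := gl_inv_mulVec h1
    exact this
  · have := gl_inv_mulVec h2
    exact this

/-- the first column of a conjugate -/
theorem conj_col_zero {g₀ : GL (Fin 2) k} {v : Fin 2 → k}
    (hg : (g₀ : Mat2 k) *ᵥ v = ![1, 0]) (A : Mat2 k) (i : Fin 2) :
    ((g₀ : Mat2 k) * A * ((g₀⁻¹ : GL (Fin 2) k) : Mat2 k)) i 0 =
      ((g₀ : Mat2 k) *ᵥ (A *ᵥ v)) i := by
  rw [← mulVec_e0 ((g₀ : Mat2 k) * A * ((g₀⁻¹ : GL (Fin 2) k) : Mat2 k)) i,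
    ← Matrix.mulVec_mulVec, ← Matrix.mulVec_mulVec, gl_inv_mulVec hg]

/-- the second column of a conjugate -/
theorem conj_col_one {g₀ : GL (Fin 2) k} {v' : Fin 2 → k}
    (hg : (g₀ : Mat2 k) *ᵥ v' = ![0, 1]) (A : Mat2 k) (i : Fin 2) :
    ((g₀ : Mat2 k) * A * ((g₀⁻¹ : GL (Fin 2) k) : Mat2 k)) i 1 =
      ((g₀ : Mat2 k) *ᵥ (A *ᵥ v')) i := by
  rw [← mulVec_e1 ((g₀ : Mat2 k) * A * ((g₀⁻¹ : GL (Fin 2) k) : Mat2 k)) i,
    ← Matrix.mulVec_mulVec, ← Matrix.mulVec_mulVec, gl_inv_mulVec hg]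

theorem eq_smul_of_apply_one_eq_zero {g₀ : GL (Fin 2) k} {v : Fin 2 → k}
    (hg : (g₀ : Mat2 k) *ᵥ v = ![1, 0]) {w : Fin 2 → k} (h : ((g₀ : Mat2 k) *ᵥ w) 1 = 0) :
    w = ((g₀ : Mat2 k) *ᵥ w) 0 • v := by
  apply gl_mulVec_injective g₀
  show (g₀ : Mat2 k) *ᵥ w = (g₀ : Mat2 k) *ᵥ (((g₀ : Mat2 k) *ᵥ w) 0 • v)
  rw [Matrix.mulVec_smul, hg]
  ext i
  fin_cases i
  · simp
  · simpa using h

theorem eq_smul_of_apply_zero_eq_zero {g₀ : GL (Fin 2) k} {v' : Fin 2 → k}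
    (hg : (g₀ : Mat2 k) *ᵥ v' = ![0, 1]) {w : Fin 2 → k} (h : ((g₀ : Mat2 k) *ᵥ w) 0 = 0) :
    w = ((g₀ : Mat2 k) *ᵥ w) 1 • v' := by
  apply gl_mulVec_injective g₀
  show (g₀ : Mat2 k) *ᵥ w = (g₀ : Mat2 k) *ᵥ (((g₀ : Mat2 k) *ᵥ w) 1 • v')
  rw [Matrix.mulVec_smul, hg]
  ext i
  fin_cases i
  · simpa using h
  · simp

/-- the lower left entry of a conjugate vanishes iff `v` is an eigenvector -/
theorem conj_apply_one_zero_iff {g₀ : GL (Fin 2) k} {v : Fin 2 → k}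
    (hg : (g₀ : Mat2 k) *ᵥ v = ![1, 0]) (A : Mat2 k) :
    ((g₀ : Mat2 k) * A * ((g₀⁻¹ : GL (Fin 2) k) : Mat2 k)) 1 0 = 0 ↔
      A *ᵥ v = ((g₀ : Mat2 k) * A * ((g₀⁻¹ : GL (Fin 2) k) : Mat2 k)) 0 0 • v := by
  rw [conj_col_zero hg, conj_col_zero hg]
  constructor
  · intro h
    exact eq_smul_of_apply_one_eq_zero hg h
  · intro h
    rw [h, Matrix.mulVec_smul, hg]
    simp

theorem conj_apply_zero_zero_of_eigen {g₀ : GL (Fin 2) k} {v : Fin 2 → k}
    (hg : (g₀ : Mat2 k) *ᵥ v = ![1, 0]) {A : Mat2 k} {a : k} (h : A *ᵥ v = a • v) :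
    ((g₀ : Mat2 k) * A * ((g₀⁻¹ : GL (Fin 2) k) : Mat2 k)) 1 0 = 0 ∧
      ((g₀ : Mat2 k) * A * ((g₀⁻¹ : GL (Fin 2) k) : Mat2 k)) 0 0 = a := by
  rw [conj_col_zero hg, conj_col_zero hg, h, Matrix.mulVec_smul, hg]
  simp

/-- the upper right entry of a conjugate vanishes iff `v'` is an eigenvector -/
theorem conj_apply_zero_one_of_eigen {g₀ : GL (Fin 2) k} {v' : Fin 2 → k}
    (hg : (g₀ : Mat2 k) *ᵥ v' = ![0, 1]) {A : Mat2 k} {d : k} (h : A *ᵥ v' = d • v') :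
    ((g₀ : Mat2 k) * A * ((g₀⁻¹ : GL (Fin 2) k) : Mat2 k)) 0 1 = 0 ∧
      ((g₀ : Mat2 k) * A * ((g₀⁻¹ : GL (Fin 2) k) : Mat2 k)) 1 1 = d := by
  rw [conj_col_one hg, conj_col_one hg, h, Matrix.mulVec_smul, hg]
  simp

/-! ### the kernel of the determinant in the basis `g₀` -/

open Fermat.Agent.S56.Grp.Residue.SL2Class Fermat.Agent.S56.Grp.Residue.SL2Borel

theorem mem_conjOrb {H : Type*} [Group H] [Fintype H] {φ : H →* GL (Fin 2) k}
    {hdet : ∀ x : H, (mt φ x).det = 1} {u₀ y : H} :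
    y ∈ conjOrb φ hdet u₀ ↔ ∃ b ∈ borel φ hdet, b * u₀ * b⁻¹ = y := by
  classical
  rw [conjOrb, Finset.mem_image]
  constructor
  · rintro ⟨b, hb, h⟩
    exact ⟨b, CTCount.mem_fs.1 hb, h⟩
  · rintro ⟨b, hb, h⟩
    exact ⟨b, CTCount.mem_fs.2 hb, h⟩

/-- the kernel of the determinant -/
def dk (π : G →* GL (Fin 2) k) : Subgroup G := (Matrix.GeneralLinearGroup.det.comp π).ker

theorem mem_dk {π : G →* GL (Fin 2) k} {x : G} : x ∈ dk π ↔ (π x : Mat2 k).det = 1 := by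
  unfold dk
  rw [MonoidHom.mem_ker, MonoidHom.comp_apply]
  constructor
  · intro h
    rw [← Matrix.GeneralLinearGroup.val_det_apply, h, Units.val_one]
  · intro h
    apply Units.ext
    rw [Matrix.GeneralLinearGroup.val_det_apply, Units.val_one]
    exact h

theorem dk_normal (π : G →* GL (Fin 2) k) : (dk π).Normal := by
  unfold dk
  infer_instance

/-- the representation of `dk π` in the basis `g₀` -/
def cphi (g₀ : GL (Fin 2) k) (π : G →* GL (Fin 2) k) : ↥(dk π) →* GL (Fin 2) k :=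
  ((MulAut.conj g₀).toMonoidHom.comp π).comp (dk π).subtype

theorem mt_cphi (g₀ : GL (Fin 2) k) (π : G →* GL (Fin 2) k) (x : ↥(dk π)) :
    mt (cphi g₀ π) x =
      (g₀ : Mat2 k) * (π (x : G) : Mat2 k) * ((g₀⁻¹ : GL (Fin 2) k) : Mat2 k) := rfl

theorem cphi_injective (g₀ : GL (Fin 2) k) {π : G →* GL (Fin 2) k}
    (hπ : Function.Injective π) : Function.Injective (cphi g₀ π) := by
  intro x y h
  apply Subtype.ext
  apply hπ
  have h' : g₀ * π (x : G) * g₀⁻¹ = g₀ * π (y : G) * g₀⁻¹ := h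
  exact mul_left_cancel (mul_right_cancel h')

theorem det_mt_cphi (g₀ : GL (Fin 2) k) (π : G →* GL (Fin 2) k) (x : ↥(dk π)) :
    (mt (cphi g₀ π) x).det = 1 := by
  rw [mt_cphi, Matrix.det_units_conj]
  exact mem_dk.1 x.2

/-- the frame: `P` fixes exactly the line of `v`, and `v` is the first basis vector of `g₀` -/
structure Frame (p : ℕ) (π : G →* GL (Fin 2) k) (P : Sylow p G) (v : Fin 2 → k)
    (g₀ : GL (Fin 2) k) : Prop where
  inj : Function.Injective π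
  ne : v ≠ 0
  fix : ∀ y ∈ P, (π y : Mat2 k) *ᵥ v = v
  line : ∀ u : Fin 2 → k, (∀ y ∈ P, (π y : Mat2 k) *ᵥ u = u) → ∃ μ : k, u = μ • v
  basis : (g₀ : Mat2 k) *ᵥ v = ![1, 0]

section frame

variable {p : ℕ} [Fact p.Prime] [CharP k p] {π : G →* GL (Fin 2) k} {P : Sylow p G}
  {v : Fin 2 → k} {g₀ : GL (Fin 2) k}

theorem Frame.le_dk (_F : Frame p π P v g₀) : (P : Subgroup G) ≤ dk π := by
  intro x hx
  rw [mem_dk]
  exact (isDbl_of_isPGroup π P.isPGroup' hx).2.trans (one_pow 2)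

theorem Frame.mem_iff (F : Frame p π P v g₀) {y : G} :
    y ∈ P ↔ (π y : Mat2 k) *ᵥ v = v ∧ (π y : Mat2 k).det = 1 := by
  have h := sylow_eq_unipFix π F.inj P F.ne F.fix
  have h' : y ∈ P ↔ y ∈ (P : Subgroup G) := Iff.rfl
  rw [h', h, mem_unipFix]

/-- `g` normalises `P` iff it preserves the line of `v` -/
theorem Frame.smul_eq_iff (F : Frame p π P v g₀) (g : G) :
    g • P = P ↔ ∃ a : k, (π g : Mat2 k) *ᵥ v = a • v := by
  constructor
  · intro h
    exact F.line _ (fixes_of_smul_eq π h F.fix)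
  · rintro ⟨a, ha⟩
    have ha0 : a ≠ 0 := by
      rintro rfl
      rw [zero_smul] at ha
      exact mulVec_ne_zero π g F.ne ha
    refine sylow_eq_of_fixes π F.inj (g • P) P F.ne (fun y hy => ?_) F.fix
    have := fixes_of_smul_eq π (rfl : g • P = g • P) F.fix y hy
    rw [ha, Matrix.mulVec_smul] at this
    exact smul_right_injective _ ha0 this

omit [Fact p.Prime] [CharP k p] in
theorem Frame.mem_borel_iff (F : Frame p π P v g₀) (x : ↥(dk π)) :
    x ∈ borel (cphi g₀ π) (det_mt_cphi g₀ π) ↔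
      (π (x : G) : Mat2 k) *ᵥ v = (mt (cphi g₀ π) x 0 0) • v := by
  rw [mem_borel, mt_cphi]
  exact conj_apply_one_zero_iff F.basis _

omit [Fact p.Prime] [CharP k p] in
theorem Frame.mem_borel_of_eigen (F : Frame p π P v g₀) {x : ↥(dk π)} {a : k}
    (h : (π (x : G) : Mat2 k) *ᵥ v = a • v) :
    x ∈ borel (cphi g₀ π) (det_mt_cphi g₀ π) ∧ mt (cphi g₀ π) x 0 0 = a := by
  rw [mem_borel, mt_cphi]
  exact conj_apply_zero_zero_of_eigen F.basis h

theorem Frame.mem_unip_iff (F : Frame p π P v g₀) (x : ↥(dk π)) :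
    x ∈ unip (cphi g₀ π) (det_mt_cphi g₀ π) ↔ (x : G) ∈ P := by
  rw [F.mem_iff, mem_unip]
  constructor
  · rintro ⟨h1, h2⟩
    have := (F.mem_borel_iff x).1 (mem_borel.2 h1)
    rw [h2, one_smul] at this
    exact ⟨this, mem_dk.1 x.2⟩
  · rintro ⟨h1, -⟩
    have h1' : (π (x : G) : Mat2 k) *ᵥ v = (1 : k) • v := by rw [one_smul, h1]
    obtain ⟨hb, h00⟩ := F.mem_borel_of_eigen h1'
    exact ⟨mem_borel.1 hb, h00⟩

theorem Frame.card_unip (F : Frame p π P v g₀) :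
    Nat.card (unip (cphi g₀ π) (det_mt_cphi g₀ π)) = Nat.card P := by
  refine Nat.card_congr
    { toFun := fun x => ⟨((x : ↥(dk π)) : G), (F.mem_unip_iff x).1 x.2⟩
      invFun := fun y => ⟨⟨(y : G), F.le_dk y.2⟩, (F.mem_unip_iff _).2 y.2⟩
      left_inv := fun x => rfl
      right_inv := fun y => rfl }

/-- **Frattini**: the kernel of the determinant is transitive on the Sylow `p`-subgroups -/
theorem Frame.exists_dk_smul_eq [Finite G] (F : Frame p π P v g₀) (Q : Sylow p G) :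
    ∃ n : ↥(dk π), (n : G) • P = Q := by
  have := dk_normal π
  obtain ⟨g, hg⟩ := MulAction.exists_smul_eq G P Q
  have hfr : nz P ⊔ dk π = ⊤ := Sylow.normalizer_sup_eq_top' P F.le_dk
  have hgmem : g ∈ dk π ⊔ nz P := by
    rw [sup_comm, hfr]
    exact Subgroup.mem_top g
  have hgmem' : g ∈ ((dk π ⊔ nz P : Subgroup G) : Set G) := hgmem
  rw [Subgroup.normal_mul] at hgmem'
  obtain ⟨n, hn, b, hb, rfl⟩ := Set.mem_mul.1 hgmem'
  refine ⟨⟨n, hn⟩, ?_⟩
  rw [← hg, mul_smul, smul_eq_iff_mem_nz.2 hb]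

/-- the stabiliser of `P` in `dk π` is the upper triangular subgroup -/
theorem Frame.stabilizer_eq (F : Frame p π P v g₀) :
    MulAction.stabilizer ↥(dk π) P = borel (cphi g₀ π) (det_mt_cphi g₀ π) := by
  ext x
  rw [MulAction.mem_stabilizer_iff, Subgroup.smul_def, F.smul_eq_iff, F.mem_borel_iff]
  constructor
  · rintro ⟨a, ha⟩
    rw [← (F.mem_borel_of_eigen ha).2] at ha
    exact ha
  · intro h
    exact ⟨_, h⟩

/-- the number of Sylow `p`-subgroups is the index of the upper triangular subgroup -/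
theorem Frame.card_sylow [Finite G] (F : Frame p π P v g₀) :
    Nat.card (Sylow p G) = (borel (cphi g₀ π) (det_mt_cphi g₀ π)).index := by
  rw [← F.stabilizer_eq, MulAction.index_stabilizer]
  have : MulAction.orbit ↥(dk π) P = Set.univ := by
    ext Q
    simp only [Set.mem_univ, iff_true]
    obtain ⟨n, hn⟩ := F.exists_dk_smul_eq Q
    refine ⟨n, ?_⟩
    show n • P = Q
    rw [Subgroup.smul_def, hn]
  rw [this, Set.ncard_univ]

/-- the hypothesis `hirr` of the class equation -/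
theorem Frame.exists_notMem_borel [Finite G] (F : Frame p π P v g₀) (h : ImgHyp p π) :
    ∃ g : ↥(dk π), g ∉ borel (cphi g₀ π) (det_mt_cphi g₀ π) := by
  have h1 := h.irr v F.ne
  push Not at h1
  obtain ⟨g, hg⟩ := h1
  obtain ⟨n, hn⟩ := F.exists_dk_smul_eq (g • P)
  refine ⟨n, fun hb => ?_⟩
  have h2 : (n : G) • P = P := by
    rw [F.smul_eq_iff]
    exact ⟨_, (F.mem_borel_iff n).1 hb⟩
  rw [h2] at hn
  obtain ⟨a, ha⟩ := (F.smul_eq_iff g).1 hn.symm
  exact hg a ha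

/-- the hypothesis `hSyl` of the class equation -/
theorem Frame.exists_conj_mem_borel [Finite G] (F : Frame p π P v g₀) (hp2 : p ≠ 2)
    (x : ↥(dk π)) (hd : Mat2.disc (mt (cphi g₀ π) x) = 0) :
    ∃ g : ↥(dk π), mt (cphi g₀ π) (g⁻¹ * x * g) 1 0 = 0 := by
  have h2 : (2 : k) ≠ 0 := two_ne_zero_of_ne_two (p := p) hp2
  have hdet : (π (x : G) : Mat2 k).det = 1 := mem_dk.1 x.2
  have htr : (mt (cphi g₀ π) x).trace = (π (x : G) : Mat2 k).trace := by
    rw [mt_cphi]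
    exact Matrix.trace_units_conj g₀ _
  rw [Mat2.disc, det_mt_cphi, htr] at hd
  set A : Mat2 k := (π (x : G) : Mat2 k) with hA
  set τ : k := A.trace with hτ
  have hτ2 : τ ^ 2 = 4 := by linear_combination hd
  have hτ0 : τ ≠ 0 := by
    rintro h0
    rw [h0] at hτ2
    have : (2 : k) * 2 = 0 := by linear_combination -hτ2
    rcases mul_eq_zero.1 this with h | h <;> exact h2 h
  -- the square of `x` is unipotent
  have hsq : A * A = τ • A - (1 : Mat2 k) := by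
    rw [mul_self_eq A, hdet, one_smul]
  have hB : IsDbl (π ((x : G) * (x : G)) : Mat2 k) 1 := by
    rw [map_mul, Units.val_mul, ← hA, hsq]
    constructor
    · rw [Matrix.trace_sub, Matrix.trace_smul, trace_one_two, smul_eq_mul]
      linear_combination hτ2
    · have e : τ • A - (1 : Mat2 k) = A * A := hsq.symm
      rw [e, Matrix.det_mul, hdet]
      ring
  have hpow : ((x : G) * (x : G)) ^ p = 1 := by
    apply F.inj
    apply Units.ext
    rw [map_pow, map_one, Units.val_pow_eq_pow_val, Units.val_one]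
    exact pow_char_eq_one_of_isDbl (p := p) hB
  -- it lies in a Sylow subgroup
  have hpg : IsPGroup p (Subgroup.zpowers ((x : G) * (x : G))) := by
    rintro ⟨y, hy⟩
    obtain ⟨j, rfl⟩ := Subgroup.mem_zpowers_iff.1 hy
    refine ⟨1, Subtype.ext ?_⟩
    rw [pow_one, Subgroup.coe_pow, Subgroup.coe_one]
    show (((x : G) * (x : G)) ^ j) ^ p = 1
    rw [← zpow_natCast, ← _root_.zpow_mul, mul_comm, _root_.zpow_mul, zpow_natCast, hpow,
      _root_.one_zpow]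
  obtain ⟨R, hR⟩ := hpg.exists_le_sylow
  obtain ⟨n, hn⟩ := F.exists_dk_smul_eq R
  have hfix := fixes_of_smul_eq π hn F.fix _ (hR (Subgroup.mem_zpowers _))
  set w : Fin 2 → k := (π (n : G) : Mat2 k) *ᵥ v with hw
  rw [map_mul, Units.val_mul, ← hA, hsq, Matrix.sub_mulVec, Matrix.smul_mulVec,
    Matrix.one_mulVec] at hfix
  -- `A w = (2 / τ) w`
  have hAw : A *ᵥ w = (2 / τ) • w := by
    have : τ • (A *ᵥ w) = (2 : k) • w := by
      rw [two_smul]
      exact sub_eq_iff_eq_add.1 hfix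
    calc A *ᵥ w = τ⁻¹ • (τ • (A *ᵥ w)) := by rw [smul_smul, inv_mul_cancel₀ hτ0, one_smul]
      _ = (2 / τ) • w := by rw [this, smul_smul, div_eq_inv_mul]
  refine ⟨n, ?_⟩
  have key : (π ((n⁻¹ * x * n : ↥(dk π)) : G) : Mat2 k) *ᵥ v = (2 / τ) • v := by
    have e : ((n⁻¹ * x * n : ↥(dk π)) : G) = (n : G)⁻¹ * (x : G) * (n : G) := rfl
    rw [e, map_mul, map_mul, Units.val_mul, Units.val_mul, ← Matrix.mulVec_mulVec,
      ← Matrix.mulVec_mulVec, ← hw, ← hA, hAw, Matrix.mulVec_smul, hw, Matrix.mulVec_mulVec,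
      ← Units.val_mul, ← map_mul, inv_mul_cancel, map_one, Units.val_one, Matrix.one_mulVec]
  exact mem_borel.1 (F.mem_borel_of_eigen key).1

/-- a nontrivial element of `P` in normalised coordinates -/
theorem Frame.exists_u0 (F : Frame p π P v g₀) (hne : (P : Subgroup G) ≠ ⊥) :
    ∃ (u₀ : ↥(dk π)) (x₀ : k), mt (cphi g₀ π) u₀ = Mat2.uE x₀ ∧ x₀ ≠ 0 := by
  obtain ⟨⟨y, hy⟩, hy1'⟩ := (Subgroup.ne_bot_iff_exists_ne_one (H := (P : Subgroup G))).1 hne
  have hy1 : y ≠ 1 := fun h1 => hy1' (Subtype.ext h1)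
  have hu : (⟨y, F.le_dk hy⟩ : ↥(dk π)) ∈ unip (cphi g₀ π) (det_mt_cphi g₀ π) :=
    (F.mem_unip_iff _).2 hy
  refine ⟨⟨y, F.le_dk hy⟩, _, mt_of_mem_unip hu, fun h0 => hy1 ?_⟩
  have h1 : mt (cphi g₀ π) (⟨y, F.le_dk hy⟩ : ↥(dk π)) = 1 := by
    rw [mt_of_mem_unip hu, h0]
    ext i j
    fin_cases i <;> fin_cases j <;> simp [Mat2.uE]
  have := (mt_eq_one_iff (cphi_injective g₀ F.inj)).1 h1
  exact congrArg Subtype.val this

/-- the eigenvalues on `v` of the elements of determinant one preserving the line of `v` -/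
def eigSet (π : G →* GL (Fin 2) k) (v : Fin 2 → k) : Set k :=
  {a | ∃ b : G, (π b : Mat2 k).det = 1 ∧ (π b : Mat2 k) *ᵥ v = a • v}

omit [Fact p.Prime] [CharP k p] in
theorem finite_eigSet [Finite G] (π : G →* GL (Fin 2) k) {v : Fin 2 → k} (hv : v ≠ 0) :
    (eigSet π v).Finite := by
  classical
  refine (Set.finite_range (fun b : G =>
    if h : ∃ a : k, (π b : Mat2 k) *ᵥ v = a • v then h.choose else 0)).subset ?_
  rintro a ⟨b, -, hb⟩
  refine ⟨b, ?_⟩
  have h : ∃ a : k, (π b : Mat2 k) *ᵥ v = a • v := ⟨a, hb⟩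
  show (if h : ∃ a : k, (π b : Mat2 k) *ᵥ v = a • v then h.choose else 0) = a
  rw [dif_pos h]
  have e : a • v = h.choose • v := hb.symm.trans h.choose_spec
  exact (smul_left_injective k hv e).symm

/-- **the class equation, transported**: for `#P ≥ 5` the number of Sylow `p`-subgroups is
`#P + 1`, and at least `(#P - 1) / 2` squares of eigenvalues occur -/
theorem Frame.card_sylow_eq [Finite G] (F : Frame p π P v g₀) (hp2 : p ≠ 2) (h : ImgHyp p π)
    (hq5 : 5 ≤ Nat.card P) :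
    Nat.card (Sylow p G) = Nat.card P + 1 ∧
      Nat.card P - 1 ≤ 2 * ((fun a : k => a ^ 2) '' eigSet π v).ncard := by
  have : Fintype ↥(dk π) := Fintype.ofFinite _
  have hne : (P : Subgroup G) ≠ ⊥ := by
    intro h0
    have h1 : Nat.card (P : Subgroup G) = 1 := by rw [h0]; exact Subgroup.card_bot
    have h2 : Nat.card P = Nat.card (P : Subgroup G) := rfl
    omega
  obtain ⟨u₀, x₀, hu₀, hx₀⟩ := F.exists_u0 hne
  have hφ := cphi_injective g₀ F.inj
  have hq5' : 5 ≤ Nat.card (unip (cphi g₀ π) (det_mt_cphi g₀ π)) := by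
    rw [F.card_unip]
    exact hq5
  obtain ⟨h1, h2, -⟩ := ClassEq.structure_theorem (hdet := det_mt_cphi g₀ π) hφ hu₀ hx₀
    (fun x _ hd => F.exists_conj_mem_borel hp2 x hd) p hp2 (F.exists_notMem_borel h) hq5'
  rw [F.card_unip] at h1 h2
  refine ⟨by rw [F.card_sylow, h1], ?_⟩
  have hSfin : ((fun a : k => a ^ 2) '' eigSet π v).Finite := (finite_eigSet π F.ne).image _
  have hle : (conjOrb (cphi g₀ π) (det_mt_cphi g₀ π) u₀).card ≤
      ((fun a : k => a ^ 2) '' eigSet π v).ncard := by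
    rw [← Set.ncard_coe_finset]
    refine Set.ncard_le_ncard_of_injOn (fun y => mt (cphi g₀ π) y 0 1 * x₀⁻¹) ?_ ?_ hSfin
    · intro y hy
      rw [Finset.mem_coe, mem_conjOrb] at hy
      obtain ⟨b, hb, rfl⟩ := hy
      show mt (cphi g₀ π) (b * u₀ * b⁻¹) 0 1 * x₀⁻¹ ∈ (fun a : k => a ^ 2) '' eigSet π v
      rw [mt_conj_u₀ (hdet := det_mt_cphi g₀ π) hu₀ hb]
      refine ⟨mt (cphi g₀ π) b 0 0, ⟨(b : G), mem_dk.1 b.2, (F.mem_borel_iff b).1 hb⟩, ?_⟩
      simp only [Mat2.uE, Matrix.of_apply, Matrix.cons_val', Matrix.cons_val_zero,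
        Matrix.cons_val_one, Matrix.cons_val_fin_one]
      field_simp
    · intro y hy y' hy' hyy'
      rw [Finset.mem_coe] at hy hy'
      have hy1 := (conjOrb_subset (hdet := det_mt_cphi g₀ π) hu₀ hx₀ hy).2
      have hy1' := (conjOrb_subset (hdet := det_mt_cphi g₀ π) hu₀ hx₀ hy').2
      have e : mt (cphi g₀ π) y 0 1 = mt (cphi g₀ π) y' 0 1 := by
        have hyy'' : mt (cphi g₀ π) y 0 1 * x₀⁻¹ = mt (cphi g₀ π) y' 0 1 * x₀⁻¹ := hyy'
        exact mul_right_cancel₀ (inv_ne_zero hx₀) hyy''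
      apply mt_injective hφ
      rw [mt_of_mem_unip hy1, mt_of_mem_unip hy1', e]
  have hpos : 0 < (conjOrb (cphi g₀ π) (det_mt_cphi g₀ π) u₀).card := by
    apply Finset.card_pos.mpr
    refine ⟨u₀, ?_⟩
    rw [mem_conjOrb]
    exact ⟨1, (borel (cphi g₀ π) (det_mt_cphi g₀ π)).one_mem, by simp⟩
  have h3 := Nat.le_of_dvd (by omega) h2
  omega

end frame

end Fermat.Agent.S56.Grp.Residue.Endgame
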